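import Mathlib
import Fermat.Agent.H12.LL.RDW2

/-!
# The component attached to an elliptic curve
-/

set_option autoImplicit false
set_option linter.unusedSectionVars false
set_option linter.style.haveILetI false

noncomputable section

namespace Fermat.Agent.TFin

open Fermat.Agent.H25 Fermat.Agent.H25.PR Fermat.Agent.H25.TR Fermat.Agent.TW Fermat.Agent.CC Matrix
open Fermat.Agent.H25.TWM Fermat.Agent.H25.GE Fermat.Agent.H12.LL
open IsLocalRing
open WeierstrassCurve WeierstrassCurve.Affine WeierstrassCurve.Affine.Point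
open Fermat.Agent.H08 Fermat.Agent.Ell
open scoped Pointwise

section Trace

variable {W : WeierstrassCurve ℤ} {p : ℕ} [hp : Fact p.Prime]

/-- congruences for the trace -/
theorem trace_dvd [(WQ W).IsElliptic] (n : ℕ) (g u : GQ) (hu : u ∈ tFix W (p ^ n)) :
    (p : ℤ_[p]) ^ n ∣ LinearMap.trace ℤ_[p] (TT (WQ W) p) (rr (WQ W) p (g * u)) -
      LinearMap.trace ℤ_[p] (TT (WQ W) p) (rr (WQ W) p g) := by
  classical
  set b := tateBasis (WQ W) p
  have h1 : ∀ f : TT (WQ W) p, ∃ f' : TT (WQ W) p,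
      rr (WQ W) p (g * u) f - rr (WQ W) p g f = (p : ℤ_[p]) ^ n • f' := by
    intro f
    have h2 : rr (WQ W) p u f - f ∈
        (maximalIdeal ℤ_[p] ^ n) • (⊤ : Submodule ℤ_[p] (TT (WQ W) p)) := by
      rw [TateMod.mem_smul_top_iff]
      change u • f.1 n - f.1 n = 0
      rw [hu _ (TateMod.tors f n), sub_self]
    rw [PadicInt.maximalIdeal_eq_span_p, Ideal.span_singleton_pow,
      Submodule.ideal_span_singleton_smul] at h2
    obtain ⟨f', -, hf'⟩ := h2
    refine ⟨rr (WQ W) p g f', ?_⟩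
    have hf'' : (p : ℤ_[p]) ^ n • f' = rr (WQ W) p u f - f := hf'
    rw [← map_smul, hf'', map_sub, map_mul]
    rfl
  rw [← trace_mtx b, ← trace_mtx b, Matrix.trace_fin_two, Matrix.trace_fin_two]
  have h3 : ∀ i, (p : ℤ_[p]) ^ n ∣ mtx b (rr (WQ W) p (g * u)) i i - mtx b (rr (WQ W) p g) i i := by
    intro i
    obtain ⟨f', hf'⟩ := h1 (b i)
    rw [mtx_apply, mtx_apply, ← Finsupp.sub_apply, ← map_sub, hf', map_smul, Finsupp.smul_apply,
      smul_eq_mul]
    exact dvd_mul_right _ _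
  have := dvd_add (h3 0) (h3 1)
  have e : mtx b (rr (WQ W) p (g * u)) 0 0 + mtx b (rr (WQ W) p (g * u)) 1 1 -
      (mtx b (rr (WQ W) p g) 0 0 + mtx b (rr (WQ W) p g) 1 1) =
      mtx b (rr (WQ W) p (g * u)) 0 0 - mtx b (rr (WQ W) p g) 0 0 +
      (mtx b (rr (WQ W) p (g * u)) 1 1 - mtx b (rr (WQ W) p g) 1 1) := by ring
  rw [e]
  exact this

end Trace

variable {W : WeierstrassCurve ℤ} {p : ℕ} [hp : Fact p.Prime]
  (hΔ : W.Δ ≠ 0) (hirr : W.ModRepIsIrreducible p) (hp2 : p ≠ 2)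
  (O : Type) [CommRing O] [IsDomain O] [IsLocalRing O] [Algebra ℤ_[p] O]
  [IsLocalHom (algebraMap ℤ_[p] O)]

variable (W p) in
/-- the trace of the `p`-adic representation with values in `O` -/
def tW (g : GQ) : O := algebraMap ℤ_[p] O (LinearMap.trace ℤ_[p] (TT (WQ W) p) (rr (WQ W) p g))

theorem tW_eq_trace (b : Module.Basis (Fin 2) ℤ_[p] (TT (WQ W) p)) :
    (fun g => (MR b (algebraMap ℤ_[p] O) g).trace) = tW W p O :=
  funext fun g => trace_MR _ _ g

/-- **(B7)** the component attached to the curve. -/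
def WC (S : Finset Nat.Primes) (bad : Finset ℕ)
    (hS : ∀ q : Nat.Primes, q ∉ S → (q : ℕ) ≠ p ∧ W.IsGoodPrimeFor q)
    (hbad : ∀ ℓ : ℕ, ℓ.Prime → ℓ ∉ bad → ℓ ≠ p ∧ W.IsGoodPrimeFor ℓ) :
    CData (RDW hΔ hirr hp2 O) S bad where
  B := O
  T ℓ := ((W.apOfModel ℓ : ℤ) : O)
  X := Unit
  P _ := O
  f := AlgHom.pi fun _ => AlgHom.id O O
  f_inj x y h := congrFun h ()
  t _ := tW W p O
  ps _ := by
    haveI := isElliptic_WQ hΔ
    rw [← tW_eq_trace O (tateBasis (WQ W) p)]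
    exact isPseudo2_trace _
  tc _ := by
    change algebraMap ℤ_[p] O _ = 0
    have : LinearMap.trace ℤ_[p] (TT (WQ W) p) (rr (WQ W) p complexConjugation) = 0 :=
      trace_conj hΔ hirr
    rw [RDW_c, this, _root_.map_zero]
  dt _ g := by
    haveI := isElliptic_WQ hΔ
    have h := trace_sq (MR (tateBasis (WQ W) p) (algebraMap ℤ_[p] O) g)
    rw [← map_mul, trace_MR, trace_MR, det_MR] at h
    exact h
  cont _ n := by
    haveI := isElliptic_WQ hΔ
    refine ⟨tFix W (p ^ n), tFix_open hΔ (pow_ne_zero _ hp.out.ne_zero) fun q hq => ?_,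
      fun u hu g => ?_⟩
    · obtain ⟨h1, h2⟩ := hS q hq
      refine unrAt_of_good q.2 h2 fun h => h1 ?_
      exact (Nat.prime_dvd_prime_iff_eq q.2 hp.out).mp (q.2.dvd_of_dvd_pow h)
    · have h1 := trace_dvd (p := p) n g u hu
      have h2 := map_dvd (algebraMap ℤ_[p] O) h1
      rw [map_sub, map_pow, map_natCast] at h2
      obtain ⟨c, hc⟩ := h2
      change tW W p O (g * u) - tW W p O g ∈ lamI O O ^ n
      have hc' : tW W p O (g * u) - tW W p O g = (p : O) ^ n * c := hc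
      rw [hc']
      refine Ideal.mul_mem_right _ _ (Ideal.pow_mem_pow ?_ n)
      have : lamI O O = maximalIdeal O := by rw [lamI]; exact Ideal.map_id _
      rw [this]
      exact p_mem_maxO O
  frob ℓ hℓ hb A hA φ hφ _ := by
    obtain ⟨h1, h2⟩ := hbad ℓ hℓ hb
    have h := zRep_trace_frob hΔ hirr hℓ h2 h1 hA hφ
    have h3 : LinearMap.trace ℤ_[p] (TT (WQ W) p) (rr (WQ W) p φ) = (W.apOfModel ℓ : ℤ_[p]) := h
    change algebraMap ℤ_[p] O _ = _
    rw [h3, map_intCast]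
    rfl
  res := residue O
  res_comp a := rfl
  loc b hb := by
    by_contra h
    exact hb ((residue_eq_zero_iff b).mpr h)
  res_T ℓ hℓ hb A hA φ hφ := by
    obtain ⟨h1, h2⟩ := hbad ℓ hℓ hb
    rw [RDW_tbar_frob hΔ hirr hp2 hℓ h2 h1 hA hφ, map_intCast]

section Facts

variable {O}

/-- unramified at the good primes -/
theorem rr_eq_one {q : ℕ} (hq : q.Prime) (hqp : q ≠ p) (hgood : W.IsGoodPrimeFor q)
    {A : ValuationSubring Qb} (hA : A.LiesOverPrime q) {σ : GQ}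
    (hσ : σ ∈ A.inertiaSubgroupIn ℚ) : rr (WQ W) p σ = 1 :=
  rr_unramified hq hgood hqp hA hσ

theorem tW_unr {q : ℕ} (hq : q.Prime) (hqp : q ≠ p) (hgood : W.IsGoodPrimeFor q)
    {A : ValuationSubring Qb} (hA : A.LiesOverPrime q) {σ : GQ}
    (hσ : σ ∈ A.inertiaSubgroupIn ℚ) (g : GQ) : tW W p O (σ * g) = tW W p O g := by
  rw [tW, tW, map_mul, rr_eq_one hq hqp hgood hA hσ, one_mul]

theorem tW_unr' {q : ℕ} (hq : q.Prime) (hqp : q ≠ p) (hgood : W.IsGoodPrimeFor q)
    {A : ValuationSubring Qb} (hA : A.LiesOverPrime q) {σ : GQ}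
    (hσ : σ ∈ A.inertiaSubgroupIn ℚ) (g : GQ) : tW W p O (g * σ) = tW W p O g := by
  rw [tW, tW, map_mul, rr_eq_one hq hqp hgood hA hσ, mul_one]

include hirr hΔ in
/-- the trace is `2` on inertia at the primes different from `p` of semistable reduction -/
theorem tW_inertia {q : ℕ} (hq : q.Prime) (hqp : q ≠ p) (hss : (q : ℤ) ∣ W.Δ → ¬ (q : ℤ) ∣ W.c₄)
    {A : ValuationSubring Qb} (hA : A.LiesOverPrime q) {σ : GQ}
    (hσ : σ ∈ A.inertiaSubgroupIn ℚ) : tW W p O σ = 2 := by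
  have hell := isElliptic_WQ hΔ
  have hns := exists_nonscalar_of_irr hΔ hirr
  have hdet := det_inertia hns hΔ hq hqp hA hσ
  have hun := rr_unipotent hns hΔ hq hqp hss hA hσ
  have htr : LinearMap.trace ℤ_[p] (TT (WQ W) p) (rr (WQ W) p σ) = 2 := by
    by_cases hsc : ∀ c : ℤ_[p], rr (WQ W) p σ ≠ c • 1
    · refine (end_of_rel (tateBasis (WQ W) p) hsc (s := 2) (d := 1) ?_).1
      rw [← hun]
      simp only [mul_sub, sub_mul, one_mul, mul_one, one_smul, two_smul]
      abel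
    · push Not at hsc
      obtain ⟨c, hc⟩ := hsc
      have h1 : (rr (WQ W) p σ - 1) * (rr (WQ W) p σ - 1) = ((c - 1) * (c - 1)) • (1 : Module.End ℤ_[p] (TT (WQ W) p)) := by
        rw [hc]
        have : (c • (1 : Module.End ℤ_[p] (TT (WQ W) p)) - 1) = (c - 1) • 1 := by
          rw [sub_smul, one_smul]
        rw [this, smul_mul_smul_comm, one_mul]
      rw [h1] at hun
      have h2 : (c - 1) * (c - 1) = 0 := by
        have h3 := congrArg (fun f : Module.End ℤ_[p] (TT (WQ W) p) =>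
          (tateBasis (WQ W) p).repr (f (tateBasis (WQ W) p 0)) 0) hun
        simpa using h3
      have h4 : c = 1 := by
        have := mul_self_eq_zero.mp h2
        exact sub_eq_zero.mp this
      rw [hc, trace_smul_one (tateBasis (WQ W) p), h4, mul_one]
  rw [tW, htr, map_ofNat]

include hirr hΔ in
/-- the trace of Frobenius at the multiplicative primes -/
theorem tW_frob_mult {q : ℕ} (hq : q.Prime) (hqp : q ≠ p) (hqΔ : (q : ℤ) ∣ W.Δ)
    (hss : ¬ (q : ℤ) ∣ W.c₄) {A : ValuationSubring Qb}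
    (hA : A.LiesOverPrime q) {φ : GQ} (hφ : A.IsFrobeniusAt φ q) :
    ∃ ε : O, (ε = 1 ∨ ε = -1) ∧ tW W p O φ = ε * ((q : O) + 1) := by
  rcases zRep_mult_frob (hΔ := hΔ) hirr hq hqp hqΔ hss hA hφ with h | h
  · refine ⟨1, Or.inl rfl, ?_⟩
    have h2 : LinearMap.trace ℤ_[p] (TT (WQ W) p) (rr (WQ W) p φ) = (q : ℤ_[p]) + 1 := h
    rw [tW, h2, map_add, map_natCast, map_one, one_mul]
  · refine ⟨-1, Or.inr rfl, ?_⟩
    have h2 : LinearMap.trace ℤ_[p] (TT (WQ W) p) (rr (WQ W) p φ) = -((q : ℤ_[p]) + 1) := h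
    rw [tW, h2, map_neg, map_add, map_natCast, map_one, neg_one_mul]

end Facts

end Fermat.Agent.TFin
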