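import Mathlib
import Fermat.Agent.H25.Asm8

set_option autoImplicit false
set_option linter.unusedSectionVars false

/-!
# Level raising data between two components of a system
-/

namespace Fermat.Agent.H25.GE

open Fermat.Agent.H25 Fermat.Agent.H25.PR Fermat.Agent.CC Fermat.Agent.TW IsLocalRing Matrix
open Fermat.Agent.H05 Fermat.Agent.H25.TR Fermat.Agent.H25.TWM Fermat.Agent.TAlg Fermat.Agent.H25.GD

namespace Sys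

/-- Level raising data at a prime `q`, between the component `i` (level `N`, `q ∤ N`) and the
component `i'` (level `N q`), for all Taylor-Wiles levels `n` and for the bottom level.  `i₁`, `i₂`
are the two degeneracy maps, `j₁`, `j₂` the transposed maps, `I₁ I₂ J₁ J₂` the same maps at the
bottom level. -/
structure RaiseD {O k : Type} [CommRing O] [IsLocalRing O] [Field k] {D : RD O k}
    {p : ℕ} {r : ℕ} {κ : Type} (Y : Sys D p r κ) {i i' : κ} {d d' : ℕ}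
    {Mo : ∀ n, MData (Y.H n i) p (Y.qv n) (Y.e n) d}
    {Mo' : ∀ n, MData (Y.H n i') p (Y.qv n) (Y.e n) d'}
    (Z : Y.BData i Mo) (Z' : Y.BData i' Mo') (q : Nat.Primes) (ϖ : O) where
  i₁ : ∀ n, (Mo n).M →ₗ[O] (Mo' n).M
  i₂ : ∀ n, (Mo n).M →ₗ[O] (Mo' n).M
  j₁ : ∀ n, (Mo' n).M →ₗ[O] (Mo n).M
  j₂ : ∀ n, (Mo' n).M →ₗ[O] (Mo n).M
  I₁ : Z.N →+ Z'.N
  I₂ : Z.N →+ Z'.N
  J₁ : Z'.N →+ Z.N
  J₂ : Z'.N →+ Z.N
  f_i₁ : ∀ n x, Z'.f n (i₁ n x) = I₁ (Z.f n x)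
  f_i₂ : ∀ n x, Z'.f n (i₂ n x) = I₂ (Z.f n x)
  f_j₁ : ∀ n x, Z.f n (j₁ n x) = J₁ (Z'.f n x)
  f_j₂ : ∀ n x, Z.f n (j₂ n x) = J₂ (Z'.f n x)
  bad : ℕ → Finset ℕ
  i₁_T : ∀ (n ℓ : ℕ), ℓ.Prime → ℓ ∉ bad n → ∀ x,
    i₁ n ((Y.H n i).T ℓ • x) = (Y.H n i').T ℓ • i₁ n x
  i₂_T : ∀ (n ℓ : ℕ), ℓ.Prime → ℓ ∉ bad n → ∀ x,
    i₂ n ((Y.H n i).T ℓ • x) = (Y.H n i').T ℓ • i₂ n x
  j₁_T : ∀ (n ℓ : ℕ), ℓ.Prime → ℓ ∉ bad n → ∀ x,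
    j₁ n ((Y.H n i').T ℓ • x) = (Y.H n i).T ℓ • j₁ n x
  j₂_T : ∀ (n ℓ : ℕ), ℓ.Prime → ℓ ∉ bad n → ∀ x,
    j₂ n ((Y.H n i').T ℓ • x) = (Y.H n i).T ℓ • j₂ n x
  /-- the (normalised) Hecke operator at `q` at level `N` -/
  Tq : ∀ n, (Mo n).M →ₗ[O] (Mo n).M
  comp11 : ∀ n x, j₁ n (i₁ n x) = (((q : ℕ) : O) + 1) • x
  comp12 : ∀ n x, j₁ n (i₂ n x) = Tq n x
  comp21 : ∀ n x, j₂ n (i₁ n x) = Tq n x
  comp22 : ∀ n x, j₂ n (i₂ n x) = (((q : ℕ) : O) + 1) • x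
  /-- the bottom module of level `N q` has no `ϖ`-torsion -/
  tf : ∀ x : Z'.N, algebraMap O (Y.H₀ i').B ϖ • x = 0 → x = 0
  /-- Ihara's lemma modulo `ϖ`, at the bottom level -/
  ihara : ∀ (a b : Z.N) (w : Z'.N), I₁ a + I₂ b = algebraMap O (Y.H₀ i').B ϖ • w →
    (∃ a' : Z.N, a = algebraMap O (Y.H₀ i).B ϖ • a') ∧
    ∃ b' : Z.N, b = algebraMap O (Y.H₀ i).B ϖ • b'
  /-- dual Ihara modulo `ϖ`, at the bottom level -/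
  dual : ∀ a b : Z.N, ∃ (x : Z'.N) (u v : Z.N), a = J₁ x + algebraMap O (Y.H₀ i).B ϖ • u ∧
    b = J₂ x + algebraMap O (Y.H₀ i).B ϖ • v

end Sys

end Fermat.Agent.H25.GE
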