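import Mathlib

set_option autoImplicit false
set_option linter.unusedSectionVars false
set_option linter.style.haveILetI false

/-!
# Split injections of free modules over a quotient of a local ring
-/

namespace Fermat.Agent.H25.GE

open IsLocalRing

section Local

variable {R : Type} [CommRing R] [IsLocalRing R] {ι ι' : Type} [Finite ι] [Finite ι']

/-- a map of free modules which is injective modulo the maximal ideal is split injective, with
free cokernel. -/
theorem exists_split_local (φ : (ι → R) →ₗ[R] (ι' → R))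
    (hφ : ∀ x, φ x ∈ maximalIdeal R • (⊤ : Submodule R (ι' → R)) →
      x ∈ maximalIdeal R • (⊤ : Submodule R (ι → R))) :
    ∃ (ρ : (ι' → R) →ₗ[R] (ι → R)) (c : ℕ) (g : (ι' → R) →ₗ[R] (Fin c → R)),
      (∀ x, ρ (φ x) = x) ∧ c + Nat.card ι = Nat.card ι' ∧ Function.Surjective g ∧
      LinearMap.ker g = LinearMap.range φ := by
  classical
  haveI := Fintype.ofFinite ι
  haveI := Fintype.ofFinite ι'
  have h1 : Function.Injective (φ.lTensor (ResidueField R)) := by
    rw [injective_iff_map_eq_zero]
    intro z hz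
    obtain ⟨x, rfl⟩ : ∃ x, (TensorProduct.quotTensorEquivQuotSMul (ι → R) (maximalIdeal R)).symm
        (Submodule.Quotient.mk x) = z := by
      obtain ⟨x, hx⟩ := Submodule.Quotient.mk_surjective _
        (TensorProduct.quotTensorEquivQuotSMul (ι → R) (maximalIdeal R) z)
      exact ⟨x, by rw [hx, LinearEquiv.symm_apply_apply]⟩
    rw [TensorProduct.quotTensorEquivQuotSMul_symm_mk] at hz ⊢
    have h2 : (1 : ResidueField R) ⊗ₜ[R] φ x = 0 := hz
    have h3 := congrArg (TensorProduct.quotTensorEquivQuotSMul (ι' → R) (maximalIdeal R)) h2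
    have h4 : (Submodule.Quotient.mk (φ x) : (ι' → R) ⧸ (maximalIdeal R • (⊤ : Submodule R
        (ι' → R)))) = 0 := by
      have h3' := h3.trans (LinearEquiv.map_zero _)
      rw [← h3']
      exact (TensorProduct.quotTensorEquivQuotSMul_mk_one_tmul (maximalIdeal R) (φ x)).symm
    rw [Submodule.Quotient.mk_eq_zero] at h4
    have h5 := hφ x h4
    rw [← Submodule.Quotient.mk_eq_zero] at h5
    have h6 := congrArg (TensorProduct.quotTensorEquivQuotSMul (ι → R) (maximalIdeal R)).symm h5
    rw [map_zero, TensorProduct.quotTensorEquivQuotSMul_symm_mk] at h6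
    exact h6
  obtain ⟨ρ, hρ⟩ := (IsLocalRing.split_injective_iff_lTensor_residueField_injective φ).mpr h1
  have hρ' : ∀ x, ρ (φ x) = x := fun x => LinearMap.congr_fun hρ x
  haveI hfree : Module.Free R ((ι' → R) ⧸ LinearMap.range φ) :=
    Module.free_of_lTensor_residueField_injective φ (LinearMap.range φ).mkQ
      (Submodule.mkQ_surjective _) φ.exact_map_mkQ_range h1
  let Q := (ι' → R) ⧸ LinearMap.range φ
  let E : (ι' → R) ≃ₗ[R] (ι → R) × Q := LinearEquiv.ofBijective
    (ρ.prod (LinearMap.range φ).mkQ) (by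
      constructor
      · rw [injective_iff_map_eq_zero]
        intro x hx
        have e1 : ρ x = 0 := congrArg Prod.fst hx
        have e2 : (LinearMap.range φ).mkQ x = 0 := congrArg Prod.snd hx
        rw [Submodule.mkQ_apply, Submodule.Quotient.mk_eq_zero] at e2
        obtain ⟨y, rfl⟩ := e2
        rw [hρ'] at e1
        rw [e1, map_zero]
      · rintro ⟨y, q⟩
        obtain ⟨z, rfl⟩ := Submodule.Quotient.mk_surjective _ q
        refine ⟨φ y + (z - φ (ρ z)), Prod.ext ?_ ?_⟩
        · change ρ (φ y + (z - φ (ρ z))) = y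
          rw [map_add, map_sub, hρ', hρ', sub_self, add_zero]
        · change Submodule.Quotient.mk (φ y + (z - φ (ρ z))) = Submodule.Quotient.mk z
          rw [Submodule.Quotient.eq]
          refine ⟨y - ρ z, ?_⟩
          rw [map_sub]
          abel)
  let b := Module.finBasis R Q
  refine ⟨ρ, Module.finrank R Q, b.equivFun.toLinearMap ∘ₗ (LinearMap.range φ).mkQ, hρ', ?_, ?_, ?_⟩
  · have h2 := E.finrank_eq
    rw [Module.finrank_prod, Module.finrank_fintype_fun_eq_card,
      Module.finrank_fintype_fun_eq_card] at h2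
    rw [Nat.card_eq_fintype_card, Nat.card_eq_fintype_card, h2, add_comm]
  · exact b.equivFun.surjective.comp (Submodule.mkQ_surjective _)
  · ext x
    rw [LinearMap.mem_ker, LinearMap.comp_apply, LinearEquiv.coe_coe,
      LinearEquiv.map_eq_zero_iff, Submodule.mkQ_apply, Submodule.Quotient.mk_eq_zero]

end Local

section Quot

theorem mem_pi_smul_top {R : Type} [CommRing R] {ι : Type} [Finite ι] (I : Ideal R) (v : ι → R) :
    v ∈ I • (⊤ : Submodule R (ι → R)) ↔ ∀ i, v i ∈ I := by
  classical
  haveI := Fintype.ofFinite ι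
  constructor
  · intro h i
    have h1 := Submodule.mem_map_of_mem (f := LinearMap.proj (R := R) (φ := fun _ : ι => R) i) h
    rw [Submodule.map_smul''] at h1
    have h2 : (LinearMap.proj (R := R) (φ := fun _ : ι => R) i) v ∈ I • (⊤ : Ideal R) :=
      Submodule.smul_mono le_rfl le_top h1
    rw [smul_eq_mul, Ideal.mul_top] at h2
    exact h2
  · intro h
    have h3 : v = ∑ i, (v i) • (Pi.single i 1 : ι → R) := by
      funext i
      rw [Finset.sum_apply, Finset.sum_eq_single i]
      · rw [Pi.smul_apply, Pi.single_eq_same, smul_eq_mul, mul_one]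
      · intro j _ hj
        rw [Pi.smul_apply, Pi.single_eq_of_ne hj.symm, smul_zero]
      · intro h
        exact absurd (Finset.mem_univ i) h
    rw [h3]
    exact Submodule.sum_mem _ (fun i _ => Submodule.smul_mem_smul (h i) trivial)

variable {S : Type} [CommRing S] [IsLocalRing S] {J : Ideal S}

theorem mem_pi_quot_iff {ι : Type} [Finite ι] [IsLocalRing (S ⧸ J)]
    (v : ι → S ⧸ J) :
    v ∈ maximalIdeal S • (⊤ : Submodule S (ι → S ⧸ J)) ↔
      v ∈ maximalIdeal (S ⧸ J) • (⊤ : Submodule (S ⧸ J) (ι → S ⧸ J)) := by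
  classical
  haveI := Fintype.ofFinite ι
  have hmax : ∀ s : S, Ideal.Quotient.mk J s ∈ maximalIdeal (S ⧸ J) ↔ s ∈ maximalIdeal S := by
    intro s
    haveI : IsLocalHom (Ideal.Quotient.mk J) :=
      IsLocalHom.of_surjective _ Ideal.Quotient.mk_surjective
    rw [mem_maximalIdeal, mem_maximalIdeal, mem_nonunits_iff, mem_nonunits_iff,
      isUnit_map_iff]
  rw [mem_pi_smul_top]
  constructor
  · intro h i
    refine Submodule.smul_induction_on (p := fun v : ι → S ⧸ J => v i ∈ maximalIdeal (S ⧸ J))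
      h ?_ ?_
    · intro s hs w _
      obtain ⟨y, hy⟩ := Ideal.Quotient.mk_surjective (w i)
      rw [Pi.smul_apply, ← hy]
      change Ideal.Quotient.mk J (s * y) ∈ _
      rw [hmax]
      exact Ideal.mul_mem_right _ _ hs
    · intro x y hx hy
      exact add_mem hx hy
  · intro h
    choose a ha using fun i => Ideal.Quotient.mk_surjective (v i)
    have h3 : v = ∑ i, (a i) • (Pi.single i 1 : ι → S ⧸ J) := by
      funext i
      rw [Finset.sum_apply, Finset.sum_eq_single i]
      · rw [Pi.smul_apply, Pi.single_eq_same, ← ha]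
        change _ = Ideal.Quotient.mk J (a i * 1)
        rw [mul_one]
      · intro j _ hj
        rw [Pi.smul_apply, Pi.single_eq_of_ne hj.symm, smul_zero]
      · intro h
        exact absurd (Finset.mem_univ i) h
    rw [h3]
    refine Submodule.sum_mem _ (fun i _ => Submodule.smul_mem_smul ?_ trivial)
    rw [← hmax, ha]
    exact h i

/-- **Splitting**: a map of free `S ⧸ J`-modules which is injective modulo the maximal ideal of
`S` is split injective, with free cokernel. -/
theorem exists_split {M M' ι ι' : Type} [AddCommGroup M] [Module S M] [AddCommGroup M']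
    [Module S M'] [Finite ι] [Finite ι'] (hJ : J ≠ ⊤) (e : M ≃ₗ[S] (ι → S ⧸ J))
    (e' : M' ≃ₗ[S] (ι' → S ⧸ J)) (φ : M →ₗ[S] M')
    (hφ : ∀ x, φ x ∈ maximalIdeal S • (⊤ : Submodule S M') →
      x ∈ maximalIdeal S • (⊤ : Submodule S M)) :
    ∃ (ρ : M' →ₗ[S] M) (c : ℕ) (g : M' →ₗ[S] (Fin c → S ⧸ J)),
      (∀ x, ρ (φ x) = x) ∧ c + Nat.card ι = Nat.card ι' ∧ Function.Surjective g ∧
      LinearMap.ker g = LinearMap.range φ := by
  haveI : Nontrivial (S ⧸ J) := Ideal.Quotient.nontrivial_iff.mpr hJ
  haveI : IsLocalRing (S ⧸ J) :=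
    IsLocalRing.of_surjective' (Ideal.Quotient.mk J) Ideal.Quotient.mk_surjective
  have hs : Function.Surjective (algebraMap S (S ⧸ J)) := Ideal.Quotient.mk_surjective
  have hmove : ∀ {A B : Type} [AddCommGroup A] [Module S A] [AddCommGroup B] [Module S B]
      (E : A →ₗ[S] B) (x : A), x ∈ maximalIdeal S • (⊤ : Submodule S A) →
        E x ∈ maximalIdeal S • (⊤ : Submodule S B) := by
    intro A B _ _ _ _ E x hx
    have h1 := Submodule.mem_map_of_mem (f := E) hx
    rw [Submodule.map_smul''] at h1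
    exact Submodule.smul_mono le_rfl le_top h1
  let φ' : (ι → S ⧸ J) →ₗ[S ⧸ J] (ι' → S ⧸ J) :=
    (e'.toLinearMap ∘ₗ φ ∘ₗ e.symm.toLinearMap).extendScalarsOfSurjective hs
  have hφ'a : ∀ x, φ' x = e' (φ (e.symm x)) := fun x => rfl
  obtain ⟨ρ, c, g, h1, h2, h3, h4⟩ := exists_split_local φ' (by
    intro x hx
    rw [← mem_pi_quot_iff] at hx ⊢
    rw [hφ'a] at hx
    have h1 := hmove e'.symm.toLinearMap _ hx
    rw [LinearEquiv.coe_coe, LinearEquiv.symm_apply_apply] at h1
    have h2 := hmove e.toLinearMap _ (hφ _ h1)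
    rw [LinearEquiv.coe_coe, LinearEquiv.apply_symm_apply] at h2
    exact h2)
  refine ⟨e.symm.toLinearMap ∘ₗ ρ.restrictScalars S ∘ₗ e'.toLinearMap, c,
    g.restrictScalars S ∘ₗ e'.toLinearMap, fun x => ?_, h2, h3.comp e'.surjective, ?_⟩
  · change e.symm (ρ (e' (φ x))) = x
    have h5 : e' (φ x) = φ' (e x) := by rw [hφ'a, LinearEquiv.symm_apply_apply]
    rw [h5, h1, LinearEquiv.symm_apply_apply]
  · ext x
    rw [LinearMap.mem_ker]
    change g (e' x) = 0 ↔ _
    rw [← LinearMap.mem_ker, h4]
    constructor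
    · rintro ⟨y, hy⟩
      refine ⟨e.symm y, e'.injective ?_⟩
      rw [← hy, hφ'a]
    · rintro ⟨y, rfl⟩
      exact ⟨e y, by rw [hφ'a, LinearEquiv.symm_apply_apply]⟩

end Quot

end Fermat.Agent.H25.GE
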