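import Mathlib
import Fermat.Agent.TAlg.FrameThm

set_option autoImplicit false
set_option linter.unusedSectionVars false
set_option linter.style.haveILetI false

/-!
# Quotients of patching data, and change of the ring acting
-/

namespace Fermat.Agent.TAlg

section Quot

variable {ι S : Type} [CommRing S] {J : ι → Ideal S} {A : ι → Type} [∀ n, CommRing (A n)]
  {θA : ∀ n, S →+* A n}

/-- the action on a quotient -/
noncomputable def quotAct {S M A : Type} [CommRing S] [AddCommGroup M] [Module S M] [CommRing A]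
    (ρ : A →+* Module.End S M) (K : Submodule S M) (hK : ∀ a, ∀ x ∈ K, ρ a x ∈ K) :
    A →+* Module.End S (M ⧸ K) where
  toFun a := K.mapQ K (ρ a) (hK a)
  map_one' := by
    refine LinearMap.ext fun x => ?_
    obtain ⟨x, rfl⟩ := Submodule.Quotient.mk_surjective _ x
    rw [Submodule.mapQ_apply, map_one]
    rfl
  map_mul' a b := by
    refine LinearMap.ext fun x => ?_
    obtain ⟨x, rfl⟩ := Submodule.Quotient.mk_surjective _ x
    rw [Module.End.mul_apply, Submodule.mapQ_apply, Submodule.mapQ_apply, Submodule.mapQ_apply,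
      map_mul]
    rfl
  map_zero' := by
    refine LinearMap.ext fun x => ?_
    obtain ⟨x, rfl⟩ := Submodule.Quotient.mk_surjective _ x
    rw [Submodule.mapQ_apply, map_zero]
    rfl
  map_add' a b := by
    refine LinearMap.ext fun x => ?_
    obtain ⟨x, rfl⟩ := Submodule.Quotient.mk_surjective _ x
    rw [LinearMap.add_apply, Submodule.mapQ_apply, Submodule.mapQ_apply, Submodule.mapQ_apply,
      map_add]
    rfl

theorem quotAct_mk {S M A : Type} [CommRing S] [AddCommGroup M] [Module S M] [CommRing A]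
    (ρ : A →+* Module.End S M) (K : Submodule S M) (hK : ∀ a, ∀ x ∈ K, ρ a x ∈ K) (a : A) (x : M) :
    quotAct ρ K hK a (Submodule.Quotient.mk x) = Submodule.Quotient.mk (ρ a x) := rfl

theorem quotAct_eq_zero_iff {S M A : Type} [CommRing S] [AddCommGroup M] [Module S M] [CommRing A]
    (ρ : A →+* Module.End S M) (K : Submodule S M) (hK : ∀ a, ∀ x ∈ K, ρ a x ∈ K) (a : A) :
    quotAct ρ K hK a = 0 ↔ ∀ x, ρ a x ∈ K := by
  constructor
  · intro h x
    rw [← Submodule.Quotient.mk_eq_zero, ← quotAct_mk ρ K hK, h, LinearMap.zero_apply]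
  · intro h
    refine LinearMap.ext fun x => ?_
    obtain ⟨x, rfl⟩ := Submodule.Quotient.mk_surjective _ x
    rw [quotAct_mk, LinearMap.zero_apply, Submodule.Quotient.mk_eq_zero]
    exact h x

/-- **Quotient of patching data.** -/
noncomputable def UData.quot (U : UData S J A θA) (K : ∀ n, Submodule S (U.M n))
    (hK : ∀ n a, ∀ x ∈ K n, U.ρ n a x ∈ K n) (d : ℕ)
    (e : ∀ n, (U.M n ⧸ K n) ≃ₗ[S] (Fin d → S ⧸ J n)) : UData S J A θA where
  M n := U.M n ⧸ K n
  d := d
  e := e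
  ρ n := quotAct (U.ρ n) (K n) (hK n)
  hθ n s := by
    refine LinearMap.ext fun x => ?_
    obtain ⟨x, rfl⟩ := Submodule.Quotient.mk_surjective _ x
    rw [quotAct_mk, U.hθ]
    rfl

/-- **Quotient of the bottom level.** -/
noncomputable def UBase.quot {U : UData S J A θA} {𝔞 : Ideal S} {A₀ : Type} [CommRing A₀]
    (B : UBase U 𝔞 A₀) (K : ∀ n, Submodule S (U.M n))
    (hK : ∀ n a, ∀ x ∈ K n, U.ρ n a x ∈ K n) (d : ℕ)
    (e : ∀ n, (U.M n ⧸ K n) ≃ₗ[S] (Fin d → S ⧸ J n)) (K₀ : Submodule S B.N)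
    (hK₀ : ∀ a, ∀ x ∈ K₀, B.ρ₀ a x ∈ K₀) (h₀ : ∀ n, (K n).map (B.f n) = K₀) :
    UBase (U.quot K hK d e) 𝔞 A₀ where
  π := B.π
  surj := B.surj
  πθ := B.πθ
  N := B.N ⧸ K₀
  ρ₀ := quotAct B.ρ₀ K₀ hK₀
  f n := (K n).mapQ K₀ (B.f n) (by
    rw [← Submodule.map_le_iff_le_comap, h₀])
  f_surj n := by
    intro y
    obtain ⟨y, rfl⟩ := Submodule.Quotient.mk_surjective _ y
    obtain ⟨x, rfl⟩ := B.f_surj n y
    exact ⟨Submodule.Quotient.mk x, rfl⟩
  ker_f n := by
    apply le_antisymm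
    · intro x hx
      obtain ⟨x, rfl⟩ := Submodule.Quotient.mk_surjective _ x
      rw [LinearMap.mem_ker] at hx
      have h1 : B.f n x ∈ K₀ := (Submodule.Quotient.mk_eq_zero _).mp hx
      rw [← h₀ n] at h1
      obtain ⟨y, hy, hyx⟩ := h1
      have h2 : x - y ∈ LinearMap.ker (B.f n) := by
        rw [LinearMap.mem_ker, map_sub, hyx, sub_self]
      rw [B.ker_f] at h2
      have h3 : (Submodule.Quotient.mk x : U.M n ⧸ K n) = (K n).mkQ (x - y) := by
        rw [map_sub]
        have : (K n).mkQ y = 0 := (Submodule.Quotient.mk_eq_zero _).mpr hy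
        rw [this, sub_zero]
        rfl
      rw [h3]
      have h4 := Submodule.mem_map_of_mem (f := (K n).mkQ) h2
      rw [Submodule.map_smul''] at h4
      exact Submodule.smul_mono le_rfl le_top h4
    · rw [Submodule.smul_le]
      intro r hr x _
      obtain ⟨x, rfl⟩ := Submodule.Quotient.mk_surjective _ x
      rw [LinearMap.mem_ker, map_smul]
      change r • (Submodule.Quotient.mk (B.f n x) : B.N ⧸ K₀) = 0
      have h5 : r • x ∈ LinearMap.ker (B.f n) := by
        rw [B.ker_f]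
        exact Submodule.smul_mem_smul hr trivial
      rw [← Submodule.Quotient.mk_smul, ← map_smul, LinearMap.mem_ker.mp h5]
      rfl
  equiv n r x := by
    obtain ⟨x, rfl⟩ := Submodule.Quotient.mk_surjective _ x
    change Submodule.Quotient.mk (B.f n (U.ρ n r x)) =
      Submodule.Quotient.mk (B.ρ₀ (B.π n r) (B.f n x))
    rw [B.equiv]

end Quot

section Push

variable {ι S : Type} [CommRing S] {J : ι → Ideal S} {A A' : ι → Type} [∀ n, CommRing (A n)]
  [∀ n, CommRing (A' n)] {θA : ∀ n, S →+* A n} (ψ : ∀ n, A n →+* A' n)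
  (hψ : ∀ n, Function.Surjective (ψ n))

/-- **Patching data whose action factors through a quotient.** -/
noncomputable def UData.push (U : UData S J A θA)
    (h : ∀ n, RingHom.ker (ψ n) ≤ RingHom.ker (U.ρ n)) :
    UData S J A' (fun n => (ψ n).comp (θA n)) where
  M := U.M
  d := U.d
  e := U.e
  ρ n := (ψ n).liftOfSurjective (hψ n) ⟨U.ρ n, h n⟩
  hθ n s := by
    rw [← U.hθ, RingHom.comp_apply, RingHom.liftOfSurjective_comp_apply]

theorem UData.push_ρ (U : UData S J A θA)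
    (h : ∀ n, RingHom.ker (ψ n) ≤ RingHom.ker (U.ρ n)) (n : ι) (a : A n) :
    (U.push ψ hψ h).ρ n (ψ n a) = U.ρ n a :=
  RingHom.liftOfSurjective_comp_apply (ψ n) (hψ n) ⟨U.ρ n, h n⟩ a

/-- bottom level of patching data whose action factors through a quotient. -/
noncomputable def UBase.push {U : UData S J A θA} {𝔞 : Ideal S} {A₀ A₀' : Type} [CommRing A₀]
    [CommRing A₀'] (B : UBase U 𝔞 A₀)
    (h : ∀ n, RingHom.ker (ψ n) ≤ RingHom.ker (U.ρ n)) (ψ₀ : A₀ →+* A₀')
    (hψ₀ : Function.Surjective ψ₀) (h₀ : RingHom.ker ψ₀ ≤ RingHom.ker B.ρ₀)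
    (π' : ∀ n, A' n →+* A₀') (hπ' : ∀ n a, π' n (ψ n a) = ψ₀ (B.π n a)) :
    UBase (U.push ψ hψ h) 𝔞 A₀' where
  π := π'
  surj n := by
    intro y
    obtain ⟨y, rfl⟩ := hψ₀ y
    obtain ⟨x, rfl⟩ := B.surj n y
    exact ⟨ψ n x, hπ' n x⟩
  πθ n s hs := by
    rw [RingHom.comp_apply, hπ', B.πθ n s hs, map_zero]
  N := B.N
  ρ₀ := ψ₀.liftOfSurjective hψ₀ ⟨B.ρ₀, h₀⟩
  f := B.f
  f_surj := B.f_surj
  ker_f := B.ker_f
  equiv n r x := by
    obtain ⟨r, rfl⟩ := hψ n r
    rw [UData.push_ρ ψ hψ U h, hπ', RingHom.liftOfSurjective_comp_apply]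
    exact B.equiv n r x

end Push

end Fermat.Agent.TAlg
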