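import Mathlib
import Fermat.Agent.TFin.RaiseD
import Fermat.Agent.TFin.Split
import Fermat.Agent.TFin.UQuot

set_option autoImplicit false
set_option linter.unusedSectionVars false
set_option linter.style.haveILetI false

/-!
# Level raising data: linearity over the power series ring, splitting, cokernel
-/

namespace Fermat.Agent.H25.GE

open Fermat.Agent.H25 Fermat.Agent.H25.PR Fermat.Agent.CC Fermat.Agent.TW IsLocalRing Matrix
open Fermat.Agent.H05 Fermat.Agent.H25.TR Fermat.Agent.H25.TWM Fermat.Agent.TAlg Fermat.Agent.H25.GD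

namespace Sys

section Equiv

variable {O k : Type} [CommRing O] [IsDomain O] [CharZero O] [IsLocalRing O]
    [IsNoetherianRing O] [IsAdicComplete (maximalIdeal O) O]
    [Field k] {D : RD O k} {p : ℕ} [Fact p.Prime] {r : ℕ} {κ : Type} [Finite κ] [Nonempty κ]
    {Y : Sys D p r κ}
    {i i' : κ} {d d' : ℕ} {Mo : ∀ n, MData (Y.H n i) p (Y.qv n) (Y.e n) d}
    {Mo' : ∀ n, MData (Y.H n i') p (Y.qv n) (Y.e n) d'}

/-- the pairs acting compatibly -/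
def eqW {n : ℕ} (g : (Mo n).M →ₗ[O] (Mo' n).M) : Subalgebra O ((Y.H n i).B × (Y.H n i').B) where
  carrier := {b | ∀ m, g (b.1 • m) = b.2 • g m}
  mul_mem' := by
    intro b c hb hc m
    rw [Prod.fst_mul, Prod.snd_mul, mul_smul, mul_smul, hb, hc]
  add_mem' := by
    intro b c hb hc m
    rw [Prod.fst_add, Prod.snd_add, add_smul, add_smul, map_add, hb, hc]
  algebraMap_mem' := by
    intro a m
    have h1 : (algebraMap O ((Y.H n i).B × (Y.H n i').B) a).1 • m = a • m := by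
      change algebraMap O (Y.H n i).B a • m = _
      rw [algebraMap_smul]
    have h2 : (algebraMap O ((Y.H n i).B × (Y.H n i').B) a).2 • g m = a • g m := by
      change algebraMap O (Y.H n i').B a • g m = _
      rw [algebraMap_smul]
    rw [h1, h2, map_smul]

/-- maps commuting with almost all Hecke operators commute with the trace ring. -/
theorem equiv_of_T {n : ℕ} (g : (Mo n).M →ₗ[O] (Mo' n).M) (badg : Finset ℕ)
    (hg : ∀ ℓ : ℕ, ℓ.Prime → ℓ ∉ badg → ∀ m, g ((Y.H n i).T ℓ • m) = (Y.H n i').T ℓ • g m)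
    (a : Y.A n) (m : (Mo n).M) :
    g (pr (Y.H n) (Y.hbar n) i a • m) = pr (Y.H n) (Y.hbar n) i' a • g m := by
  have key : (pr (Y.H n) (Y.hbar n) i a, pr (Y.H n) (Y.hbar n) i' a) ∈ eqW g := by
    have hx : a ∈ (⊤ : Subalgebra O (AR (Y.H n) (Y.hbar n))) := trivial
    rw [← Comp.adjoin_t] at hx
    induction hx using Algebra.adjoin_induction with
    | mem x hx =>
      obtain ⟨γ, rfl⟩ := hx
      refine mem_of_frob ((Y.H n i).C (Y.hbar n)) ((Y.H n i').C (Y.hbar n))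
        ((Y.H n i).C_contS (Y.hbar n)) ((Y.H n i').C_contS (Y.hbar n)) (eqW g)
        (badg ∪ Y.bad n) (fun ℓ hℓ hb A hA φ hφ => ?_) γ
      rw [Finset.notMem_union] at hb
      rw [(Y.H n i).C_frob (Y.hbar n) ℓ hℓ hb.2 A hA φ hφ,
        (Y.H n i').C_frob (Y.hbar n) ℓ hℓ hb.2 A hA φ hφ]
      exact hg ℓ hℓ hb.1
    | algebraMap c =>
      rw [AlgHom.commutes, AlgHom.commutes]
      exact Subalgebra.algebraMap_mem (eqW g) c
    | add x y _ _ hx' hy' => rw [map_add, map_add]; exact add_mem hx' hy'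
    | mul x y _ _ hx' hy' => rw [map_mul, map_mul]; exact mul_mem hx' hy'
  exact key m

variable {Z : Y.BData i Mo} {Z' : Y.BData i' Mo'}

/-- the induced maps at the bottom level commute with the bottom trace ring. -/
theorem equiv₀ {n : ℕ} (g : (Mo n).M →ₗ[O] (Mo' n).M)
    (hg : ∀ (a : Y.A n) (m : (Mo n).M),
      g (pr (Y.H n) (Y.hbar n) i a • m) = pr (Y.H n) (Y.hbar n) i' a • g m)
    (G : Z.N →+ Z'.N) (hG : ∀ x, Z'.f n (g x) = G (Z.f n x)) (a : Y.A₀) (m : Z.N) :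
    G (pr Y.H₀ Y.hbar₀ i a • m) = pr Y.H₀ Y.hbar₀ i' a • G m := by
  obtain ⟨a, rfl⟩ := Y.π_surjective n a
  obtain ⟨x, rfl⟩ := Z.f_surj n m
  rw [Y.pr_π, Y.pr_π, ← hG, ← Z.f_smul, ← Z'.f_smul, ← hG, hg]

end Equiv

variable {O k : Type} [CommRing O] [IsDomain O] [CharZero O] [IsLocalRing O]
    [IsNoetherianRing O] [IsAdicComplete (maximalIdeal O) O]
    [Field k] {D : RD O k}
    {p : ℕ} [Fact p.Prime] (hpO : (p : O) ∈ maximalIdeal O)
    {r : ℕ} {κ : Type} [Finite κ] [Nonempty κ] {Y : Sys D p r κ}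
    {i i' : κ} {d d' : ℕ} {Mo : ∀ n, MData (Y.H n i) p (Y.qv n) (Y.e n) d}
    {Mo' : ∀ n, MData (Y.H n i') p (Y.qv n) (Y.e n) d'}
    {Z : Y.BData i Mo} {Z' : Y.BData i' Mo'}

/-- an equivariant map is linear over the power series ring. -/
noncomputable def toS {n : ℕ} (g : (Mo n).M →ₗ[O] (Mo' n).M)
    (hg : ∀ (a : Y.A n) (m : (Mo n).M),
      g (pr (Y.H n) (Y.hbar n) i a • m) = pr (Y.H n) (Y.hbar n) i' a • g m) :
    (Y.UD hpO i Mo).M n →ₗ[MvPowerSeries (Fin r) O] (Y.UD hpO i' Mo').M n where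
  toFun := g
  map_add' := map_add g
  map_smul' s m := hg (Y.thA hpO n s) m

/-- an equivariant map at the bottom level is linear over the power series ring. -/
noncomputable def toS₀ (G : Z.N →+ Z'.N)
    (hG : ∀ (a : Y.A₀) (m : Z.N),
      G (pr Y.H₀ Y.hbar₀ i a • m) = pr Y.H₀ Y.hbar₀ i' a • G m) :
    (Y.UB hpO Z).N →ₗ[MvPowerSeries (Fin r) O] (Y.UB hpO Z').N where
  toFun := G
  map_add' := map_add G
  map_smul' s m := by
    have h := hG (algebraMap O Y.A₀ (MvPowerSeries.constantCoeff s)) m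
    rw [AlgHom.commutes, AlgHom.commutes] at h
    exact h

namespace RaiseD

variable {q : Nat.Primes} {ϖ : O} (R : Sys.RaiseD Y Z Z' q ϖ)

theorem i₁_smul (n : ℕ) (a : Y.A n) (m : (Mo n).M) :
    R.i₁ n (pr (Y.H n) (Y.hbar n) i a • m) = pr (Y.H n) (Y.hbar n) i' a • R.i₁ n m :=
  equiv_of_T (R.i₁ n) (R.bad n) (R.i₁_T n) a m

theorem i₂_smul (n : ℕ) (a : Y.A n) (m : (Mo n).M) :
    R.i₂ n (pr (Y.H n) (Y.hbar n) i a • m) = pr (Y.H n) (Y.hbar n) i' a • R.i₂ n m :=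
  equiv_of_T (R.i₂ n) (R.bad n) (R.i₂_T n) a m

theorem j₁_smul (n : ℕ) (a : Y.A n) (m : (Mo' n).M) :
    R.j₁ n (pr (Y.H n) (Y.hbar n) i' a • m) = pr (Y.H n) (Y.hbar n) i a • R.j₁ n m :=
  equiv_of_T (R.j₁ n) (R.bad n) (R.j₁_T n) a m

theorem j₂_smul (n : ℕ) (a : Y.A n) (m : (Mo' n).M) :
    R.j₂ n (pr (Y.H n) (Y.hbar n) i' a • m) = pr (Y.H n) (Y.hbar n) i a • R.j₂ n m :=
  equiv_of_T (R.j₂ n) (R.bad n) (R.j₂_T n) a m

theorem I₁_smul (a : Y.A₀) (m : Z.N) :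
    R.I₁ (pr Y.H₀ Y.hbar₀ i a • m) = pr Y.H₀ Y.hbar₀ i' a • R.I₁ m :=
  equiv₀ (R.i₁ 0) (R.i₁_smul 0) R.I₁ (R.f_i₁ 0) a m

theorem I₂_smul (a : Y.A₀) (m : Z.N) :
    R.I₂ (pr Y.H₀ Y.hbar₀ i a • m) = pr Y.H₀ Y.hbar₀ i' a • R.I₂ m :=
  equiv₀ (R.i₂ 0) (R.i₂_smul 0) R.I₂ (R.f_i₂ 0) a m

theorem J₁_smul (a : Y.A₀) (m : Z'.N) :
    R.J₁ (pr Y.H₀ Y.hbar₀ i' a • m) = pr Y.H₀ Y.hbar₀ i a • R.J₁ m :=
  equiv₀ (R.j₁ 0) (R.j₁_smul 0) R.J₁ (R.f_j₁ 0) a m

theorem J₂_smul (a : Y.A₀) (m : Z'.N) :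
    R.J₂ (pr Y.H₀ Y.hbar₀ i' a • m) = pr Y.H₀ Y.hbar₀ i a • R.J₂ m :=
  equiv₀ (R.j₂ 0) (R.j₂_smul 0) R.J₂ (R.f_j₂ 0) a m

/-- the degeneracy maps over the power series ring -/
noncomputable def i₁S (n : ℕ) :
    (Y.UD hpO i Mo).M n →ₗ[MvPowerSeries (Fin r) O] (Y.UD hpO i' Mo').M n :=
  toS hpO (R.i₁ n) (R.i₁_smul n)

@[inherit_doc i₁S]
noncomputable def i₂S (n : ℕ) :
    (Y.UD hpO i Mo).M n →ₗ[MvPowerSeries (Fin r) O] (Y.UD hpO i' Mo').M n :=
  toS hpO (R.i₂ n) (R.i₂_smul n)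

@[inherit_doc i₁S]
noncomputable def j₁S (n : ℕ) :
    (Y.UD hpO i' Mo').M n →ₗ[MvPowerSeries (Fin r) O] (Y.UD hpO i Mo).M n :=
  toS hpO (R.j₁ n) (R.j₁_smul n)

@[inherit_doc i₁S]
noncomputable def j₂S (n : ℕ) :
    (Y.UD hpO i' Mo').M n →ₗ[MvPowerSeries (Fin r) O] (Y.UD hpO i Mo).M n :=
  toS hpO (R.j₂ n) (R.j₂_smul n)

/-- the degeneracy maps at the bottom, over the power series ring -/
noncomputable def I₁S : (Y.UB hpO Z).N →ₗ[MvPowerSeries (Fin r) O] (Y.UB hpO Z').N :=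
  toS₀ hpO R.I₁ R.I₁_smul

@[inherit_doc I₁S]
noncomputable def I₂S : (Y.UB hpO Z).N →ₗ[MvPowerSeries (Fin r) O] (Y.UB hpO Z').N :=
  toS₀ hpO R.I₂ R.I₂_smul

@[inherit_doc I₁S]
noncomputable def J₁S : (Y.UB hpO Z').N →ₗ[MvPowerSeries (Fin r) O] (Y.UB hpO Z).N :=
  toS₀ hpO R.J₁ R.J₁_smul

@[inherit_doc I₁S]
noncomputable def J₂S : (Y.UB hpO Z').N →ₗ[MvPowerSeries (Fin r) O] (Y.UB hpO Z).N :=
  toS₀ hpO R.J₂ R.J₂_smul

/-- the combined degeneracy map -/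
noncomputable def iS (n : ℕ) :
    ((Y.UD hpO i Mo).M n × (Y.UD hpO i Mo).M n) →ₗ[MvPowerSeries (Fin r) O]
      (Y.UD hpO i' Mo').M n := (R.i₁S hpO n).coprod (R.i₂S hpO n)

/-- the combined degeneracy map at the bottom -/
noncomputable def IS :
    ((Y.UB hpO Z).N × (Y.UB hpO Z).N) →ₗ[MvPowerSeries (Fin r) O]
      (Y.UB hpO Z').N := (R.I₁S hpO).coprod (R.I₂S hpO)

theorem iS_apply (n : ℕ) (a b : (Mo n).M) : R.iS hpO n (a, b) = R.i₁ n a + R.i₂ n b := rfl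

theorem IS_apply (a b : Z.N) : R.IS hpO (a, b) = R.I₁ a + R.I₂ b := rfl

theorem f_iS (n : ℕ) (x : (Y.UD hpO i Mo).M n × (Y.UD hpO i Mo).M n) :
    (Y.UB hpO Z').f n (R.iS hpO n x) =
      R.IS hpO ((Y.UB hpO Z).f n x.1, (Y.UB hpO Z).f n x.2) := by
  change Z'.f n (R.i₁ n x.1 + R.i₂ n x.2) = R.I₁ (Z.f n x.1) + R.I₂ (Z.f n x.2)
  rw [map_add, R.f_i₁, R.f_i₂]

end RaiseD

/-- an element of the module as an element of the patching data -/
def toU {i : κ} {d : ℕ} (Mo : ∀ n, MData (Y.H n i) p (Y.qv n) (Y.e n) d) (n : ℕ)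
    (m : (Mo n).M) : (Y.UD hpO i Mo).M n := m

theorem toU_sub {i : κ} {d : ℕ} (Mo : ∀ n, MData (Y.H n i) p (Y.qv n) (Y.e n) d) (n : ℕ)
    (m m' : (Mo n).M) : toU hpO Mo n (m - m') = toU hpO Mo n m - toU hpO Mo n m' := rfl

theorem toU_smul {i : κ} {d : ℕ} (Mo : ∀ n, MData (Y.H n i) p (Y.qv n) (Y.e n) d) (n : ℕ) (a : O)
    (m : (Mo n).M) : toU hpO Mo n (a • m) =
      (MvPowerSeries.C a : MvPowerSeries (Fin r) O) • toU hpO Mo n m := by
  have h1 : a • m = Y.thB hpO i n (algebraMap O (MvPowerSeries (Fin r) O) a) • m := by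
    rw [AlgHom.commutes, algebraMap_smul]
  exact h1

theorem f_smulO (Z : Y.BData i Mo) (n : ℕ) (a : O) (m : (Mo n).M) :
    Z.f n (a • m) = algebraMap O (Y.H₀ i).B a • Z.f n m := by
  have h1 : a • m = algebraMap O (Y.H n i).B a • m := by rw [algebraMap_smul]
  rw [h1, Z.f_smul, AlgHom.commutes]

/-- the maximal ideal of the power series ring and the bottom level -/
theorem f_mem_max {ϖ : O} (hϖ : maximalIdeal O = Ideal.span {ϖ}) (Z : Y.BData i Mo) (n : ℕ)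
    {x : (Y.UD hpO i Mo).M n}
    (hx : x ∈ maximalIdeal (MvPowerSeries (Fin r) O) •
      (⊤ : Submodule (MvPowerSeries (Fin r) O) ((Y.UD hpO i Mo).M n))) :
    ∃ w : Z.N, Z.f n x = algebraMap O (Y.H₀ i).B ϖ • w := by
  refine Submodule.smul_induction_on (p := fun (x : (Y.UD hpO i Mo).M n) => ∃ w : Z.N,
    Z.f n x = algebraMap O (Y.H₀ i).B ϖ • w) hx ?_ ?_
  · intro s hs m _
    have h1 : Z.f n (s • m) = algebraMap O (Y.H₀ i).B (MvPowerSeries.constantCoeff s) • Z.f n m :=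
      Y.f_thB hpO Z n s m
    rw [PS.mem_maximalIdeal_iff, hϖ] at hs
    obtain ⟨c, hc⟩ := Ideal.mem_span_singleton'.mp hs
    refine ⟨algebraMap O (Y.H₀ i).B c • Z.f n m, ?_⟩
    rw [h1, ← hc, smul_smul, ← map_mul, mul_comm ϖ]
  · rintro x y ⟨w, hw⟩ ⟨w', hw'⟩
    have h2 : Z.f n (x + y) = Z.f n x + Z.f n y := map_add _ _ _
    exact ⟨w + w', by rw [h2, hw, hw', smul_add]⟩

theorem mem_max_of_f {ϖ : O} (hϖ : maximalIdeal O = Ideal.span {ϖ}) (Z : Y.BData i Mo) (n : ℕ)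
    {x : (Mo n).M}
    (hx : ∃ w : Z.N, Z.f n x = algebraMap O (Y.H₀ i).B ϖ • w) :
    toU hpO Mo n x ∈ maximalIdeal (MvPowerSeries (Fin r) O) •
      (⊤ : Submodule (MvPowerSeries (Fin r) O) ((Y.UD hpO i Mo).M n)) := by
  obtain ⟨w, hw⟩ := hx
  obtain ⟨y, rfl⟩ := Z.f_surj n w
  have h1 : Z.f n (x - ϖ • y) = 0 := by
    rw [map_sub, f_smulO, hw, sub_self]
  have h3 := (Y.ker_iff hpO Z n _).mp h1
  have h4 : aug O r ≤ maximalIdeal (MvPowerSeries (Fin r) O) := by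
    rw [aug, Ideal.span_le]
    rintro _ ⟨j, rfl⟩
    change _ ∈ maximalIdeal (MvPowerSeries (Fin r) O)
    rw [PS.mem_maximalIdeal_iff, MvPowerSeries.constantCoeff_X]
    exact zero_mem _
  have h5 : toU hpO Mo n (x - ϖ • y) ∈
      maximalIdeal (MvPowerSeries (Fin r) O) •
      (⊤ : Submodule (MvPowerSeries (Fin r) O) ((Y.UD hpO i Mo).M n)) :=
    Submodule.smul_mono_left h4 h3
  have h6 : toU hpO Mo n (ϖ • y) ∈
      maximalIdeal (MvPowerSeries (Fin r) O) •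
      (⊤ : Submodule (MvPowerSeries (Fin r) O) ((Y.UD hpO i Mo).M n)) := by
    rw [toU_smul]
    refine Submodule.smul_mem_smul ?_ trivial
    rw [PS.mem_maximalIdeal_iff, MvPowerSeries.constantCoeff_C, hϖ]
    exact Ideal.mem_span_singleton_self ϖ
  have h7 := add_mem h5 h6
  rwa [toU_sub, sub_add_cancel] at h7

namespace RaiseD

variable {q : Nat.Primes} {ϖ : O} (R : Sys.RaiseD Y Z Z' q ϖ)

/-- **Ihara's lemma modulo the maximal ideal**, at all levels. -/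
theorem iS_mod (hϖ : maximalIdeal O = Ideal.span {ϖ}) (n : ℕ)
    (a b : (Y.UD hpO i Mo).M n)
    (h : R.i₁S hpO n a + R.i₂S hpO n b ∈ maximalIdeal (MvPowerSeries (Fin r) O) •
      (⊤ : Submodule (MvPowerSeries (Fin r) O) ((Y.UD hpO i' Mo').M n))) :
    a ∈ maximalIdeal (MvPowerSeries (Fin r) O) •
      (⊤ : Submodule (MvPowerSeries (Fin r) O) ((Y.UD hpO i Mo).M n)) ∧
    b ∈ maximalIdeal (MvPowerSeries (Fin r) O) •
      (⊤ : Submodule (MvPowerSeries (Fin r) O) ((Y.UD hpO i Mo).M n)) := by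
  obtain ⟨w, hw⟩ := f_mem_max hpO hϖ Z' n h
  have h1 : Z'.f n (R.i₁S hpO n a + R.i₂S hpO n b) = R.I₁ (Z.f n a) + R.I₂ (Z.f n b) :=
    R.f_iS hpO n (a, b)
  rw [h1] at hw
  obtain ⟨⟨a', ha'⟩, b', hb'⟩ := R.ihara _ _ _ hw
  exact ⟨mem_max_of_f hpO hϖ Z n ⟨a', ha'⟩, mem_max_of_f hpO hϖ Z n ⟨b', hb'⟩⟩

/-- **The maps `j` are surjective**, at all levels. -/
theorem jS_surj (hϖ : maximalIdeal O = Ideal.span {ϖ}) (n : ℕ)
    (a b : (Y.UD hpO i Mo).M n) :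
    ∃ x : (Y.UD hpO i' Mo').M n, R.j₁S hpO n x = a ∧ R.j₂S hpO n x = b := by
  let S := MvPowerSeries (Fin r) O
  let M := (Y.UD hpO i Mo).M n
  let g : (Y.UD hpO i' Mo').M n →ₗ[S] M × M := (R.j₁S hpO n).prod (R.j₂S hpO n)
  haveI : Module.Finite S M := Module.Finite.equiv ((Y.UD hpO i Mo).e n).symm
  have h3 : (⊤ : Submodule S (M × M)) ≤ LinearMap.range g ⊔ maximalIdeal S • ⊤ := by
    rintro ⟨a, b⟩ -
    obtain ⟨x, u, v, hu, hv⟩ := R.dual (Z.f n a) (Z.f n b)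
    obtain ⟨x, rfl⟩ := Z'.f_surj n x
    have e1 : Z.f n ((id a : (Mo n).M) - R.j₁ n x) = algebraMap O (Y.H₀ i).B ϖ • u := by
      rw [map_sub, R.f_j₁]
      exact sub_eq_of_eq_add' hu
    have e2 : Z.f n ((id b : (Mo n).M) - R.j₂ n x) = algebraMap O (Y.H₀ i).B ϖ • v := by
      rw [map_sub, R.f_j₂]
      exact sub_eq_of_eq_add' hv
    have k1 := mem_max_of_f hpO hϖ Z n ⟨u, e1⟩
    have k2 := mem_max_of_f hpO hϖ Z n ⟨v, e2⟩
    have k3 : ((a, b) : M × M) = g x + (a - R.j₁S hpO n x, b - R.j₂S hpO n x) := by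
      refine Prod.ext ?_ ?_
      · change a = R.j₁S hpO n x + (a - R.j₁S hpO n x)
        abel
      · change b = R.j₂S hpO n x + (b - R.j₂S hpO n x)
        abel
    rw [k3]
    refine Submodule.add_mem_sup ⟨x, rfl⟩ ?_
    have l1 := Submodule.mem_map_of_mem (f := LinearMap.inl S M M) k1
    have l2 := Submodule.mem_map_of_mem (f := LinearMap.inr S M M) k2
    rw [Submodule.map_smul''] at l1 l2
    have l3 := add_mem (Submodule.smul_mono le_rfl le_top l1)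
      (Submodule.smul_mono le_rfl le_top l2)
    have l4 : LinearMap.inl S M M (a - R.j₁S hpO n x) + LinearMap.inr S M M
      (b - R.j₂S hpO n x) = (a - R.j₁S hpO n x, b - R.j₂S hpO n x) := by
      refine Prod.ext ?_ ?_
      · exact add_zero _
      · exact zero_add _
    rw [← l4]
    exact l3
  have h5 := Submodule.le_of_le_smul_of_le_jacobson_bot (I := maximalIdeal S)
    (N := LinearMap.range g)
    (N' := (⊤ : Submodule S (M × M))) Module.Finite.fg_top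
    (IsLocalRing.maximalIdeal_le_jacobson _) h3
  obtain ⟨x, hx⟩ := h5 (x := (a, b)) trivial
  exact ⟨x, congrArg Prod.fst hx, congrArg Prod.snd hx⟩

end RaiseD

theorem JJ_ne_top (e : Fin r → ℕ) : JJ O hpO e ≠ ⊤ := by
  haveI : Nontrivial (MonoidAlgebra O (Dl p e)) := inferInstance
  exact RingHom.ker_ne_top _

namespace RaiseD

variable {q : Nat.Primes} {ϖ : O} (R : Sys.RaiseD Y Z Z' q ϖ)

/-- **Splitting of the degeneracy maps.** -/
theorem exists_spl (hϖ : maximalIdeal O = Ideal.span {ϖ}) (n : ℕ) :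
    2 * d ≤ d' ∧
    ∃ (ρ : (Y.UD hpO i' Mo').M n →ₗ[MvPowerSeries (Fin r) O]
        ((Y.UD hpO i Mo).M n × (Y.UD hpO i Mo).M n))
      (g : (Y.UD hpO i' Mo').M n →ₗ[MvPowerSeries (Fin r) O]
        (Fin (d' - 2 * d) → MvPowerSeries (Fin r) O ⧸ JJ O hpO (Y.e n))),
      (∀ x, ρ (R.iS hpO n x) = x) ∧ Function.Surjective g ∧
        LinearMap.ker g = LinearMap.range (R.iS hpO n) := by
  let S := MvPowerSeries (Fin r) O
  let M := (Y.UD hpO i Mo).M n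
  let E : (M × M) ≃ₗ[S] (Fin d ⊕ Fin d → S ⧸ JJ O hpO (Y.e n)) :=
    (((Y.UD hpO i Mo).e n).prodCongr ((Y.UD hpO i Mo).e n)).trans
      (LinearEquiv.sumArrowLequivProdArrow (Fin d) (Fin d) S (S ⧸ JJ O hpO (Y.e n))).symm
  obtain ⟨ρ, c, g, h1, h2, h3, h4⟩ := exists_split (JJ_ne_top hpO (Y.e n)) E
    ((Y.UD hpO i' Mo').e n) (R.iS hpO n) (by
      rintro ⟨a, b⟩ h
      obtain ⟨k1, k2⟩ := R.iS_mod hpO hϖ n a b h
      have l1 := Submodule.mem_map_of_mem (f := LinearMap.inl S M M) k1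
      have l2 := Submodule.mem_map_of_mem (f := LinearMap.inr S M M) k2
      rw [Submodule.map_smul''] at l1 l2
      have l3 := add_mem (Submodule.smul_mono le_rfl le_top l1)
        (Submodule.smul_mono le_rfl le_top l2)
      have l4 : LinearMap.inl S M M a + LinearMap.inr S M M b = (a, b) := by
        refine Prod.ext ?_ ?_
        · exact add_zero _
        · exact zero_add _
      rw [← l4]
      exact l3)
  have h5 : c + 2 * d = d' := by
    have : Nat.card (Fin d ⊕ Fin d) = 2 * d := by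
      rw [Nat.card_sum, Nat.card_eq_fintype_card, Fintype.card_fin, two_mul]
    rw [this] at h2
    have h6 : Nat.card (Fin ((Y.UD hpO i' Mo').d)) = d' := by
      rw [Nat.card_eq_fintype_card, Fintype.card_fin]
      rfl
    exact h2.trans h6
  have h6 : c = d' - 2 * d := by omega
  subst h6
  exact ⟨by omega, ρ, g, h1, h3, h4⟩

end RaiseD

end Sys

end Fermat.Agent.H25.GE
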