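import Mathlib
import Fermat.Agent.TFin.RaiseS

set_option autoImplicit false
set_option linter.unusedSectionVars false
set_option linter.style.haveILetI false

/-!
# Level raising data: the cokernel
-/

namespace Fermat.Agent.H25.GE

open Fermat.Agent.H25 Fermat.Agent.H25.PR Fermat.Agent.CC Fermat.Agent.TW IsLocalRing Matrix
open Fermat.Agent.H05 Fermat.Agent.H25.TR Fermat.Agent.H25.TWM Fermat.Agent.TAlg Fermat.Agent.H25.GD

namespace Sys

variable {O k : Type} [CommRing O] [IsDomain O] [CharZero O] [IsLocalRing O]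
    [IsNoetherianRing O] [IsAdicComplete (maximalIdeal O) O]
    [Field k] {D : RD O k}
    {p : ℕ} [Fact p.Prime] (hpO : (p : O) ∈ maximalIdeal O)
    {r : ℕ} {κ : Type} [Finite κ] [Nonempty κ] {Y : Sys D p r κ}
    {i i' : κ} {d d' : ℕ} {Mo : ∀ n, MData (Y.H n i) p (Y.qv n) (Y.e n) d}
    {Mo' : ∀ n, MData (Y.H n i') p (Y.qv n) (Y.e n) d'}
    {Z : Y.BData i Mo} {Z' : Y.BData i' Mo'}

theorem aug_le_max : aug O r ≤ maximalIdeal (MvPowerSeries (Fin r) O) := by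
  rw [aug, Ideal.span_le]
  rintro _ ⟨j, rfl⟩
  change _ ∈ maximalIdeal (MvPowerSeries (Fin r) O)
  rw [PS.mem_maximalIdeal_iff, MvPowerSeries.constantCoeff_X]
  exact zero_mem _

/-- `S ⧸ J_n` has no torsion over the coefficient ring. -/
theorem torsionFree_JJ {c : ℕ} (e : Fin r → ℕ) {s : O} (hs : s ≠ 0)
    (v : Fin c → MvPowerSeries (Fin r) O ⧸ JJ O hpO e)
    (hv : (MvPowerSeries.C s : MvPowerSeries (Fin r) O) • v = 0) : v = 0 := by
  funext j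
  obtain ⟨t, ht⟩ := Ideal.Quotient.mk_surjective (v j)
  have h1 := congrFun hv j
  rw [Pi.smul_apply, ← ht] at h1
  have h2 : Ideal.Quotient.mk (JJ O hpO e) (MvPowerSeries.C s * t) = 0 := h1
  rw [Ideal.Quotient.eq_zero_iff_mem, JJ, RingHom.mem_ker, map_mul] at h2
  have h3 : thL O hpO e (MvPowerSeries.C s) = algebraMap O (MonoidAlgebra O (Dl p e)) s :=
    (thL O hpO e).commutes s
  rw [h3, ← Algebra.smul_def] at h2
  have h4 : thL O hpO e t = 0 := by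
    apply MonoidAlgebra.coeff_injective
    ext g
    have h5 := congrArg (fun z => MonoidAlgebra.coeff z g) h2
    have h6 : s * (MonoidAlgebra.coeff (thL O hpO e t) g) = 0 := h5
    exact (mul_eq_zero.mp h6).resolve_left hs
  rw [← ht, Pi.zero_apply, Ideal.Quotient.eq_zero_iff_mem]
  exact h4

/-- torsion over a discrete valuation ring -/
theorem torsion_of_unif {ϖ : O} (hϖ : maximalIdeal O = Ideal.span {ϖ})
    {N : Type} [AddCommGroup N] (act : O →+* AddMonoid.End N)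
    (h : ∀ x, act ϖ x = 0 → x = 0) {s : O} (hs : s ≠ 0) (x : N) (hx : act s x = 0) : x = 0 := by
  have hϖu : ¬ IsUnit ϖ := by
    have : ϖ ∈ maximalIdeal O := by rw [hϖ]; exact Ideal.mem_span_singleton_self ϖ
    exact (mem_maximalIdeal ϖ).mp this
  have hfm : FiniteMultiplicity ϖ s := by
    haveI : WfDvdMonoid O := IsNoetherianRing.wfDvdMonoid
    exact FiniteMultiplicity.of_not_isUnit hϖu hs
  obtain ⟨c, hc, hc'⟩ := hfm.exists_eq_pow_mul_and_not_dvd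
  have hcu : IsUnit c := by
    by_contra hcu
    apply hc'
    have : c ∈ maximalIdeal O := (mem_maximalIdeal c).mpr hcu
    rw [hϖ, Ideal.mem_span_singleton] at this
    exact this
  have hpow : ∀ (m : ℕ) (y : N), act (ϖ ^ m) y = 0 → y = 0 := by
    intro m
    induction m with
    | zero =>
      intro y hy
      rw [pow_zero, map_one] at hy
      exact hy
    | succ m ih =>
      intro y hy
      rw [pow_succ, map_mul] at hy
      exact h _ (ih _ hy)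
  rw [hc, map_mul] at hx
  have h1 := hpow _ _ hx
  obtain ⟨u, rfl⟩ := hcu
  have h2 : (act ((u⁻¹ : Oˣ) : O) * act (u : O)) x = x := by
    rw [← map_mul, Units.inv_mul, map_one]
    rfl
  exact h2.symm.trans ((congrArg (fun y => act ((u⁻¹ : Oˣ) : O) y) h1).trans (map_zero _))

namespace RaiseD

variable {q : Nat.Primes} {ϖ : O} (R : Sys.RaiseD Y Z Z' q ϖ)

/-- the image of the degeneracy maps -/
noncomputable def K (n : ℕ) : Submodule (MvPowerSeries (Fin r) O) ((Y.UD hpO i' Mo').M n) :=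
  LinearMap.range (R.iS hpO n)

/-- the image of the degeneracy maps at the bottom -/
noncomputable def K₀ : Submodule (MvPowerSeries (Fin r) O) ((Y.UB hpO Z').N) :=
  LinearMap.range (R.IS hpO)

theorem mem_K {n : ℕ} {x : (Mo' n).M} : toU hpO Mo' n x ∈ R.K hpO n ↔
    ∃ a b, x = R.i₁ n a + R.i₂ n b := by
  constructor
  · rintro ⟨⟨a, b⟩, h⟩
    exact ⟨a, b, h.symm⟩
  · rintro ⟨a, b, rfl⟩
    exact ⟨(a, b), rfl⟩

theorem mem_K₀ {x : Z'.N} : (id x : (Y.UB hpO Z').N) ∈ R.K₀ hpO ↔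
    ∃ a b, x = R.I₁ a + R.I₂ b := by
  constructor
  · rintro ⟨⟨a, b⟩, h⟩
    exact ⟨a, b, h.symm⟩
  · rintro ⟨a, b, rfl⟩
    exact ⟨(a, b), rfl⟩

theorem K_stable (n : ℕ) (a : Y.A n) : ∀ x ∈ R.K hpO n, (Y.UD hpO i' Mo').ρ n a x ∈ R.K hpO n := by
  rintro _ ⟨⟨u, v⟩, rfl⟩
  have key : ∀ u v : (Mo n).M, R.i₁ n (pr (Y.H n) (Y.hbar n) i a • u) +
      R.i₂ n (pr (Y.H n) (Y.hbar n) i a • v) =
      pr (Y.H n) (Y.hbar n) i' a • (R.i₁ n u + R.i₂ n v) := by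
    intro u v
    rw [R.i₁_smul, R.i₂_smul, smul_add]
  exact ⟨((Y.UD hpO i Mo).ρ n a u, (Y.UD hpO i Mo).ρ n a v), key u v⟩

theorem K₀_stable (a : Y.A₀) : ∀ x ∈ R.K₀ hpO, (Y.UB hpO Z').ρ₀ a x ∈ R.K₀ hpO := by
  rintro _ ⟨⟨u, v⟩, rfl⟩
  have key : ∀ u v : Z.N, R.I₁ (pr Y.H₀ Y.hbar₀ i a • u) + R.I₂ (pr Y.H₀ Y.hbar₀ i a • v) =
      pr Y.H₀ Y.hbar₀ i' a • (R.I₁ u + R.I₂ v) := by
    intro u v
    rw [R.I₁_smul, R.I₂_smul, smul_add]
  exact ⟨((Y.UB hpO Z).ρ₀ a u, (Y.UB hpO Z).ρ₀ a v), key u v⟩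

theorem map_K (n : ℕ) : (R.K hpO n).map ((Y.UB hpO Z').f n) = R.K₀ hpO := by
  ext y
  constructor
  · rintro ⟨_, ⟨x, rfl⟩, rfl⟩
    exact ⟨_, (R.f_iS hpO n x).symm⟩
  · rintro ⟨⟨u, v⟩, rfl⟩
    obtain ⟨a, rfl⟩ := Z.f_surj n u
    obtain ⟨b, rfl⟩ := Z.f_surj n v
    exact ⟨_, ⟨(a, b), rfl⟩, R.f_iS hpO n (a, b)⟩

variable (hϖ : maximalIdeal O = Ideal.span {ϖ})

include R hϖ hpO in
theorem two_mul_le : 2 * d ≤ d' := (R.exists_spl hpO hϖ 0).1

/-- the retraction of the degeneracy maps -/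
noncomputable def ret (n : ℕ) : (Y.UD hpO i' Mo').M n →ₗ[MvPowerSeries (Fin r) O]
    ((Y.UD hpO i Mo).M n × (Y.UD hpO i Mo).M n) := (R.exists_spl hpO hϖ n).2.choose

theorem ret_iS (n : ℕ) (x : (Y.UD hpO i Mo).M n × (Y.UD hpO i Mo).M n) :
    R.ret hpO hϖ n (R.iS hpO n x) = x := (R.exists_spl hpO hϖ n).2.choose_spec.choose_spec.1 x

/-- the projection to the cokernel, in coordinates -/
noncomputable def gK (n : ℕ) : (Y.UD hpO i' Mo').M n →ₗ[MvPowerSeries (Fin r) O]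
    (Fin (d' - 2 * d) → MvPowerSeries (Fin r) O ⧸ JJ O hpO (Y.e n)) :=
  (R.exists_spl hpO hϖ n).2.choose_spec.choose

theorem gK_surj (n : ℕ) : Function.Surjective (R.gK hpO hϖ n) :=
  (R.exists_spl hpO hϖ n).2.choose_spec.choose_spec.2.1

theorem ker_gK (n : ℕ) : LinearMap.ker (R.gK hpO hϖ n) = R.K hpO n :=
  (R.exists_spl hpO hϖ n).2.choose_spec.choose_spec.2.2

/-- the cokernel is free over `S ⧸ J_n`. -/
noncomputable def eK (n : ℕ) : ((Y.UD hpO i' Mo').M n ⧸ R.K hpO n) ≃ₗ[MvPowerSeries (Fin r) O]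
    (Fin (d' - 2 * d) → MvPowerSeries (Fin r) O ⧸ JJ O hpO (Y.e n)) :=
  (Submodule.quotEquivOfEq _ _ (R.ker_gK hpO hϖ n).symm).trans
    ((R.gK hpO hϖ n).quotKerEquivOfSurjective (R.gK_surj hpO hϖ n))

/-- **The cokernel as patching data.** -/
noncomputable def UC : UData (MvPowerSeries (Fin r) O) (fun n => JJ O hpO (Y.e n)) Y.A
    (fun n => (Y.thA hpO n : MvPowerSeries (Fin r) O →+* Y.A n)) :=
  (Y.UD hpO i' Mo').quot (R.K hpO) (R.K_stable hpO) (d' - 2 * d) (R.eK hpO hϖ)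

/-- **The bottom level of the cokernel.** -/
noncomputable def UBC : UBase (R.UC hpO hϖ) (aug O r) Y.A₀ :=
  (Y.UB hpO Z').quot (R.K hpO) (R.K_stable hpO) (d' - 2 * d) (R.eK hpO hϖ) (R.K₀ hpO)
    (R.K₀_stable hpO) (R.map_K hpO)

/-- the quotient map -/
noncomputable def qC (n : ℕ) : (Y.UD hpO i' Mo').M n →ₗ[MvPowerSeries (Fin r) O]
    (R.UC hpO hϖ).M n := (R.K hpO n).mkQ

/-- the quotient map at the bottom -/
noncomputable def qC₀ : (Y.UB hpO Z').N →ₗ[MvPowerSeries (Fin r) O] (R.UBC hpO hϖ).N :=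
  (R.K₀ hpO).mkQ

theorem qC_surj (n : ℕ) : Function.Surjective (R.qC hpO hϖ n) := Submodule.mkQ_surjective _

theorem qC₀_surj : Function.Surjective (R.qC₀ hpO hϖ) := Submodule.mkQ_surjective _

theorem ker_qC (n : ℕ) : LinearMap.ker (R.qC hpO hϖ n) = LinearMap.range (R.iS hpO n) :=
  Submodule.ker_mkQ _

theorem ker_qC₀ : LinearMap.ker (R.qC₀ hpO hϖ) = LinearMap.range (R.IS hpO) :=
  Submodule.ker_mkQ _

theorem qC_iS (n : ℕ) (x : (Y.UD hpO i Mo).M n × (Y.UD hpO i Mo).M n) :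
    R.qC hpO hϖ n (R.iS hpO n x) = 0 := by
  rw [← LinearMap.mem_ker, ker_qC]
  exact ⟨x, rfl⟩

theorem qC_ρ (n : ℕ) (a : Y.A n) (x : (Y.UD hpO i' Mo').M n) :
    R.qC hpO hϖ n ((Y.UD hpO i' Mo').ρ n a x) = (R.UC hpO hϖ).ρ n a (R.qC hpO hϖ n x) := rfl

theorem qC₀_ρ₀ (a : Y.A₀) (x : (Y.UB hpO Z').N) :
    R.qC₀ hpO hϖ ((Y.UB hpO Z').ρ₀ a x) = (R.UBC hpO hϖ).ρ₀ a (R.qC₀ hpO hϖ x) := rfl

theorem UBC_f (n : ℕ) (x : (Y.UD hpO i' Mo').M n) :
    (R.UBC hpO hϖ).f n (R.qC hpO hϖ n x) = R.qC₀ hpO hϖ ((Y.UB hpO Z').f n x) := rfl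

theorem UBC_π (n : ℕ) : (R.UBC hpO hϖ).π n = (Y.π n : Y.A n →+* Y.A₀) := rfl

/-- **The section of the quotient map.** -/
noncomputable def secC (n : ℕ) : (R.UC hpO hϖ).M n →ₗ[MvPowerSeries (Fin r) O]
    (Y.UD hpO i' Mo').M n :=
  (R.K hpO n).liftQ (LinearMap.id - (R.iS hpO n) ∘ₗ (R.ret hpO hϖ n)) (by
    rintro _ ⟨x, rfl⟩
    rw [LinearMap.mem_ker, LinearMap.sub_apply, LinearMap.id_apply, LinearMap.comp_apply,
      R.ret_iS, sub_self])

/-- **Splitting.** -/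
theorem secC_qC (n : ℕ) (x : (Y.UD hpO i' Mo').M n) :
    R.secC hpO hϖ n (R.qC hpO hϖ n x) = x - R.iS hpO n (R.ret hpO hϖ n x) := rfl

theorem qC_secC (n : ℕ) (y : (R.UC hpO hϖ).M n) : R.qC hpO hϖ n (R.secC hpO hϖ n y) = y := by
  obtain ⟨x, rfl⟩ := R.qC_surj hpO hϖ n y
  rw [secC_qC, map_sub, qC_iS, sub_zero]

theorem ret_secC (n : ℕ) (y : (R.UC hpO hϖ).M n) : R.ret hpO hϖ n (R.secC hpO hϖ n y) = 0 := by
  obtain ⟨x, rfl⟩ := R.qC_surj hpO hϖ n y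
  rw [secC_qC, map_sub, ret_iS, sub_self]

/-- the annihilators in the trace rings -/
noncomputable def aC (n : ℕ) : Ideal (AR (Y.H n) (Y.hbar n)) :=
  RingHom.ker ((R.UC hpO hϖ).ρ n)

/-- the annihilator in the bottom trace ring -/
noncomputable def aC₀ : Ideal (AR Y.H₀ Y.hbar₀) := RingHom.ker (R.UBC hpO hϖ).ρ₀

theorem mem_aC {n : ℕ} {a : Y.A n} : a ∈ R.aC hpO hϖ n ↔
    ∀ x : (Mo' n).M, ∃ u v, pr (Y.H n) (Y.hbar n) i' a • x = R.i₁ n u + R.i₂ n v := by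
  have h := quotAct_eq_zero_iff ((Y.UD hpO i' Mo').ρ n) (R.K hpO n) (R.K_stable hpO n) a
  exact h.trans (forall_congr' fun x => R.mem_K hpO)

theorem mem_aC₀ {a : Y.A₀} : a ∈ R.aC₀ hpO hϖ ↔
    ∀ x : Z'.N, ∃ u v, pr Y.H₀ Y.hbar₀ i' a • x = R.I₁ u + R.I₂ v := by
  have h := quotAct_eq_zero_iff (Y.UB hpO Z').ρ₀ (R.K₀ hpO) (R.K₀_stable hpO) a
  exact h.trans (forall_congr' fun x => R.mem_K₀ hpO)

theorem ker_pr_le (n : ℕ) : RingHom.ker (pr (Y.H n) (Y.hbar n) i') ≤ R.aC hpO hϖ n := by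
  intro a ha
  rw [RingHom.mem_ker] at ha
  rw [mem_aC]
  intro x
  refine ⟨0, 0, ?_⟩
  rw [ha, zero_smul, map_zero, map_zero, add_zero]

theorem ker_pr₀_le : RingHom.ker (pr Y.H₀ Y.hbar₀ i') ≤ R.aC₀ hpO hϖ := by
  intro a ha
  rw [RingHom.mem_ker] at ha
  rw [mem_aC₀]
  intro x
  refine ⟨0, 0, ?_⟩
  rw [ha, zero_smul, map_zero, map_zero, add_zero]

theorem aC_torsion (n : ℕ) (s : O) (b : AR (Y.H n) (Y.hbar n)) (hs : s ≠ 0)
    (h : algebraMap O (AR (Y.H n) (Y.hbar n)) s * b ∈ R.aC hpO hϖ n) : b ∈ R.aC hpO hϖ n := by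
  have h1 : (R.UC hpO hϖ).ρ n (algebraMap O (AR (Y.H n) (Y.hbar n)) s * b) = 0 := h
  have h2 : (R.UC hpO hϖ).ρ n (algebraMap O (AR (Y.H n) (Y.hbar n)) s) =
      algebraMap (MvPowerSeries (Fin r) O) (Module.End (MvPowerSeries (Fin r) O)
        ((R.UC hpO hϖ).M n)) (MvPowerSeries.C s) := by
    rw [← (R.UC hpO hϖ).hθ]
    congr 1
    exact ((Y.thA hpO n).commutes s).symm
  change (R.UC hpO hϖ).ρ n b = 0
  refine LinearMap.ext fun x => ?_
  rw [map_mul, h2] at h1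
  have h3 := LinearMap.congr_fun h1 x
  have h4 : (MvPowerSeries.C s : MvPowerSeries (Fin r) O) • ((R.UC hpO hϖ).ρ n b x) = 0 := h3
  apply ((R.UC hpO hϖ).e n).injective
  rw [LinearMap.zero_apply, map_zero]
  refine torsionFree_JJ hpO (Y.e n) hs _ ?_
  rw [← map_smul, h4, map_zero]

include hϖ in
/-- the bottom module of the cokernel has no torsion. -/
theorem torsionFree₀ {s : O} (hs : s ≠ 0) (x : Z'.N)
    (h : ∃ u v, algebraMap O (Y.H₀ i').B s • x = R.I₁ u + R.I₂ v) :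
    ∃ u v, x = R.I₁ u + R.I₂ v := by
  let act₀ : O →+* AddMonoid.End Z'.N :=
    (Module.toAddMonoidEnd (Y.H₀ i').B Z'.N).comp (algebraMap O (Y.H₀ i').B)
  let G : AddSubgroup Z'.N := (R.I₁.range ⊔ R.I₂.range)
  have hG : ∀ x, x ∈ G ↔ ∃ u v, x = R.I₁ u + R.I₂ v := by
    intro x
    rw [AddSubgroup.mem_sup]
    constructor
    · rintro ⟨_, ⟨u, rfl⟩, _, ⟨v, rfl⟩, h⟩
      exact ⟨u, v, h.symm⟩
    · rintro ⟨u, v, rfl⟩
      exact ⟨_, ⟨u, rfl⟩, _, ⟨v, rfl⟩, rfl⟩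
  have hcomm₁ : ∀ (c : O) (u : Z.N), algebraMap O (Y.H₀ i').B c • R.I₁ u =
      R.I₁ (algebraMap O (Y.H₀ i).B c • u) := by
    intro c u
    have := R.I₁_smul (algebraMap O Y.A₀ c) u
    rw [AlgHom.commutes, AlgHom.commutes] at this
    exact this.symm
  have hcomm₂ : ∀ (c : O) (u : Z.N), algebraMap O (Y.H₀ i').B c • R.I₂ u =
      R.I₂ (algebraMap O (Y.H₀ i).B c • u) := by
    intro c u
    have := R.I₂_smul (algebraMap O Y.A₀ c) u
    rw [AlgHom.commutes, AlgHom.commutes] at this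
    exact this.symm
  have hst : ∀ (c : O), ∀ x ∈ G, algebraMap O (Y.H₀ i').B c • x ∈ G := by
    intro c x hx
    rw [hG] at hx ⊢
    obtain ⟨u, v, rfl⟩ := hx
    exact ⟨_, _, by rw [smul_add, hcomm₁, hcomm₂]⟩
  let act : O →+* AddMonoid.End (Z'.N ⧸ G) :=
    { toFun := fun c => QuotientAddGroup.map G G (act₀ c) (hst c)
      map_one' := by
        refine AddMonoidHom.ext fun x => ?_
        obtain ⟨x, rfl⟩ := QuotientAddGroup.mk_surjective x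
        change ((algebraMap O (Y.H₀ i').B 1 • x : Z'.N) : Z'.N ⧸ G) = _
        rw [map_one, one_smul]
        rfl
      map_mul' := fun a b => by
        refine AddMonoidHom.ext fun x => ?_
        obtain ⟨x, rfl⟩ := QuotientAddGroup.mk_surjective x
        change ((algebraMap O (Y.H₀ i').B (a * b) • x : Z'.N) : Z'.N ⧸ G) =
          ((algebraMap O (Y.H₀ i').B a • algebraMap O (Y.H₀ i').B b • x : Z'.N) : Z'.N ⧸ G)
        rw [map_mul, mul_smul]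
      map_zero' := by
        refine AddMonoidHom.ext fun x => ?_
        obtain ⟨x, rfl⟩ := QuotientAddGroup.mk_surjective x
        change ((algebraMap O (Y.H₀ i').B 0 • x : Z'.N) : Z'.N ⧸ G) = _
        rw [map_zero, zero_smul]
        rfl
      map_add' := fun a b => by
        refine AddMonoidHom.ext fun x => ?_
        obtain ⟨x, rfl⟩ := QuotientAddGroup.mk_surjective x
        change ((algebraMap O (Y.H₀ i').B (a + b) • x : Z'.N) : Z'.N ⧸ G) =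
          ((algebraMap O (Y.H₀ i').B a • x : Z'.N) : Z'.N ⧸ G) +
          ((algebraMap O (Y.H₀ i').B b • x : Z'.N) : Z'.N ⧸ G)
        rw [map_add, add_smul]
        rfl }
  have hact : ∀ (c : O) (x : Z'.N), act c (x : Z'.N ⧸ G) =
      ((algebraMap O (Y.H₀ i').B c • x : Z'.N) : Z'.N ⧸ G) := fun c x => rfl
  have key := torsion_of_unif hϖ act (fun y hy => by
    obtain ⟨y, rfl⟩ := QuotientAddGroup.mk_surjective y
    rw [hact, QuotientAddGroup.eq_zero_iff, hG] at hy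
    obtain ⟨u, v, huv⟩ := hy
    obtain ⟨⟨u', rfl⟩, v', rfl⟩ := R.ihara u v y huv.symm
    rw [QuotientAddGroup.eq_zero_iff, hG]
    refine ⟨u', v', ?_⟩
    have h1 := R.tf (y - (R.I₁ u' + R.I₂ v')) (by
      rw [smul_sub, huv, smul_add, hcomm₁, hcomm₂, sub_self])
    exact sub_eq_zero.mp h1) hs (x : Z'.N ⧸ G) (by
      rw [hact, QuotientAddGroup.eq_zero_iff, hG]
      exact h)
  rw [QuotientAddGroup.eq_zero_iff, hG] at key
  exact key

theorem aC₀_torsion (s : O) (b : AR Y.H₀ Y.hbar₀) (hs : s ≠ 0)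
    (h : algebraMap O (AR Y.H₀ Y.hbar₀) s * b ∈ R.aC₀ hpO hϖ) : b ∈ R.aC₀ hpO hϖ := by
  rw [mem_aC₀] at h ⊢
  intro x
  refine R.torsionFree₀ hϖ hs _ ?_
  obtain ⟨u, v, h1⟩ := h x
  refine ⟨u, v, ?_⟩
  rw [← h1, map_mul, AlgHom.commutes, mul_smul]

theorem one_notMem_aC (hd : 2 * d < d') (n : ℕ) : R.aC hpO hϖ n ≠ ⊤ := by
  intro h
  rw [Ideal.eq_top_iff_one] at h
  have h1 : (R.UC hpO hϖ).ρ n 1 = 0 := h
  rw [map_one] at h1
  haveI : Nontrivial (MvPowerSeries (Fin r) O ⧸ JJ O hpO (Y.e n)) :=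
    Ideal.Quotient.nontrivial_iff.mpr (JJ_ne_top hpO (Y.e n))
  obtain ⟨x, hx⟩ := ((R.UC hpO hϖ).e n).surjective
    ((fun _ => 1 : Fin (d' - 2 * d) → MvPowerSeries (Fin r) O ⧸ JJ O hpO (Y.e n)))
  have h2 := LinearMap.congr_fun h1 x
  have h3 : x = 0 := h2
  rw [h3, map_zero] at hx
  have h4 := congrFun hx (⟨0, Nat.sub_pos_of_lt hd⟩ : Fin (d' - 2 * d))
  exact zero_ne_one h4

theorem one_notMem_aC₀ (hd : 2 * d < d') : R.aC₀ hpO hϖ ≠ ⊤ := by
  intro h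
  rw [Ideal.eq_top_iff_one] at h
  have h1 : (R.UBC hpO hϖ).ρ₀ 1 = 0 := h
  rw [map_one] at h1
  have h2 : ∀ x : (R.UBC hpO hϖ).N, x = 0 := fun x => LinearMap.congr_fun h1 x
  have h3 : LinearMap.ker ((R.UBC hpO hϖ).f 0) = ⊤ := by
    rw [eq_top_iff]
    intro x _
    exact h2 _
  rw [(R.UBC hpO hϖ).ker_f] at h3
  haveI : Module.Finite (MvPowerSeries (Fin r) O) ((R.UC hpO hϖ).M 0) :=
    Module.Finite.equiv ((R.UC hpO hϖ).e 0).symm
  have h4 := Submodule.eq_bot_of_le_smul_of_le_jacobson_bot (aug O r)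
    (⊤ : Submodule (MvPowerSeries (Fin r) O) ((R.UC hpO hϖ).M 0)) Module.Finite.fg_top
    h3.ge (aug_le_max.trans (IsLocalRing.maximalIdeal_le_jacobson _))
  apply R.one_notMem_aC hpO hϖ hd 0
  rw [Ideal.eq_top_iff_one]
  change (R.UC hpO hϖ).ρ 0 1 = 0
  refine LinearMap.ext fun x => ?_
  have h5 : x ∈ (⊥ : Submodule (MvPowerSeries (Fin r) O) ((R.UC hpO hϖ).M 0)) := by
    rw [← h4]
    trivial
  rw [map_one, LinearMap.zero_apply]
  exact h5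

theorem π_aC {n : ℕ} {a : Y.A n} (ha : a ∈ R.aC hpO hϖ n) : Y.π n a ∈ R.aC₀ hpO hϖ := by
  change (R.UBC hpO hϖ).ρ₀ (Y.π n a) = 0
  refine LinearMap.ext fun x => ?_
  obtain ⟨x, rfl⟩ := (R.UBC hpO hϖ).f_surj n x
  have h1 := (R.UBC hpO hϖ).equiv n a x
  have h2 : (R.UC hpO hϖ).ρ n a = 0 := ha
  rw [h2, LinearMap.zero_apply, map_zero] at h1
  rw [LinearMap.zero_apply]
  exact h1.symm

end RaiseD

end Sys

end Fermat.Agent.H25.GE
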