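import Mathlib
import Fermat.Agent.TFin.RaiseC

set_option autoImplicit false
set_option linter.unusedSectionVars false
set_option linter.style.haveILetI false

/-!
# Quotient components
-/

namespace Fermat.Agent.H25.GE

open Fermat.Agent.H25 Fermat.Agent.H25.PR Fermat.Agent.CC Fermat.Agent.TW IsLocalRing Matrix
open Fermat.Agent.H05 Fermat.Agent.H25.TR Fermat.Agent.H25.TWM Fermat.Agent.TAlg

section Quot

variable {O k : Type} [CommRing O] [IsDomain O] [IsLocalRing O] [IsNoetherianRing O]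
    [IsAdicComplete (maximalIdeal O) O] [Field k] {D : RD O k}
    {S : Finset Nat.Primes} {bad : Finset ℕ} {κ : Type} [Finite κ] [Nonempty κ]
    (H : κ → CData D S bad) (hbar : HBar D S) (i : κ) (𝔞 : Ideal (AR H hbar))

/-- an element of the trace ring not killed at a point divides a scalar at this point. -/
theorem exists_scalar (y : (H i).X) (a : AR H hbar) (ha : pt H hbar i y a ≠ 0) :
    ∃ (s : O) (c : AR H hbar), s ≠ 0 ∧
      pt H hbar i y (a * c) = algebraMap O ((H i).P y) s := by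
  let R := (pt H hbar i y).range
  let x : R := ⟨pt H hbar i y a, ⟨a, rfl⟩⟩
  have hx : x ≠ 0 := fun h => ha (congrArg Subtype.val h)
  have hint : IsIntegral O x := by
    have h1 : IsIntegral O (pt H hbar i y a) := Algebra.IsIntegral.isIntegral _
    exact (isIntegral_algHom_iff R.val Subtype.val_injective).mp h1
  have h1 := Ideal.comap_ne_bot_of_integral_mem (R := O) hx (Ideal.mem_span_singleton_self x) hint
  obtain ⟨s, hs, hs0⟩ := (Submodule.ne_bot_iff _).mp h1
  obtain ⟨⟨c', ⟨c, rfl⟩⟩, hc⟩ := Ideal.mem_span_singleton'.mp hs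
  refine ⟨s, c, hs0, ?_⟩
  have h2 := congrArg Subtype.val hc
  rw [mul_comm, map_mul]
  exact h2

variable {𝔞} in
/-- The quotient of the trace ring by an ideal with torsion-free quotient is reduced, with points
those of the component. -/
theorem mem_of_pt (h1 : RingHom.ker (pr H hbar i) ≤ 𝔞)
    (h2 : ∀ (s : O) (b : AR H hbar), s ≠ 0 → algebraMap O (AR H hbar) s * b ∈ 𝔞 → b ∈ 𝔞)
    (b : AR H hbar) (hb : ∀ y : (H i).X, 𝔞 ≤ RingHom.ker (pt H hbar i y) →
      pt H hbar i y b = 0) : b ∈ 𝔞 := by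
  classical
  haveI := Fintype.ofFinite (H i).X
  have key : ∀ y : (H i).X, ∃ (s : O) (e : AR H hbar), s ≠ 0 ∧
      e - algebraMap O (AR H hbar) s ∈ 𝔞 ∧ (pt H hbar i y e = 0 ∨ pt H hbar i y b = 0) := by
    intro y
    by_cases hy : 𝔞 ≤ RingHom.ker (pt H hbar i y)
    · refine ⟨1, 1, one_ne_zero, ?_, Or.inr (hb y hy)⟩
      rw [map_one, sub_self]
      exact zero_mem _
    · obtain ⟨a, ha, hay⟩ := SetLike.not_le_iff_exists.mp hy
      obtain ⟨s, c, hs, hsc⟩ := exists_scalar H hbar i y a hay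
      refine ⟨s, algebraMap O (AR H hbar) s - a * c, hs, ?_, Or.inl ?_⟩
      · have : algebraMap O (AR H hbar) s - a * c - algebraMap O (AR H hbar) s = -(a * c) := by
          ring
        rw [this]
        exact neg_mem (Ideal.mul_mem_right _ _ ha)
      · rw [map_sub, AlgHom.commutes, hsc, sub_self]
  choose s e hs he hpt using key
  have hz : b * ∏ y, e y ∈ 𝔞 := by
    apply h1
    rw [RingHom.mem_ker]
    refine (H i).ext_ev fun y => ?_
    rw [map_zero]
    change pt H hbar i y (b * ∏ y, e y) = 0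
    rw [map_mul, map_prod]
    rcases hpt y with h | h
    · rw [Finset.prod_eq_zero (Finset.mem_univ y) h, mul_zero]
    · rw [h, zero_mul]
  have hprod : Ideal.Quotient.mk 𝔞 (∏ y, e y) =
      Ideal.Quotient.mk 𝔞 (algebraMap O (AR H hbar) (∏ y, s y)) := by
    rw [map_prod, map_prod, map_prod]
    exact Finset.prod_congr rfl fun y _ => Ideal.Quotient.eq.mpr (he y)
  have h3 : ∏ y, s y ≠ 0 := Finset.prod_ne_zero_iff.mpr fun y _ => hs y
  apply h2 _ _ h3
  rw [← Ideal.Quotient.eq_zero_iff_mem, map_mul, ← hprod, ← map_mul,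
    Ideal.Quotient.eq_zero_iff_mem, mul_comm]
  exact hz

open Classical in
/-- the Frobenius elements of the trace ring -/
noncomputable def TA (ℓ : ℕ) : AR H hbar :=
  if h : ℓ.Prime then (CA H hbar).t (frv ℓ h) else 0

theorem t_frob {ℓ : ℕ} (hℓ : ℓ.Prime) (hb : ℓ ∉ bad) {A : ValuationSubring Qb}
    (hA : A.LiesOverPrime ℓ) {φ : GQ} (hφ : A.IsFrobeniusAt φ ℓ) :
    (CA H hbar).t φ = TA H hbar ℓ := by
  rw [TA, dif_pos hℓ]
  apply Subtype.ext
  funext i
  change pr H hbar i ((CA H hbar).t φ) = pr H hbar i ((CA H hbar).t (frv ℓ hℓ))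
  rw [pr_t, pr_t, (H i).C_frob hbar ℓ hℓ hb A hA φ hφ,
    (H i).C_frob hbar ℓ hℓ hb _ (plv_over ℓ hℓ) _ (frv_spec ℓ hℓ)]

/-- **The quotient component.** -/
noncomputable def quotC (h1 : RingHom.ker (pr H hbar i) ≤ 𝔞)
    (h2 : ∀ (s : O) (b : AR H hbar), s ≠ 0 → algebraMap O (AR H hbar) s * b ∈ 𝔞 → b ∈ 𝔞)
    (h3 : 𝔞 ≠ ⊤) : CData D S bad where
  B := AR H hbar ⧸ 𝔞
  T ℓ := Ideal.Quotient.mk 𝔞 (TA H hbar ℓ)
  X := {y : (H i).X // 𝔞 ≤ RingHom.ker (pt H hbar i y)}
  P y := (H i).P y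
  f := AlgHom.pi fun y => Ideal.Quotient.liftₐ 𝔞 (pt H hbar i y) y.2
  f_inj := by
    rw [injective_iff_map_eq_zero]
    intro b hb
    obtain ⟨b, rfl⟩ := Ideal.Quotient.mk_surjective b
    rw [Ideal.Quotient.eq_zero_iff_mem]
    refine mem_of_pt H hbar i h1 h2 b fun y hy => ?_
    exact congrFun hb ⟨y, hy⟩
  t y := (H i).t y
  ps y := (H i).ps y
  tc y := (H i).tc y
  dt y := (H i).dt y
  cont y := (H i).cont y
  frob ℓ hℓ hb A hA φ hφ y := by
    change (H i).t y φ = pt H hbar i y (TA H hbar ℓ)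
    rw [← t_frob H hbar hℓ hb hA hφ, pt_t]
  res := Ideal.Quotient.lift 𝔞 (CA H hbar).resB fun a ha =>
    ((CA H hbar).mem_maximalIdeal a).mp (IsLocalRing.le_maximalIdeal h3 ha)
  res_comp a := by
    change (CA H hbar).resB (algebraMap O (AR H hbar) a) = D.res a
    exact (CA H hbar).res_comp a
  loc b hb := by
    obtain ⟨b, rfl⟩ := Ideal.Quotient.mk_surjective b
    exact ((CA H hbar).loc b hb).map _
  res_T ℓ hℓ hb A hA φ hφ := by
    change D.tbar φ = (CA H hbar).resB (TA H hbar ℓ)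
    rw [← t_frob H hbar hℓ hb hA hφ, (CA H hbar).res_t]

end Quot

end Fermat.Agent.H25.GE
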