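import Mathlib
import Fermat.Agent.TFin.UQuot
import Fermat.Agent.H25.Asm8

set_option autoImplicit false
set_option linter.unusedSectionVars false
set_option linter.style.haveILetI false

/-!
# Restriction of systems along maps of index sets
-/

namespace Fermat.Agent.H25.GE

open Fermat.Agent.H25 Fermat.Agent.H25.PR Fermat.Agent.CC Fermat.Agent.TW IsLocalRing Matrix
open Fermat.Agent.H05 Fermat.Agent.H25.TR Fermat.Agent.H25.TWM Fermat.Agent.TAlg Fermat.Agent.H25.GD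

section LiftA

variable {O k : Type} [CommRing O] [IsLocalRing O] [IsNoetherianRing O]
    [IsAdicComplete (maximalIdeal O) O] [Field k] {D : RD O k}
    {S S' : Finset Nat.Primes} {bad bad' : Finset ℕ} {κ κ' : Type} [Finite κ] [Nonempty κ]
    [Finite κ'] [Nonempty κ']
    (H : κ → CData D S bad) (hbar : HBar D S) (H' : κ' → CData D S' bad') (hbar' : HBar D S')
    (Ψ : ∀ j, AR H hbar →ₐ[O] (H' j).B)
    (h : ∀ j g, Ψ j ((CA H hbar).t g) = ((H' j).C hbar').t g)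

/-- the homomorphism to the trace ring of another family -/
noncomputable def liftA : AR H hbar →ₐ[O] AR H' hbar' :=
  AlgHom.codRestrict (AlgHom.pi Ψ) (AR H' hbar') (by
    intro x
    have hx : x ∈ (⊤ : Subalgebra O (AR H hbar)) := trivial
    rw [← Comp.adjoin_t] at hx
    induction hx using Algebra.adjoin_induction with
    | mem x hx =>
      obtain ⟨g, rfl⟩ := hx
      have : (AlgHom.pi Ψ) ((Comp.prod (fun i => (H i).C hbar)).t g) =
          ((Comp.prod (fun i => (H' i).C hbar')).t g : ∀ i, (H' i).B) := by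
        funext i
        exact h i g
      rw [this]
      exact Subtype.coe_prop _
    | algebraMap r => rw [AlgHom.commutes]; exact Subalgebra.algebraMap_mem _ r
    | add x y _ _ hx' hy' => rw [map_add]; exact add_mem hx' hy'
    | mul x y _ _ hx' hy' => rw [map_mul]; exact mul_mem hx' hy')

theorem pr_liftA (j : κ') (x : AR H hbar) :
    pr H' hbar' j (liftA H hbar H' hbar' Ψ h x) = Ψ j x := rfl

theorem liftA_t (g : GQ) : liftA H hbar H' hbar' Ψ h ((CA H hbar).t g) = (CA H' hbar').t g :=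
  Subtype.ext (funext fun i => h i g)

theorem liftA_surjective : Function.Surjective (liftA H hbar H' hbar' Ψ h) := by
  intro y
  have hy : y ∈ (⊤ : Subalgebra O (AR H' hbar')) := trivial
  rw [← Comp.adjoin_t] at hy
  have h1 : Algebra.adjoin O (Set.range (Comp.prod (fun i => (H' i).C hbar')).t) ≤
      (liftA H hbar H' hbar' Ψ h).range := by
    rw [Algebra.adjoin_le_iff]
    rintro _ ⟨g, rfl⟩
    exact ⟨(CA H hbar).t g, liftA_t H hbar H' hbar' Ψ h g⟩
  exact h1 hy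

theorem liftA_rho (g : GQ) : ((CA H hbar).rho g).map (liftA H hbar H' hbar' Ψ h) =
    (CA H' hbar').rho g :=
  (CA H hbar).rho_map (CA H' hbar') _ (liftA_t H hbar H' hbar' Ψ h) g

end LiftA

namespace Sys

variable {O k : Type} [CommRing O] [IsLocalRing O] [Field k] {D : RD O k}
    {p : ℕ} {r : ℕ} {κ κ' : Type}

/-- **Restriction of a system along a map of index sets.** -/
def comap (Y : Sys D p r κ) (φ : κ' → κ) : Sys D p r κ' where
  S := Y.S
  bad := Y.bad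
  hbar := Y.hbar
  qv := Y.qv
  e := Y.e
  hQ := Y.hQ
  H n j := Y.H n (φ j)
  S₀ := Y.S₀
  bad₀ := Y.bad₀
  hbar₀ := Y.hbar₀
  H₀ j := Y.H₀ (φ j)
  πB n j := Y.πB n (φ j)
  badπ := Y.badπ
  hπB n j := Y.hπB n (φ j)
  unr₀ := Y.unr₀

end Sys

namespace Sys

variable {O k : Type} [CommRing O] [IsDomain O] [CharZero O] [IsLocalRing O]
    [IsNoetherianRing O] [IsAdicComplete (maximalIdeal O) O]
    [Field k] {D : RD O k}
    {p : ℕ} [Fact p.Prime] (hpO : (p : O) ∈ maximalIdeal O)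
    {r : ℕ} {κ : Type} [Finite κ] [Nonempty κ] (Y : Sys D p r κ)
    {κ' : Type} [Finite κ'] [Nonempty κ'] (φ : κ' → κ)

theorem π_t (n : ℕ) (g : GQ) :
    Y.π n ((CA (Y.H n) (Y.hbar n)).t g) = (CA Y.H₀ Y.hbar₀).t g := mapA_t _ _ _ _ _ _ g

/-- the restriction map of trace rings -/
noncomputable def res (n : ℕ) : Y.A n →ₐ[O] (Y.comap φ).A n :=
  liftA (Y.H n) (Y.hbar n) ((Y.comap φ).H n) ((Y.comap φ).hbar n)
    (fun j => pr (Y.H n) (Y.hbar n) (φ j)) (fun _ _ => rfl)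

/-- the restriction map of trace rings at the bottom -/
noncomputable def res₀ : Y.A₀ →ₐ[O] (Y.comap φ).A₀ :=
  liftA Y.H₀ Y.hbar₀ (Y.comap φ).H₀ (Y.comap φ).hbar₀
    (fun j => pr Y.H₀ Y.hbar₀ (φ j)) (fun _ _ => rfl)

theorem res_surjective (n : ℕ) : Function.Surjective (Y.res φ n) := liftA_surjective _ _ _ _ _ _

theorem res₀_surjective : Function.Surjective (Y.res₀ φ) := liftA_surjective _ _ _ _ _ _

theorem pr_res (n : ℕ) (j : κ') (a : Y.A n) :
    pr ((Y.comap φ).H n) ((Y.comap φ).hbar n) j (Y.res φ n a) =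
      pr (Y.H n) (Y.hbar n) (φ j) a := rfl

theorem pr_res₀ (j : κ') (a : Y.A₀) :
    pr ((Y.comap φ).H₀) ((Y.comap φ).hbar₀) j (Y.res₀ φ a) = pr Y.H₀ Y.hbar₀ (φ j) a := rfl

theorem pt_res (n : ℕ) (j : κ') (y : (Y.H n (φ j)).X) (a : Y.A n) :
    pt ((Y.comap φ).H n) ((Y.comap φ).hbar n) j y (Y.res φ n a) =
      pt (Y.H n) (Y.hbar n) (φ j) y a := rfl

theorem pt_res₀ (j : κ') (y : (Y.H₀ (φ j)).X) (a : Y.A₀) :
    pt ((Y.comap φ).H₀) ((Y.comap φ).hbar₀) j y (Y.res₀ φ a) = pt Y.H₀ Y.hbar₀ (φ j) y a := rfl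

theorem res_t (n : ℕ) (g : GQ) : Y.res φ n ((CA (Y.H n) (Y.hbar n)).t g) =
    (CA ((Y.comap φ).H n) ((Y.comap φ).hbar n)).t g := liftA_t _ _ _ _ _ _ g

theorem res₀_t (g : GQ) : Y.res₀ φ ((CA Y.H₀ Y.hbar₀).t g) =
    (CA ((Y.comap φ).H₀) ((Y.comap φ).hbar₀)).t g := liftA_t _ _ _ _ _ _ g

theorem res_rho (n : ℕ) (g : GQ) : ((CA (Y.H n) (Y.hbar n)).rho g).map (Y.res φ n) =
    (CA ((Y.comap φ).H n) ((Y.comap φ).hbar n)).rho g := liftA_rho _ _ _ _ _ _ g

theorem res₀_rho (g : GQ) : ((CA Y.H₀ Y.hbar₀).rho g).map (Y.res₀ φ) =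
    (CA ((Y.comap φ).H₀) ((Y.comap φ).hbar₀)).rho g := liftA_rho _ _ _ _ _ _ g

theorem π_res (n : ℕ) (a : Y.A n) : (Y.comap φ).π n (Y.res φ n a) = Y.res₀ φ (Y.π n a) :=
  Comp.ext_proj _ fun _ => rfl

theorem res_eq_zero_iff (n : ℕ) (a : Y.A n) : Y.res φ n a = 0 ↔
    ∀ j, pr (Y.H n) (Y.hbar n) (φ j) a = 0 := by
  constructor
  · intro h j
    exact (Y.pr_res φ n j a).symm.trans ((congrArg _ h).trans (map_zero _))
  · intro h
    refine Comp.ext_proj _ fun j => ?_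
    rw [map_zero]
    exact h j

theorem res₀_eq_zero_iff (a : Y.A₀) : Y.res₀ φ a = 0 ↔
    ∀ j, pr Y.H₀ Y.hbar₀ (φ j) a = 0 := by
  constructor
  · intro h j
    exact (Y.pr_res₀ φ j a).symm.trans ((congrArg _ h).trans (map_zero _))
  · intro h
    refine Comp.ext_proj _ fun j => ?_
    rw [map_zero]
    exact h j

/-- the power series ring acting through the restricted trace ring -/
noncomputable def thR (n : ℕ) : MvPowerSeries (Fin r) O →ₐ[O] (Y.comap φ).A n :=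
  (Y.res φ n).comp (Y.thA hpO n)

section UD

variable (j : κ') {d : ℕ} (Mo : ∀ n, MData (Y.H n (φ j)) p (Y.qv n) (Y.e n) d)

theorem ker_res_le (n : ℕ) : RingHom.ker (Y.res φ n : Y.A n →+* (Y.comap φ).A n) ≤
    RingHom.ker ((Y.UD hpO (φ j) Mo).ρ n) := by
  intro a ha
  have h1 : Y.res φ n a = 0 := ha
  rw [res_eq_zero_iff] at h1
  rw [RingHom.mem_ker]
  refine LinearMap.ext fun (m : (Mo n).M) => ?_
  exact (congrArg (· • m) (h1 j)).trans (zero_smul _ m)

/-- **The patching data of a component, over the restricted trace ring**: same modules, same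
structure over the power series ring. -/
noncomputable def UDr : UData (MvPowerSeries (Fin r) O) (fun n => JJ O hpO (Y.e n))
    (Y.comap φ).A
    (fun n => (Y.thR hpO φ n : MvPowerSeries (Fin r) O →+* (Y.comap φ).A n)) :=
  (Y.UD hpO (φ j) Mo).push (fun n => (Y.res φ n : Y.A n →+* (Y.comap φ).A n))
    (Y.res_surjective φ) (Y.ker_res_le hpO φ j Mo)

theorem UDr_ρ (n : ℕ) (a : Y.A n) : (Y.UDr hpO φ j Mo).ρ n (Y.res φ n a) =
    (Y.UD hpO (φ j) Mo).ρ n a :=
  UData.push_ρ (fun n => (Y.res φ n : Y.A n →+* (Y.comap φ).A n))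
    (Y.res_surjective φ) (Y.UD hpO (φ j) Mo) (Y.ker_res_le hpO φ j Mo) n a

theorem UDr_ρ' (n : ℕ) (b : (Y.comap φ).A n) (m : (Mo n).M) :
    (Y.UDr hpO φ j Mo).ρ n b m =
      pr ((Y.comap φ).H n) ((Y.comap φ).hbar n) j b • m := by
  obtain ⟨a, rfl⟩ := Y.res_surjective φ n b
  rw [UDr_ρ]
  rfl

variable {j Mo} (Z : Y.BData (φ j) Mo)

theorem ker_res₀_le : RingHom.ker (Y.res₀ φ : Y.A₀ →+* (Y.comap φ).A₀) ≤
    RingHom.ker (Y.UB hpO Z).ρ₀ := by
  intro a ha
  have h1 : Y.res₀ φ a = 0 := ha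
  rw [res₀_eq_zero_iff] at h1
  rw [RingHom.mem_ker]
  refine LinearMap.ext fun (m : Z.N) => ?_
  exact (congrArg (· • m) (h1 j)).trans (zero_smul _ m)

/-- **The bottom level over the restricted trace ring.** -/
noncomputable def UBr : UBase (Y.UDr hpO φ j Mo) (aug O r) (Y.comap φ).A₀ :=
  (Y.UB hpO Z).push (fun n => (Y.res φ n : Y.A n →+* (Y.comap φ).A n))
    (Y.res_surjective φ) (Y.ker_res_le hpO φ j Mo)
    (Y.res₀ φ : Y.A₀ →+* (Y.comap φ).A₀) (Y.res₀_surjective φ)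
    (Y.ker_res₀_le hpO φ Z) (fun n => ((Y.comap φ).π n : (Y.comap φ).A n →+* _))
    (Y.π_res φ)

theorem UBr_ρ₀ (a : Y.A₀) : (Y.UBr hpO φ Z).ρ₀ (Y.res₀ φ a) = (Y.UB hpO Z).ρ₀ a :=
  RingHom.liftOfSurjective_comp_apply (Y.res₀ φ : Y.A₀ →+* (Y.comap φ).A₀)
    (Y.res₀_surjective φ) ⟨(Y.UB hpO Z).ρ₀, Y.ker_res₀_le hpO φ Z⟩ a

theorem UBr_f (n : ℕ) (x : (Mo n).M) : (Y.UBr hpO φ Z).f n x = Z.f n x := rfl

theorem UBr_π (n : ℕ) : (Y.UBr hpO φ Z).π n = ((Y.comap φ).π n : (Y.comap φ).A n →+* _) := rfl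

end UD

end Sys

end Fermat.Agent.H25.GE
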