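import Mathlib
import Fermat.Agent.TFin.Coker
import Fermat.Agent.TFin.Comap

set_option autoImplicit false
set_option linter.unusedSectionVars false
set_option linter.style.haveILetI false

/-!
# The system of trace rings of the cokernel
-/

namespace Fermat.Agent.H25.GE

open Fermat.Agent.H25 Fermat.Agent.H25.PR Fermat.Agent.CC Fermat.Agent.TW IsLocalRing Matrix
open Fermat.Agent.H05 Fermat.Agent.H25.TR Fermat.Agent.H25.TWM Fermat.Agent.TAlg Fermat.Agent.H25.GD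

section Quot

variable {O k : Type} [CommRing O] [IsDomain O] [IsLocalRing O] [IsNoetherianRing O]
    [IsAdicComplete (maximalIdeal O) O] [Field k] {D : RD O k}
    {S : Finset Nat.Primes} {bad : Finset ℕ} {κ : Type} [Finite κ] [Nonempty κ]
    (H : κ → CData D S bad) (hbar : HBar D S) (i : κ) (𝔞 : Ideal (AR H hbar))
    (h1 : RingHom.ker (pr H hbar i) ≤ 𝔞)
    (h2 : ∀ (s : O) (b : AR H hbar), s ≠ 0 → algebraMap O (AR H hbar) s * b ∈ 𝔞 → b ∈ 𝔞)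
    (h3 : 𝔞 ≠ ⊤)

/-- the quotient map to the quotient component -/
noncomputable def quotMk : AR H hbar →ₐ[O] (quotC H hbar i 𝔞 h1 h2 h3).B :=
  Ideal.Quotient.mkₐ O 𝔞

theorem quotMk_surjective : Function.Surjective (quotMk H hbar i 𝔞 h1 h2 h3) :=
  Ideal.Quotient.mk_surjective

theorem quotMk_eq_zero_iff (a : AR H hbar) : quotMk H hbar i 𝔞 h1 h2 h3 a = 0 ↔ a ∈ 𝔞 :=
  Ideal.Quotient.eq_zero_iff_mem

theorem quotC_ev (y : (quotC H hbar i 𝔞 h1 h2 h3).X) (a : AR H hbar) :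
    (quotC H hbar i 𝔞 h1 h2 h3).ev y (quotMk H hbar i 𝔞 h1 h2 h3 a) =
      pt H hbar i y.1 a := rfl

theorem quotMk_t (g : GQ) : quotMk H hbar i 𝔞 h1 h2 h3 ((CA H hbar).t g) =
    ((quotC H hbar i 𝔞 h1 h2 h3).C hbar).t g := by
  refine (quotC H hbar i 𝔞 h1 h2 h3).ext_ev fun y => ?_
  rw [quotC_ev, pt_t, CData.ev_C]
  rfl

variable {κ' : Type} [Finite κ'] (φ : κ' → κ)

/-- the family of the quotient component and of some of the components -/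
noncomputable def optC : Option κ' → CData D S bad
  | none => quotC H hbar i 𝔞 h1 h2 h3
  | some j => H (φ j)

/-- the maps to the components of this family -/
noncomputable def optMk : ∀ o : Option κ', AR H hbar →ₐ[O] (optC H hbar i 𝔞 h1 h2 h3 φ o).B
  | none => quotMk H hbar i 𝔞 h1 h2 h3
  | some j => pr H hbar (φ j)

theorem optMk_t (o : Option κ') (g : GQ) : optMk H hbar i 𝔞 h1 h2 h3 φ o ((CA H hbar).t g) =
    ((optC H hbar i 𝔞 h1 h2 h3 φ o).C hbar).t g :=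
  match o with
  | none => quotMk_t H hbar i 𝔞 h1 h2 h3 g
  | some _ => rfl

/-- the map to the trace ring of this family -/
noncomputable def quotPsi : AR H hbar →ₐ[O] AR (optC H hbar i 𝔞 h1 h2 h3 φ) hbar :=
  liftA H hbar (optC H hbar i 𝔞 h1 h2 h3 φ) hbar (optMk H hbar i 𝔞 h1 h2 h3 φ)
    (optMk_t H hbar i 𝔞 h1 h2 h3 φ)

theorem pr_quotPsi (o : Option κ') (a : AR H hbar) :
    pr (optC H hbar i 𝔞 h1 h2 h3 φ) hbar o (quotPsi H hbar i 𝔞 h1 h2 h3 φ a) =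
      optMk H hbar i 𝔞 h1 h2 h3 φ o a := rfl

theorem quotPsi_eq_zero_iff (a : AR H hbar) : quotPsi H hbar i 𝔞 h1 h2 h3 φ a = 0 ↔
    a ∈ 𝔞 ∧ ∀ j, pr H hbar (φ j) a = 0 := by
  constructor
  · intro h
    have h4 : ∀ o, optMk H hbar i 𝔞 h1 h2 h3 φ o a = 0 := fun o =>
      (pr_quotPsi H hbar i 𝔞 h1 h2 h3 φ o a).symm.trans ((congrArg _ h).trans (map_zero _))
    exact ⟨(quotMk_eq_zero_iff H hbar i 𝔞 h1 h2 h3 a).mp (h4 none), fun j => h4 (some j)⟩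
  · rintro ⟨h, h'⟩
    refine Comp.ext_proj _ fun o => ?_
    rw [map_zero]
    match o with
    | none => exact (quotMk_eq_zero_iff H hbar i 𝔞 h1 h2 h3 a).mpr h
    | some j => exact h' j

theorem quotPsi_surjective : Function.Surjective (quotPsi H hbar i 𝔞 h1 h2 h3 φ) :=
  liftA_surjective _ _ _ _ _ _

theorem quotPsi_t (g : GQ) : quotPsi H hbar i 𝔞 h1 h2 h3 φ ((CA H hbar).t g) =
    (CA (optC H hbar i 𝔞 h1 h2 h3 φ) hbar).t g := liftA_t _ _ _ _ _ _ g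

theorem quotPsi_rho (g : GQ) : ((CA H hbar).rho g).map (quotPsi H hbar i 𝔞 h1 h2 h3 φ) =
    (CA (optC H hbar i 𝔞 h1 h2 h3 φ) hbar).rho g := liftA_rho _ _ _ _ _ _ g

end Quot

namespace Sys

variable {O k : Type} [CommRing O] [IsDomain O] [CharZero O] [IsLocalRing O]
    [IsNoetherianRing O] [IsAdicComplete (maximalIdeal O) O]
    [Field k] {D : RD O k}
    {p : ℕ} [Fact p.Prime] (hpO : (p : O) ∈ maximalIdeal O)
    {r : ℕ} {κ : Type} [Finite κ] [Nonempty κ] {Y : Sys D p r κ}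
    {i i' : κ} {d d' : ℕ} {Mo : ∀ n, MData (Y.H n i) p (Y.qv n) (Y.e n) d}
    {Mo' : ∀ n, MData (Y.H n i') p (Y.qv n) (Y.e n) d'}
    {Z : Y.BData i Mo} {Z' : Y.BData i' Mo'}

theorem π_TA (Y : Sys D p r κ) (n : ℕ) (ℓ : ℕ) :
    Y.π n (TA (Y.H n) (Y.hbar n) ℓ) = TA Y.H₀ Y.hbar₀ ℓ := by
  rw [TA, TA]
  split_ifs with h
  · exact Y.π_t n _
  · exact map_zero _

namespace RaiseD

variable {q : Nat.Primes} {ϖ : O} (R : Sys.RaiseD Y Z Z' q ϖ)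
  (hϖ : maximalIdeal O = Ideal.span {ϖ}) (hd : 2 * d < d')
  {κ' : Type} [Finite κ'] (φ : κ' → κ)

/-- the components: the cokernel (`none`) and the components `φ j` (`some j`) -/
noncomputable def cC (n : ℕ) : Option κ' → CData D (Y.S n) (Y.bad n) :=
  optC (Y.H n) (Y.hbar n) i' (R.aC hpO hϖ n) (R.ker_pr_le hpO hϖ n)
    (fun s b => R.aC_torsion hpO hϖ n s b) (R.one_notMem_aC hpO hϖ hd n) φ

/-- the components at the bottom -/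
noncomputable def cC₀ : Option κ' → CData D Y.S₀ Y.bad₀ :=
  optC Y.H₀ Y.hbar₀ i' (R.aC₀ hpO hϖ) (R.ker_pr₀_le hpO hϖ)
    (fun s b => R.aC₀_torsion hpO hϖ s b) (R.one_notMem_aC₀ hpO hϖ hd) φ

/-- the specialisation maps -/
noncomputable def πC (n : ℕ) : ∀ o : Option κ',
    (R.cC hpO hϖ hd φ n o).B →ₐ[O] (R.cC₀ hpO hϖ hd φ o).B
  | none => Ideal.quotientMapₐ (R.aC₀ hpO hϖ) (Y.π n) (fun _ ha => R.π_aC hpO hϖ ha)
  | some j => Y.πB n (φ j)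

theorem πC_T (n : ℕ) (o : Option κ') (ℓ : ℕ) (hℓ : ℓ.Prime) (hb : ℓ ∉ Y.badπ n) :
    R.πC hpO hϖ hd φ n o ((R.cC hpO hϖ hd φ n o).T ℓ) = (R.cC₀ hpO hϖ hd φ o).T ℓ :=
  match o with
  | none => congrArg (Ideal.Quotient.mk (R.aC₀ hpO hϖ)) (Y.π_TA n ℓ)
  | some j => Y.hπB n (φ j) ℓ hℓ hb

/-- **The system of the cokernel (component `none`) and of the components `φ j`
(component `some j`).** -/
noncomputable def YC : Sys D p r (Option κ') where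
  S := Y.S
  bad := Y.bad
  hbar := Y.hbar
  qv := Y.qv
  e := Y.e
  hQ := Y.hQ
  H := R.cC hpO hϖ hd φ
  S₀ := Y.S₀
  bad₀ := Y.bad₀
  hbar₀ := Y.hbar₀
  H₀ := R.cC₀ hpO hϖ hd φ
  πB := R.πC hpO hϖ hd φ
  badπ := Y.badπ
  hπB n o ℓ hℓ hb := R.πC_T hpO hϖ hd φ n o ℓ hℓ hb
  unr₀ := Y.unr₀

/-- the map to the strict trace ring -/
noncomputable def psi (n : ℕ) : Y.A n →ₐ[O] (R.YC hpO hϖ hd φ).A n :=
  quotPsi (Y.H n) (Y.hbar n) i' (R.aC hpO hϖ n) (R.ker_pr_le hpO hϖ n)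
    (fun s b => R.aC_torsion hpO hϖ n s b) (R.one_notMem_aC hpO hϖ hd n) φ

/-- the map to the strict trace ring at the bottom -/
noncomputable def psi₀ : Y.A₀ →ₐ[O] (R.YC hpO hϖ hd φ).A₀ :=
  quotPsi Y.H₀ Y.hbar₀ i' (R.aC₀ hpO hϖ) (R.ker_pr₀_le hpO hϖ)
    (fun s b => R.aC₀_torsion hpO hϖ s b) (R.one_notMem_aC₀ hpO hϖ hd) φ

theorem psi_surjective (n : ℕ) : Function.Surjective (R.psi hpO hϖ hd φ n) :=
  quotPsi_surjective _ _ _ _ _ _ _ _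

theorem psi₀_surjective : Function.Surjective (R.psi₀ hpO hϖ hd φ) :=
  quotPsi_surjective _ _ _ _ _ _ _ _

theorem psi_eq_zero_iff (n : ℕ) (a : Y.A n) : R.psi hpO hϖ hd φ n a = 0 ↔
    a ∈ R.aC hpO hϖ n ∧ ∀ j, pr (Y.H n) (Y.hbar n) (φ j) a = 0 :=
  quotPsi_eq_zero_iff _ _ _ _ _ _ _ _ a

theorem psi₀_eq_zero_iff (a : Y.A₀) : R.psi₀ hpO hϖ hd φ a = 0 ↔
    a ∈ R.aC₀ hpO hϖ ∧ ∀ j, pr Y.H₀ Y.hbar₀ (φ j) a = 0 :=
  quotPsi_eq_zero_iff _ _ _ _ _ _ _ _ a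

theorem psi_t (n : ℕ) (g : GQ) : R.psi hpO hϖ hd φ n ((CA (Y.H n) (Y.hbar n)).t g) =
    (CA ((R.YC hpO hϖ hd φ).H n) ((R.YC hpO hϖ hd φ).hbar n)).t g := quotPsi_t _ _ _ _ _ _ _ _ g

theorem psi₀_t (g : GQ) : R.psi₀ hpO hϖ hd φ ((CA Y.H₀ Y.hbar₀).t g) =
    (CA ((R.YC hpO hϖ hd φ).H₀) ((R.YC hpO hϖ hd φ).hbar₀)).t g := quotPsi_t _ _ _ _ _ _ _ _ g

theorem psi_rho (n : ℕ) (g : GQ) :
    ((CA (Y.H n) (Y.hbar n)).rho g).map (R.psi hpO hϖ hd φ n) =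
    (CA ((R.YC hpO hϖ hd φ).H n) ((R.YC hpO hϖ hd φ).hbar n)).rho g :=
  quotPsi_rho _ _ _ _ _ _ _ _ g

theorem psi₀_rho (g : GQ) : ((CA Y.H₀ Y.hbar₀).rho g).map (R.psi₀ hpO hϖ hd φ) =
    (CA ((R.YC hpO hϖ hd φ).H₀) ((R.YC hpO hϖ hd φ).hbar₀)).rho g :=
  quotPsi_rho _ _ _ _ _ _ _ _ g

theorem π_psi (n : ℕ) (a : Y.A n) : (R.YC hpO hϖ hd φ).π n (R.psi hpO hϖ hd φ n a) =
    R.psi₀ hpO hϖ hd φ (Y.π n a) := Comp.ext_proj _ fun o =>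
  match o with
  | none => rfl
  | some _ => rfl

/-- the underlying point of level `N q` of a point of the cokernel -/
def ptC {n : ℕ} (y : ((R.YC hpO hϖ hd φ).H n none).X) : (Y.H n i').X := y.1

theorem ptC_t {n : ℕ} (y : ((R.YC hpO hϖ hd φ).H n none).X) :
    ((R.YC hpO hϖ hd φ).H n none).t y = (Y.H n i').t (R.ptC hpO hϖ hd φ y) := rfl

/-- the points of the cokernel are those killing the annihilator. -/
theorem ptC_spec {n : ℕ} (y : ((R.YC hpO hϖ hd φ).H n none).X) (a : Y.A n)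
    (ha : ∀ x : (Mo' n).M, ∃ u v, pr (Y.H n) (Y.hbar n) i' a • x = R.i₁ n u + R.i₂ n v) :
    pt (Y.H n) (Y.hbar n) i' (R.ptC hpO hϖ hd φ y) a = 0 :=
  y.2 ((R.mem_aC hpO hϖ).mpr ha)

/-- conversely -/
theorem exists_ptC {n : ℕ} (y : (Y.H n i').X)
    (hy : ∀ a : Y.A n, (∀ x : (Mo' n).M, ∃ u v,
      pr (Y.H n) (Y.hbar n) i' a • x = R.i₁ n u + R.i₂ n v) →
      pt (Y.H n) (Y.hbar n) i' y a = 0) :
    ∃ y' : ((R.YC hpO hϖ hd φ).H n none).X, R.ptC hpO hϖ hd φ y' = y :=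
  ⟨⟨y, fun a ha => hy a ((R.mem_aC hpO hϖ).mp ha)⟩, rfl⟩

theorem psi_ptC {n : ℕ} (y : ((R.YC hpO hϖ hd φ).H n none).X) (a : Y.A n) :
    pt ((R.YC hpO hϖ hd φ).H n) ((R.YC hpO hϖ hd φ).hbar n) none y (R.psi hpO hϖ hd φ n a) =
      pt (Y.H n) (Y.hbar n) i' (R.ptC hpO hϖ hd φ y) a := rfl

theorem psi_pt {n : ℕ} (j : κ') (y : (Y.H n (φ j)).X) (a : Y.A n) :
    pt ((R.YC hpO hϖ hd φ).H n) ((R.YC hpO hϖ hd φ).hbar n) (some j) y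
      (R.psi hpO hϖ hd φ n a) = pt (Y.H n) (Y.hbar n) (φ j) y a := rfl

/-- the underlying point of level `N q` of a point of the cokernel, bottom level -/
def ptC₀ (y : ((R.YC hpO hϖ hd φ).H₀ none).X) : (Y.H₀ i').X := y.1

theorem ptC₀_t (y : ((R.YC hpO hϖ hd φ).H₀ none).X) :
    ((R.YC hpO hϖ hd φ).H₀ none).t y = (Y.H₀ i').t (R.ptC₀ hpO hϖ hd φ y) := rfl

theorem ptC₀_spec (y : ((R.YC hpO hϖ hd φ).H₀ none).X) (a : Y.A₀)
    (ha : ∀ x : Z'.N, ∃ u v, pr Y.H₀ Y.hbar₀ i' a • x = R.I₁ u + R.I₂ v) :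
    pt Y.H₀ Y.hbar₀ i' (R.ptC₀ hpO hϖ hd φ y) a = 0 :=
  y.2 ((R.mem_aC₀ hpO hϖ).mpr ha)

theorem psi₀_ptC₀ (y : ((R.YC hpO hϖ hd φ).H₀ none).X) (a : Y.A₀) :
    pt (R.YC hpO hϖ hd φ).H₀ (R.YC hpO hϖ hd φ).hbar₀ none y (R.psi₀ hpO hϖ hd φ a) =
      pt Y.H₀ Y.hbar₀ i' (R.ptC₀ hpO hϖ hd φ y) a := rfl

theorem psi₀_pt (j : κ') (y : (Y.H₀ (φ j)).X) (a : Y.A₀) :
    pt (R.YC hpO hϖ hd φ).H₀ (R.YC hpO hϖ hd φ).hbar₀ (some j) y (R.psi₀ hpO hϖ hd φ a) =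
      pt Y.H₀ Y.hbar₀ (φ j) y a := rfl

/-- the power series ring acting through the strict trace ring -/
noncomputable def thC (n : ℕ) : MvPowerSeries (Fin r) O →ₐ[O] (R.YC hpO hϖ hd φ).A n :=
  (R.psi hpO hϖ hd φ n).comp (Y.thA hpO n)

theorem ker_psi_le (n : ℕ) :
    RingHom.ker (R.psi hpO hϖ hd φ n : Y.A n →+* (R.YC hpO hϖ hd φ).A n) ≤
    RingHom.ker ((R.UC hpO hϖ).ρ n) := by
  intro a ha
  have h1 : R.psi hpO hϖ hd φ n a = 0 := ha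
  exact ((R.psi_eq_zero_iff hpO hϖ hd φ n a).mp h1).1

theorem ker_psi₀_le : RingHom.ker (R.psi₀ hpO hϖ hd φ : Y.A₀ →+* (R.YC hpO hϖ hd φ).A₀) ≤
    RingHom.ker (R.UBC hpO hϖ).ρ₀ := by
  intro a ha
  have h1 : R.psi₀ hpO hϖ hd φ a = 0 := ha
  exact ((R.psi₀_eq_zero_iff hpO hϖ hd φ a).mp h1).1

/-- **The cokernel as patching data over the strict trace rings.** -/
noncomputable def UCs : UData (MvPowerSeries (Fin r) O) (fun n => JJ O hpO (Y.e n))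
    (R.YC hpO hϖ hd φ).A
    (fun n => (R.thC hpO hϖ hd φ n : MvPowerSeries (Fin r) O →+* (R.YC hpO hϖ hd φ).A n)) :=
  (R.UC hpO hϖ).push (fun n => (R.psi hpO hϖ hd φ n : Y.A n →+* (R.YC hpO hϖ hd φ).A n))
    (R.psi_surjective hpO hϖ hd φ) (R.ker_psi_le hpO hϖ hd φ)

theorem UCs_ρ (n : ℕ) (a : Y.A n) : (R.UCs hpO hϖ hd φ).ρ n (R.psi hpO hϖ hd φ n a) =
    (R.UC hpO hϖ).ρ n a :=
  UData.push_ρ (fun n => (R.psi hpO hϖ hd φ n : Y.A n →+* (R.YC hpO hϖ hd φ).A n))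
    (R.psi_surjective hpO hϖ hd φ) (R.UC hpO hϖ) (R.ker_psi_le hpO hϖ hd φ) n a

/-- **The bottom level of the cokernel over the strict trace rings.** -/
noncomputable def UBCs : UBase (R.UCs hpO hϖ hd φ) (aug O r) (R.YC hpO hϖ hd φ).A₀ :=
  (R.UBC hpO hϖ).push (fun n => (R.psi hpO hϖ hd φ n : Y.A n →+* (R.YC hpO hϖ hd φ).A n))
    (R.psi_surjective hpO hϖ hd φ) (R.ker_psi_le hpO hϖ hd φ)
    (R.psi₀ hpO hϖ hd φ : Y.A₀ →+* (R.YC hpO hϖ hd φ).A₀) (R.psi₀_surjective hpO hϖ hd φ)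
    (R.ker_psi₀_le hpO hϖ hd φ)
    (fun n => ((R.YC hpO hϖ hd φ).π n : (R.YC hpO hϖ hd φ).A n →+* _))
    (R.π_psi hpO hϖ hd φ)

theorem UBCs_ρ₀ (a : Y.A₀) : (R.UBCs hpO hϖ hd φ).ρ₀ (R.psi₀ hpO hϖ hd φ a) =
    (R.UBC hpO hϖ).ρ₀ a :=
  RingHom.liftOfSurjective_comp_apply (R.psi₀ hpO hϖ hd φ : Y.A₀ →+* (R.YC hpO hϖ hd φ).A₀)
    (R.psi₀_surjective hpO hϖ hd φ) ⟨(R.UBC hpO hϖ).ρ₀, R.ker_psi₀_le hpO hϖ hd φ⟩ a

include hϖ in
/-- if the cokernel is zero then the degeneracy maps are surjective. -/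
theorem iS_surjective (hd' : ¬ 2 * d < d') (n : ℕ) : Function.Surjective (R.iS hpO n) := by
  rw [← LinearMap.range_eq_top, ← R.ker_qC hpO hϖ, eq_top_iff]
  intro x _
  rw [LinearMap.mem_ker]
  apply ((R.UC hpO hϖ).e n).injective
  rw [map_zero]
  funext j
  have h1 : (R.UC hpO hϖ).d = 0 := by
    change d' - 2 * d = 0
    omega
  exact absurd (h1 ▸ j.2 : (j : ℕ) < 0) (Nat.not_lt_zero _)

include hϖ in
/-- if the cokernel is zero then the degeneracy maps are surjective at the bottom. -/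
theorem IS_surjective (hd' : ¬ 2 * d < d') : Function.Surjective (R.IS hpO) := by
  intro y
  obtain ⟨x, rfl⟩ := (Y.UB hpO Z').f_surj 0 y
  obtain ⟨z, rfl⟩ := R.iS_surjective hpO hϖ hd' 0 x
  exact ⟨_, (R.f_iS hpO 0 z).symm⟩

end RaiseD

end Sys

end Fermat.Agent.H25.GE
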