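import Mathlib
import Fermat.Agent.H12.LL.LLmain
import Fermat.Agent.H12.LL.NL
import Fermat.Agent.H25.SelJ

/-!
# Modularity lifting: the base data
-/

set_option autoImplicit false
set_option linter.unusedSectionVars false
set_option linter.style.haveILetI false

noncomputable section

namespace Fermat.Agent.TFin

open Fermat.Agent.TC Fermat.Agent.TW Fermat.Agent.CC Fermat.Agent.H25.GE Fermat.Agent.H25.TR
open Fermat.Agent.Ell Fermat.Agent.H25 Fermat.Agent.H25.PR Fermat.Agent.H25.PT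
open Fermat.Agent.H22 Fermat.Agent.H12.LL Fermat.Agent.H25.SB Fermat.Agent.H25.GD
open Fermat.Agent.H04 (DN M2)
open IsLocalRing CongruenceSubgroup Matrix

/-- **The Selmer bounds** in all modes at `p`, for all families of components at a given
Taylor–Wiles level. -/
structure SelM {O : Type} [CommRing O] [IsLocalRing O] [IsNoetherianRing O]
    [IsAdicComplete (maximalIdeal O) O] [Finite (ResidueField O)] (D : RD O (ResidueField O))
    (p : ℕ) (pp : Nat.Primes) (S T : Finset Nat.Primes) (r : ℕ) (qv : Fin r → Nat.Primes) :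
    Prop where
  /-- flat families -/
  flat : LFlat p (plv pp pp.2) D.rbar →
    ∀ (κ : Type) [Finite κ] [Nonempty κ] (bad : Finset ℕ)
      (H : κ → CData D (S ∪ Finset.univ.image qv) bad)
      (hbar : HBar D (S ∪ Finset.univ.image qv)),
      (∀ q ∈ S, q ∉ T → q ≠ pp → ∀ i x, ∀ τ ∈ (plv q q.2).inertiaSubgroupIn ℚ,
        (H i).t x τ = 2) →
      (∀ i, FlT p O ((H i).C hbar).t) → GE.SelB H hbar r (fun t : T => (t : Nat.Primes))
  /-- strictly ordinary families -/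
  strict : ∀ (κ : Type) [Finite κ] [Nonempty κ] (bad : Finset ℕ)
      (H : κ → CData D (S ∪ Finset.univ.image qv) bad)
      (hbar : HBar D (S ∪ Finset.univ.image qv)),
      (∀ q ∈ S, q ∉ T → q ≠ pp → ∀ i x, ∀ τ ∈ (plv q q.2).inertiaSubgroupIn ℚ,
        (H i).t x τ = 2) →
      (∀ (d : AR H hbar → ResidueField O) (hd : IsDer O (CA H hbar).resB d),
          StrictC p (plv pp pp.2) (sHom hd (CA H hbar).rho)) →
      GE.SelB H hbar r (fun t : T => (t : Nat.Primes))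
  /-- flat families, constant unit root -/
  root : ∀ (κ : Type) [Finite κ] [Nonempty κ] (bad : Finset ℕ)
      (H : κ → CData D (S ∪ Finset.univ.image qv) bad)
      (hbar : HBar D (S ∪ Finset.univ.image qv)),
      (∀ q ∈ S, q ∉ T → q ≠ pp → ∀ i x, ∀ τ ∈ (plv q q.2).inertiaSubgroupIn ℚ,
        (H i).t x τ = 2) →
      (∀ i, FlT p O ((H i).C hbar).t) → ∀ (Q Q' : Mt (ResidueField O)),
      BData (plv pp pp.2) D.rbar Q Q' → ∀ (φ σ₀ : GQ), (plv pp pp.2).IsFrobeniusAt φ p →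
      σ₀ ∈ (plv pp pp.2).inertiaSubgroupIn ℚ → IsUnit (D.chi σ₀ - 1) →
      SelBy H hbar r (fun t : T => (t : Nat.Primes)) (zEl H hbar φ σ₀)

section

variable {W : WeierstrassCurve ℤ} {p : ℕ} [hp : Fact p.Prime]
  (hΔ : W.Δ ≠ 0) (hirr : W.ModRepIsIrreducible p) (hp2 : p ≠ 2)
  {O : Type} [CommRing O] [IsLocalRing O] [Algebra ℤ_[p] O] [IsLocalHom (algebraMap ℤ_[p] O)]

/-- ramification at the chosen place -/
theorem exists_ram_plv {q : Nat.Primes} (h : ¬ UnrAt W p q) :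
    ∃ τ ∈ (plv q q.2).inertiaSubgroupIn ℚ, (RDW hΔ hirr hp2 O).rbar τ ≠ 1 := by
  by_contra hcon
  push Not at hcon
  apply h
  intro A hA σ hσ
  obtain ⟨g, rfl⟩ := H05.exists_smul_eq q.2 (plv_over q q.2) hA
  have h1 : g⁻¹ * σ * g ∈ (plv q q.2).inertiaSubgroupIn ℚ := H09.inertia_conj hσ
  have h2 := hcon _ h1
  have h3 : σ = g * (g⁻¹ * σ * g) * g⁻¹ := by group
  have h4 : (RDW hΔ hirr hp2 O).rbar σ = 1 := by
    rw [h3, map_mul, map_mul, h2, mul_one, ← map_mul, mul_inv_cancel, map_one]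
  rwa [RDW_rbar_eq_one_iff] at h4

end

section

variable {W : WeierstrassCurve ℤ} {p : ℕ} [hp : Fact p.Prime]
  (hΔ : W.Δ ≠ 0) (hirr : W.ModRepIsIrreducible p) (hp2 : p ≠ 2)
  {O : Type} [CommRing O] [IsDomain O] [IsDiscreteValuationRing O]
  [IsAdicComplete (maximalIdeal O) O] [Finite (ResidueField O)] [CharZero O] [Algebra ℤ_[p] O]
  [IsLocalHom (algebraMap ℤ_[p] O)]

/-- **The base data for modularity lifting**, with all Selmer bounds. -/
theorem exists_fIn (hGW : GWad p) (hk : Kill W p) (Ge : Geo p) (hNL : NLIn W p)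
    {ζ : ResidueField O} (hζ : IsPrimitiveRoot ζ (p ^ 2 - 1)) (hpO : (p : O) ∈ maximalIdeal O)
    {S T : Finset Nat.Primes} {pp : Nat.Primes} (hpp : (pp : ℕ) = p) (hpS : pp ∈ S)
    (hpT : pp ∉ T) (hTS : T ⊆ S) (hSunr : ∀ q : Nat.Primes, q ∉ S → UnrAt W p q)
    (hram : ∀ q ∈ S, q ∉ T → q ≠ pp → ¬ UnrAt W p q)
    {D₀ : ℕ} (hD₀ : D₀ ≠ 0) (hpD₀ : p ∣ D₀)
    (hΔD₀ : ∀ q : ℕ, q.Prime → (q : ℤ) ∣ W.Δ → q ∣ D₀) :
    ∃ I : FIn hΔ hirr hp2 O, I.S = S ∧ I.D₀ = D₀ ∧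
      ∀ n, SelM (RDW hΔ hirr hp2 O) p pp S T I.r (fun j => ⟨(I.c n).q j, (I.c n).prime j⟩) := by
  haveI := charP_res p O
  have hTW : TWData p S (RDW hΔ hirr hp2 O).rbar (chiB hΔ hirr hp2 O) :=
    RDW_TWData hΔ hirr hp2 hSunr (hNL hΔ hirr hp2 O)
  obtain ⟨r, hr⟩ := exists_SelB_modes (D := RDW hΔ hirr hp2 O) hGW hp2 (U := ∅)
    (condU := fun _ _ => True) hpp hpS hpT (Finset.notMem_empty _) hTS (Finset.empty_subset _)
    (Finset.disjoint_empty_right _) hTW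
    (fun q h1 h2 _ h3 => exists_ram_plv hΔ hirr hp2 (hram q h1 h2 h3)) (RDW_isCyc hΔ hirr hp2) hpO
    (lev_isOpen_of_levS hTW.open_ker) (fun q hq => absurd hq (Finset.notMem_empty _))
  have hc : ∀ n : ℕ, ∃ c : TWCore p r, TWOk (O := O) hΔ hirr hp2 S D₀ n c ∧
      SelM (RDW hΔ hirr hp2 O) p pp S T r (fun j => ⟨c.q j, c.prime j⟩) := by
    intro n
    obtain ⟨qv, h1, h2, h3⟩ := hr (n + 1) D₀.primeFactors
    obtain ⟨c, hcq, hce, hcu⟩ := exists_TWCore hΔ hirr hp2 (n := n + 1)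
      (fun j => (qv j : ℕ)) (fun i j hij => h1 (Subtype.ext hij)) (fun j => (h2 j).2.2)
    have hq : ∀ j, (⟨c.q j, c.prime j⟩ : Nat.Primes) = qv j := fun j =>
      Subtype.ext (congrFun hcq j)
    refine ⟨c, ⟨fun j => (Nat.le_succ n).trans (hce j), fun j => ?_, fun j => ?_, fun j => ?_,
      fun j => ?_⟩, ?_⟩
    · rw [hcq]; exact hcu j
    · rw [hcq]; exact (h2 j).2.2
    · rw [hcq]
      exact fun h => (h2 j).1 (Nat.mem_primeFactors.mpr ⟨(qv j).2, h, hD₀⟩)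
    · rw [hq]; exact (h2 j).2.1
    · have : (fun j => (⟨c.q j, c.prime j⟩ : Nat.Primes)) = qv := funext hq
      rw [this]
      have h4 := h3 (S ∪ Finset.univ.image qv) (by congr!)
      refine ⟨fun hLF κ _ _ bad H hbar hun => ?_, fun κ _ _ bad H hbar hun => ?_,
        fun κ _ _ bad H hbar hun => ?_⟩
      · exact (h4 κ bad H hbar (fun q h1 h2 _ h3 => hun q h1 h2 h3)
          (fun d hd q hq => absurd hq (Finset.notMem_empty _))).1 hLF
      · exact (h4 κ bad H hbar (fun q h1 h2 _ h3 => hun q h1 h2 h3)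
          (fun d hd q hq => absurd hq (Finset.notMem_empty _))).2.1
      · exact (h4 κ bad H hbar (fun q h1 h2 _ h3 => hun q h1 h2 h3)
          (fun d hd q hq => absurd hq (Finset.notMem_empty _))).2.2
  choose c hc1 hc2 using hc
  exact ⟨⟨S, hSunr, D₀, hD₀, hpD₀, hΔD₀, ζ, hζ, hk, hTW, Ge, r, c, hc1⟩, rfl, rfl, hc2⟩

end

end Fermat.Agent.TFin
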