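import Mathlib
import Fermat.Agent.H25.Asm5

set_option autoImplicit false
set_option linter.unusedSectionVars false
set_option linter.style.haveILetI false

/-!
# Tangent spaces with a condition
-/

namespace Fermat.Agent.H25.GD

open IsLocalRing Fermat.Agent.CC Fermat.Agent.TW Matrix Fermat.Agent.TAlg

variable {O A k 𝒯 : Type} [CommRing O] [CommRing A] [Field k] [Finite k] [Algebra O A]
  [Finite 𝒯] {S : Finset Nat.Primes}

/-- **Counting framed first order deformations satisfying a condition.** -/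
theorem card_sub_TanSpace_le (res : A →+* k) (ρ : GQ →* Mt A) (rbar : GQ →* Mt k)
    (hbar : ∀ g, (ρ g).map res = rbar g)
    (hdet : ∀ g, ∃ a : O, (ρ g).det = algebraMap O A a)
    (hcont : ∃ U, (levS S).isOpen U ∧ ∀ s ∈ U, MatCong (RingHom.ker res ^ 2) (ρ s) 1)
    (hgen : Algebra.adjoin O (Set.range fun g => (ρ g).trace) = ⊤)
    (D : 𝒯 → Subgroup GQ) (φ τ : 𝒯 → GQ) (hτ1 : ∀ q, rbar (τ q) = 1)
    (hD : ∀ q, ∀ g ∈ D q, ∃ a b : ℕ,
      MatCong (RingHom.ker res ^ 2) (ρ g) (ρ (φ q) ^ a * ρ (τ q) ^ b))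
    (Q : (A → k) → Prop) (𝒟 : Submodule k ((A → k) × (𝒯 → M2 k)))
    (h𝒟 : 𝒟 ≤ TanSpace (algebraMap O A) res (fun q => ρ (φ q)) (fun q => ρ (τ q)))
    (h𝒟Q : ∀ z ∈ 𝒟, Q z.1)
    (Sel : AddSubgroup (H1 (levS S) (Ad0 rbar (1 : GQ →* k)))) [Finite Sel]
    (hSel : ∀ (d : A → k) (hd : IsDer O res d), Q d →
      (∀ q, ∃ a : Ad0 rbar (1 : GQ →* k), ∀ g ∈ D q,
        (coc hd hbar hdet hcont).1 g = g • a - a) →
      H1.mk _ _ (coc hd hbar hdet hcont) ∈ Sel) :
    Finite 𝒟 ∧ Nat.card 𝒟 ≤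
      Nat.card Sel * Nat.card (∀ q, H0 (D q) (Ad0 rbar (1 : GQ →* k))) := by
  classical
  have hmem : ∀ d : 𝒟, (d : (A → k) × (𝒯 → M2 k)) ∈
      TanSpace (algebraMap O A) res (fun q => ρ (φ q)) (fun q => ρ (τ q)) := fun d => h𝒟 d.2
  -- restriction to A
  have hdA : ∀ d : 𝒟, IsDer O res d.1.1 := fun d => isDer_of_mem (hmem d).1
  let y : ∀ (_ : 𝒟) (_ : 𝒯), Ad0 rbar (1 : GQ →* k) := fun d q => Ad0.mk (d.1.2 q) ((hmem d).2.1 q)
  have hyval : ∀ (d : 𝒟) (q : 𝒯), (y d q).val = d.1.2 q := fun d q => rfl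
  have hφ : ∀ (d : 𝒟) (q : 𝒯), (coc (hdA d) hbar hdet hcont).1 (φ q) =
      φ q • y d q - y d q := by
    intro d q
    apply Ad0.ext
    rw [coc_val, Ad0.val_sub, Ad0.val_gsmul, MonoidHom.one_apply, one_smul, hyval, cocVal]
    have h1 : (ρ (φ q)).map d.1.1 = rbar (φ q) * d.1.2 q - d.1.2 q * rbar (φ q) := by
      ext i j
      have h2 := (hmem d).2.2.1 q i j
      have h3 : (ρ (φ q)).map res = rbar (φ q) := hbar (φ q)
      beta_reduce at h2
      rw [h3] at h2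
      rw [Matrix.map_apply, Matrix.sub_apply]
      rw [Matrix.sub_apply] at h2
      linear_combination h2
    rw [h1, sub_mul, mul_assoc (d.1.2 q), r_mul_inv, mul_one]
  have hτ : ∀ (d : 𝒟) (q : 𝒯), (coc (hdA d) hbar hdet hcont).1 (τ q) =
      τ q • y d q - y d q := by
    intro d q
    apply Ad0.ext
    rw [coc_val, Ad0.val_sub, Ad0.val_gsmul, MonoidHom.one_apply, one_smul, hyval, cocVal]
    have h1 : (ρ (τ q)).map d.1.1 = 0 := by
      ext i j
      exact (hmem d).2.2.2 q i j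
    have h2 : rbar (τ q)⁻¹ = 1 := by
      have := r_mul_inv rbar (τ q)
      rwa [hτ1, one_mul] at this
    rw [h1, zero_mul, hτ1, h2, one_mul, mul_one, sub_self]
  have hmul : ∀ (d : 𝒟) (q : 𝒯) (g h : GQ),
      (coc (hdA d) hbar hdet hcont).1 g = g • y d q - y d q →
      (coc (hdA d) hbar hdet hcont).1 h = h • y d q - y d q →
      (coc (hdA d) hbar hdet hcont).1 (g * h) = (g * h) • y d q - y d q := by
    intro d q g h hg hh
    rw [(coc (hdA d) hbar hdet hcont).2.2, hg, hh, smul_sub, mul_smul]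
    abel
  have hpow : ∀ (d : 𝒟) (q : 𝒯) (g : GQ),
      (coc (hdA d) hbar hdet hcont).1 g = g • y d q - y d q → ∀ n : ℕ,
      (coc (hdA d) hbar hdet hcont).1 (g ^ n) = (g ^ n) • y d q - y d q := by
    intro d q g hg n
    induction n with
    | zero =>
      have h1 := (coc (hdA d) hbar hdet hcont).2.2 1 1
      rw [one_mul, one_smul] at h1
      rw [pow_zero, one_smul, sub_self]
      exact left_eq_add.mp h1
    | succ n ih =>
      rw [pow_succ]
      exact hmul d q _ _ ih hg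
  have hDq : ∀ (d : 𝒟) (q : 𝒯), ∀ g ∈ D q,
      (coc (hdA d) hbar hdet hcont).1 g = g • y d q - y d q := by
    intro d q g hg
    obtain ⟨a, b, hab⟩ := hD q g hg
    have h1 := hmul d q _ _ (hpow d q _ (hφ d q) a) (hpow d q _ (hτ d q) b)
    have h2 : MatCong (RingHom.ker res ^ 2) (ρ g) (ρ (φ q ^ a * τ q ^ b)) := by
      rwa [map_mul, map_pow, map_pow]
    have h3 : rbar g = rbar (φ q ^ a * τ q ^ b) := by
      rw [← hbar, ← hbar, map_res_cong h2]
    have h4 : rbar g⁻¹ = rbar (φ q ^ a * τ q ^ b)⁻¹ := by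
      have e1 := r_mul_inv rbar (φ q ^ a * τ q ^ b)
      rw [← h3] at e1
      calc rbar g⁻¹ = rbar g⁻¹ * (rbar g * rbar (φ q ^ a * τ q ^ b)⁻¹) := by rw [e1, mul_one]
        _ = _ := by rw [← mul_assoc, r_inv_mul, one_mul]
    apply Ad0.ext
    have h5 := congrArg Ad0.val h1
    rw [coc_val, cocVal, Ad0.val_sub, Ad0.val_gsmul, MonoidHom.one_apply, one_smul] at h5 ⊢
    rw [(hdA d).mat_cong h2, h4, h3, h5]
  -- determination
  have hdet' : ∀ d d' : 𝒟, H1.mk _ _ (coc (hdA d) hbar hdet hcont) =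
      H1.mk _ _ (coc (hdA d') hbar hdet hcont) → d.1.1 = d'.1.1 := by
    intro d d' h
    exact eq_of_mk_eq (hdA d) (hdA d') hbar hdet hcont hgen h
  have hall : ∀ d d' : 𝒟, d.1.1 = d'.1.1 → (∀ q, y d q = y d' q) → d = d' := by
    intro d d' h1 h2
    refine Subtype.ext (Prod.ext h1 (funext fun q => ?_))
    have h3 := congrArg Ad0.val (h2 q)
    rwa [hyval, hyval] at h3
  have hmemSel : ∀ d : 𝒟, H1.mk _ _ (coc (hdA d) hbar hdet hcont) ∈ Sel := fun d =>
    hSel _ (hdA d) (h𝒟Q _ d.2) fun q => ⟨y d q, hDq d q⟩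
  -- representatives
  let cl : 𝒟 → Sel := fun d => ⟨H1.mk _ _ (coc (hdA d) hbar hdet hcont), hmemSel d⟩
  let rep : Sel → Option 𝒟 := fun x => if h : ∃ d, cl d = x then some h.choose else none
  have hrep : ∀ d : 𝒟, ∃ d₀, rep (cl d) = some d₀ ∧ cl d₀ = cl d := by
    intro d
    have h : ∃ d', cl d' = cl d := ⟨d, rfl⟩
    exact ⟨h.choose, by simp only [rep]; rw [dif_pos h], h.choose_spec⟩
  choose d₀ hd₀ hd₀' using hrep
  have hd₀A : ∀ d : 𝒟, (d₀ d).1.1 = d.1.1 := fun d =>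
    hdet' _ _ (congrArg Subtype.val (hd₀' d))
  have hH0 : ∀ (d : 𝒟) (q : 𝒯), y d q - y (d₀ d) q ∈ H0 (D q) (Ad0 rbar (1 : GQ →* k)) := by
    intro d q g
    have h1 := hDq d q g g.2
    have h2 := hDq (d₀ d) q g g.2
    have h3 : (coc (hdA (d₀ d)) hbar hdet hcont).1 (g : GQ) =
        (coc (hdA d) hbar hdet hcont).1 (g : GQ) := by
      apply Ad0.ext
      rw [coc_val, coc_val, cocVal, cocVal, hd₀A d]
    rw [h3, h1] at h2
    rw [Ad0.smul_eq_of_mem, smul_sub]
    rw [sub_eq_sub_iff_add_eq_add] at h2 ⊢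
    rw [add_comm (y d q), ← h2]
  let F : 𝒟 → Sel × (∀ q, H0 (D q) (Ad0 rbar (1 : GQ →* k))) := fun d =>
    (cl d, fun q => ⟨y d q - y (d₀ d) q, hH0 d q⟩)
  have hF : Function.Injective F := by
    intro d d' h
    have h1 : cl d = cl d' := congrArg Prod.fst h
    have h2 : d₀ d = d₀ d' := by
      have e1 := hd₀ d
      rw [h1, hd₀ d'] at e1
      exact (Option.some_inj.mp e1).symm
    have h3 : ∀ q, y d q - y (d₀ d) q = y d' q - y (d₀ d') q := fun q =>
      congrArg Subtype.val (congrFun (congrArg Prod.snd h) q)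
    refine hall d d' (hdet' _ _ (congrArg Subtype.val h1)) fun q => ?_
    have := h3 q
    rw [h2] at this
    exact sub_left_injective this
  have hfinT : Finite (Sel × (∀ q, H0 (D q) (Ad0 rbar (1 : GQ →* k)))) := inferInstance
  haveI hfin : Finite 𝒟 := Finite.of_injective F hF
  refine ⟨hfin, ?_⟩
  rw [← Nat.card_prod]
  exact Nat.card_le_card_of_injective F hF


end Fermat.Agent.H25.GD

namespace Fermat.Agent.H25.GE

open Fermat.Agent.H25 Fermat.Agent.H25.PR Fermat.Agent.CC Fermat.Agent.TW IsLocalRing Matrix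
open Fermat.Agent.H05 Fermat.Agent.H25.TR Fermat.Agent.H25.TWM Fermat.Agent.TAlg Fermat.Agent.H25.GD

section Tan

variable {O k : Type} [CommRing O] [IsLocalRing O] [IsNoetherianRing O]
    [IsAdicComplete (maximalIdeal O) O] [Field k] [Finite k] {D : RD O k}
    {S : Finset Nat.Primes} {bad : Finset ℕ} {κ : Type} [Finite κ] [Nonempty κ]
    (H : κ → CData D S bad) (hbar : HBar D S) {p : ℕ} (hp : p.Prime)
    (hpO : (p : O) ∈ maximalIdeal O) {𝒯 : Type} [Finite 𝒯] {tv : 𝒯 → Nat.Primes}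

/-- the Selmer bound at one level, for derivations satisfying a condition, in one variable less -/
def SelBQ (r : ℕ) (tv : 𝒯 → Nat.Primes) (Q : (AR H hbar → k) → Prop) : Prop :=
  ∃ (Sel : AddSubgroup (H1 (levS S) (Ad0 D.rbar (1 : GQ →* k)))) (_ : Finite Sel),
    (∀ (d : AR H hbar → k) (hd : IsDer O (CA H hbar).resB d), Q d →
      (∀ q : 𝒯, ∃ a : Ad0 D.rbar (1 : GQ →* k),
        ∀ g ∈ (plv (tv q) (tv q).2).decompositionSubgroup ℚ,
        (coc hd (CA H hbar).rho_res (CA_det H hbar) (CA_cont2 H hbar)).1 g = g • a - a) →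
      H1.mk _ _ (coc hd (CA H hbar).rho_res (CA_det H hbar) (CA_cont2 H hbar)) ∈ Sel) ∧
    Nat.card Sel * Nat.card (∀ q : 𝒯,
      H0 ((plv (tv q) (tv q).2).decompositionSubgroup ℚ) (Ad0 D.rbar (1 : GQ →* k))) *
        Nat.card k ≤ Nat.card k ^ r

include hpO in
/-- **Subspaces of the tangent space satisfying a condition.** -/
theorem finrank_tan_sub {r : ℕ} (hT : FrD D p tv) {Q : (AR H hbar → k) → Prop}
    (hSel : SelBQ H hbar r tv Q) (N : Submodule k ((AR H hbar → k) × (𝒯 → M2 k)))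
    (hN : N ≤ TanSpace (algebraMap O (AR H hbar)) (CA H hbar).resB
      (fun q => (CA H hbar).rho (frv (tv q) (tv q).2))
      (fun q => (CA H hbar).rho (tmv p hp (tv q) (tv q).2)))
    (hNQ : ∀ z ∈ N, Q z.1) :
    Module.finrank k N + 1 ≤ r := by
  obtain ⟨Sel, hfin, h1, h2⟩ := hSel
  obtain ⟨h3, h4⟩ := card_sub_TanSpace_le (CA H hbar).resB (CA H hbar).rho D.rbar
    (CA H hbar).rho_res (CA_det H hbar) (CA_cont2 H hbar) (CA_gen H hbar)
    (fun q => (plv (tv q) (tv q).2).decompositionSubgroup ℚ)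
    (fun q => frv (tv q) (tv q).2) (fun q => tmv p hp (tv q) (tv q).2)
    (fun q => hT.unr q _ (tmv_spec p hp (tv q) (tv q).2).2.1)
    (fun q g hg => by
      rw [(CA H hbar).ker_resB]
      exact ((CA H hbar).local_at hp hpO (CA_contS H hbar) (tv q).2 (hT.ne q) (hT.unr q) 2).2.1
        g hg) Q N hN hNQ Sel h1
  haveI := h3
  haveI : Fintype k := Fintype.ofFinite k
  have h5 : Nat.card N = Nat.card k ^ Module.finrank k N := Module.natCard_eq_pow_finrank
  have h6 : Nat.card k ^ (Module.finrank k N + 1) ≤ Nat.card k ^ r := by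
    rw [pow_succ, ← h5]
    exact (Nat.mul_le_mul_right _ h4).trans h2
  exact (Nat.pow_le_pow_iff_right (Finite.one_lt_card)).mp h6

/-- the number of variables is positive -/
theorem one_le_of_SelBQ {r : ℕ} {Q : (AR H hbar → k) → Prop}
    (hSel : SelBQ H hbar r tv Q) : 1 ≤ r := by
  obtain ⟨Sel, hfin, h1, h2⟩ := hSel
  by_contra h
  have h3 : r = 0 := by omega
  subst h3
  rw [pow_zero] at h2
  have h4 : 1 < Nat.card k := Finite.one_lt_card
  haveI : Finite (∀ q : 𝒯,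
      H0 ((plv (tv q) (tv q).2).decompositionSubgroup ℚ) (Ad0 D.rbar (1 : GQ →* k))) :=
    inferInstance
  have h5 : 0 < Nat.card Sel := Nat.card_pos
  have h6 : 0 < Nat.card (∀ q : 𝒯,
      H0 ((plv (tv q) (tv q).2).decompositionSubgroup ℚ) (Ad0 D.rbar (1 : GQ →* k))) :=
    Nat.card_pos
  have h7 : 0 < Nat.card Sel * Nat.card (∀ q : 𝒯,
      H0 ((plv (tv q) (tv q).2).decompositionSubgroup ℚ) (Ad0 D.rbar (1 : GQ →* k))) :=
    Nat.mul_pos h5 h6
  nlinarith

end Tan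

end Fermat.Agent.H25.GE
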