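import Mathlib
import Fermat.Agent.H25.Asm8

set_option autoImplicit false
set_option linter.unusedSectionVars false
set_option linter.style.haveILetI false

/-!
# Characteristic zero points of a component: integrality tricks
-/

namespace Fermat.Agent.H25.GE

open Fermat.Agent.H25 Fermat.Agent.H25.PR Fermat.Agent.CC Fermat.Agent.TW IsLocalRing
open Fermat.Agent.H05 Fermat.Agent.H25.TR Fermat.Agent.H25.TWM

namespace CData

variable {O k : Type} [CommRing O] [IsDomain O] [IsLocalRing O] [Field k] {D : RD O k}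
    {S : Finset Nat.Primes} {bad : Finset ℕ} (H : CData D S bad)

/-- a multiple of `b` whose value at `x` is a nonzero constant. -/
theorem exists_const (x : H.X) (b : H.B) (hb : H.ev x b ≠ 0) :
    ∃ (o : O) (c : H.B), o ≠ 0 ∧ b ∣ c ∧ H.ev x c = algebraMap O (H.P x) o := by
  have hint : IsIntegral O (H.ev x b) := Algebra.IsIntegral.isIntegral _
  obtain ⟨q, hq0, hq⟩ := hint.isAlgebraic.exists_nonzero_coeff_and_aeval_eq_zero
    (mem_nonZeroDivisors_of_ne_zero hb)
  refine ⟨q.coeff 0, algebraMap O H.B (q.coeff 0) - Polynomial.aeval b q, hq0, ?_, ?_⟩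
  · have h1 : Polynomial.aeval b q = Polynomial.aeval b q.divX * b +
        algebraMap O H.B (q.coeff 0) := by
      conv_lhs => rw [← Polynomial.divX_mul_X_add q]
      rw [map_add, map_mul, Polynomial.aeval_X, Polynomial.aeval_C]
    rw [h1]
    exact ⟨-Polynomial.aeval b q.divX, by ring⟩
  · rw [map_sub, AlgHom.commutes, ← Polynomial.aeval_algHom_apply, hq, sub_zero]

/-- elements vanishing at all the points where an ideal is zero. -/
theorem exists_smul_mem (I : Ideal H.B) (a : H.B)
    (h : ∀ x, H.ev x a = 0 ∨ ∃ b ∈ I, H.ev x b ≠ 0) :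
    ∃ o : O, o ≠ 0 ∧ algebraMap O H.B o * a ∈ I := by
  classical
  haveI := Fintype.ofFinite H.X
  have h1 : ∀ x, ∃ (o : O) (c : H.B), o ≠ 0 ∧ c ∈ I ∧
      (H.ev x a = 0 ∨ H.ev x c = algebraMap O (H.P x) o) := by
    intro x
    rcases h x with h | ⟨b, hb, hb'⟩
    · exact ⟨1, 0, one_ne_zero, zero_mem _, Or.inl h⟩
    · obtain ⟨o, c, ho, hc, hc'⟩ := H.exists_const x b hb'
      exact ⟨o, c, ho, Ideal.mem_of_dvd I hc hb, Or.inr hc'⟩
  choose o c ho hc hoc using h1
  refine ⟨∏ x, o x, Finset.prod_ne_zero_iff.mpr fun x _ => ho x, ?_⟩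
  have h2 : (∏ x, (algebraMap O H.B (o x) - c x)) * a = 0 := by
    refine H.ext_ev fun x => ?_
    rw [map_mul, map_prod, map_zero]
    rcases hoc x with h | h
    · rw [h, mul_zero]
    · rw [Finset.prod_eq_zero (Finset.mem_univ x), zero_mul]
      rw [map_sub, AlgHom.commutes, h, sub_self]
  have h3 : algebraMap O H.B (∏ x, o x) - ∏ x, (algebraMap O H.B (o x) - c x) ∈ I := by
    rw [← Ideal.Quotient.eq, map_prod, map_prod, map_prod]
    refine Finset.prod_congr rfl fun x _ => ?_
    rw [map_sub, Ideal.Quotient.eq_zero_iff_mem.mpr (hc x), sub_zero]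
  have h4 := Ideal.mul_mem_right a I h3
  rw [sub_mul, h2, sub_zero] at h4
  exact h4

/-- a point of a component through which a given `O`-valued point factors. -/
theorem exists_point [IsNoetherianRing O] {A : Type} [CommRing A] [Algebra O A]
    (f : A →ₐ[O] H.B) (x : A →ₐ[O] O)
    (h : RingHom.ker (f : A →+* H.B) ≤ RingHom.ker (x : A →+* O)) :
    ∃ y : H.X, ∀ a, H.ev y (f a) = algebraMap O (H.P y) (x a) := by
  letI : Algebra A H.B := (f : A →+* H.B).toAlgebra
  haveI : IsScalarTower O A H.B := IsScalarTower.of_algebraMap_eq fun o => (f.commutes o).symm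
  haveI : Algebra.IsIntegral O H.B := inferInstance
  haveI : Algebra.IsIntegral A H.B := Algebra.IsIntegral.tower_top (R := O)
  haveI : (RingHom.ker (x : A →+* O)).IsPrime := RingHom.ker_isPrime _
  obtain ⟨Q, -, hQ, hQ'⟩ := Ideal.exists_ideal_over_prime_of_isIntegral (R := A) (S := H.B)
    (RingHom.ker (x : A →+* O)) ⊥ h
  have h0 : Q.comap (algebraMap O H.B) = ⊥ := by
    rw [IsScalarTower.algebraMap_eq O A H.B, ← Ideal.comap_comap, hQ', eq_bot_iff]
    intro o ho
    rw [Ideal.mem_comap, RingHom.mem_ker] at ho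
    change x (algebraMap O A o) = 0 at ho
    rw [AlgHom.commutes] at ho
    exact ho
  obtain ⟨y, hy⟩ := H.exists_eq_ker Q h0
  refine ⟨y, fun a => ?_⟩
  have h1 : a - algebraMap O A (x a) ∈ RingHom.ker (x : A →+* O) := by
    rw [RingHom.mem_ker]
    change x (a - algebraMap O A (x a)) = 0
    rw [map_sub, AlgHom.commutes]
    exact sub_self _
  rw [← hQ', Ideal.mem_comap, hy, RingHom.mem_ker] at h1
  change H.ev y (f (a - algebraMap O A (x a))) = 0 at h1
  rw [map_sub, map_sub, AlgHom.commutes, AlgHom.commutes, sub_eq_zero] at h1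
  exact h1

end CData

end Fermat.Agent.H25.GE
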