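import Mathlib
import Fermat.Agent.TFin.RaiseD
import Fermat.Agent.TFin.Pts

set_option autoImplicit false
set_option linter.unusedSectionVars false
set_option linter.style.haveILetI false

/-!
# From level raising data to maps of patching data
-/

namespace Fermat.Agent.H25.GE

open Fermat.Agent.H25 Fermat.Agent.H25.PR Fermat.Agent.CC Fermat.Agent.TW IsLocalRing Matrix
open Fermat.Agent.H05 Fermat.Agent.H25.TR Fermat.Agent.H25.TWM Fermat.Agent.TAlg Fermat.Agent.H25.GD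

namespace Sys

variable {O k : Type} [CommRing O] [IsDomain O] [CharZero O] [IsLocalRing O]
    [IsNoetherianRing O] [IsAdicComplete (maximalIdeal O) O] [Finite (ResidueField O)]
    [Field k] [Finite k] {D : RD O k}
    {p : ℕ} [Fact p.Prime] (hpO : (p : O) ∈ maximalIdeal O)
    {r : ℕ} {κ : Type} [Finite κ] [Nonempty κ] {Y : Sys D p r κ}
    {i i' : κ} {d d' : ℕ}
    {Mo : ∀ n, MData (Y.H n i) p (Y.qv n) (Y.e n) d}
    {Mo' : ∀ n, MData (Y.H n i') p (Y.qv n) (Y.e n) d'}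

section Eqv

variable {n : ℕ} (f : (Mo n).M →ₗ[O] (Mo' n).M)

/-- the pairs acting compatibly -/
def eqv : Subalgebra O ((Y.H n i).B × (Y.H n i').B) where
  carrier := {b | ∀ m, f (b.1 • m) = b.2 • f m}
  mul_mem' := by
    intro b c hb hc m
    rw [Prod.fst_mul, Prod.snd_mul, mul_smul, mul_smul, hb, hc]
  add_mem' := by
    intro b c hb hc m
    rw [Prod.fst_add, Prod.snd_add, add_smul, add_smul, map_add, hb, hc]
  algebraMap_mem' := by
    intro a m
    have h1 : (algebraMap O ((Y.H n i).B × (Y.H n i').B) a).1 • m = a • m := by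
      change algebraMap O (Y.H n i).B a • m = _
      rw [algebraMap_smul]
    have h2 : (algebraMap O ((Y.H n i).B × (Y.H n i').B) a).2 • f m = a • f m := by
      change algebraMap O (Y.H n i').B a • f m = _
      rw [algebraMap_smul]
    rw [h1, h2, map_smul]

theorem pr_mem_eqv (bad : Finset ℕ) (hT : ∀ ℓ : ℕ, ℓ.Prime → ℓ ∉ bad → ∀ x,
    f ((Y.H n i).T ℓ • x) = (Y.H n i').T ℓ • f x) (a : Y.A n) (m : (Mo n).M) :
    f (pr (Y.H n) (Y.hbar n) i a • m) = pr (Y.H n) (Y.hbar n) i' a • f m := by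
  have key : (pr (Y.H n) (Y.hbar n) i a, pr (Y.H n) (Y.hbar n) i' a) ∈ eqv f := by
    have hx : a ∈ (⊤ : Subalgebra O (AR (Y.H n) (Y.hbar n))) := trivial
    rw [← Comp.adjoin_t] at hx
    induction hx using Algebra.adjoin_induction with
    | mem x hx =>
      obtain ⟨g, rfl⟩ := hx
      refine mem_of_frob ((Y.H n i).C (Y.hbar n)) ((Y.H n i').C (Y.hbar n))
        ((Y.H n i).C_contS (Y.hbar n)) ((Y.H n i').C_contS (Y.hbar n)) (eqv f)
        (bad ∪ Y.bad n) (fun ℓ hℓ hb A hA φ hφ => ?_) g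
      rw [Finset.notMem_union] at hb
      rw [(Y.H n i).C_frob (Y.hbar n) ℓ hℓ hb.2 A hA φ hφ,
        (Y.H n i').C_frob (Y.hbar n) ℓ hℓ hb.2 A hA φ hφ]
      exact hT ℓ hℓ hb.1
    | algebraMap c =>
      rw [AlgHom.commutes, AlgHom.commutes]
      exact Subalgebra.algebraMap_mem (eqv f) c
    | add x y _ _ hx' hy' => rw [map_add, map_add]; exact add_mem hx' hy'
    | mul x y _ _ hx' hy' => rw [map_mul, map_mul]; exact mul_mem hx' hy'
  exact key m

/-- the linear map of patching data -/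
noncomputable def lin (h : ∀ (a : Y.A n) (m : (Mo n).M),
    f (pr (Y.H n) (Y.hbar n) i a • m) = pr (Y.H n) (Y.hbar n) i' a • f m) :
    (Y.UD hpO i Mo).M n →ₗ[MvPowerSeries (Fin r) O] (Y.UD hpO i' Mo').M n where
  toFun := fun m : (Mo n).M => f m
  map_add' := fun x y : (Mo n).M => map_add f x y
  map_smul' := fun s (m : (Mo n).M) => h (Y.thA hpO n s) m

theorem lin_apply (h : ∀ (a : Y.A n) (m : (Mo n).M),
    f (pr (Y.H n) (Y.hbar n) i a • m) = pr (Y.H n) (Y.hbar n) i' a • f m) (m : (Mo n).M) :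
    lin hpO f h m = f m := rfl

theorem lin_rho (h : ∀ (a : Y.A n) (m : (Mo n).M),
    f (pr (Y.H n) (Y.hbar n) i a • m) = pr (Y.H n) (Y.hbar n) i' a • f m) (a : Y.A n)
    (x : (Y.UD hpO i Mo).M n) :
    lin hpO f h ((Y.UD hpO i Mo).ρ n a x) = (Y.UD hpO i' Mo').ρ n a (lin hpO f h x) :=
  h a x

end Eqv

section Bot

variable {Z : Y.BData i Mo} {Z' : Y.BData i' Mo'} (I : Z.N →+ Z'.N)

theorem bot_smul (f : ∀ n, (Mo n).M →ₗ[O] (Mo' n).M)
    (h : ∀ (n : ℕ) (a : Y.A n) (m : (Mo n).M),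
      f n (pr (Y.H n) (Y.hbar n) i a • m) = pr (Y.H n) (Y.hbar n) i' a • f n m)
    (hI : ∀ n x, Z'.f n (f n x) = I (Z.f n x)) (a : Y.A₀) (u : Z.N) :
    I (pr Y.H₀ Y.hbar₀ i a • u) = pr Y.H₀ Y.hbar₀ i' a • I u := by
  obtain ⟨a, rfl⟩ := Y.π_surjective 0 a
  obtain ⟨m, rfl⟩ := Z.f_surj 0 u
  rw [pr_π, pr_π, ← Z.f_smul, ← hI, h, Z'.f_smul, hI]

/-- the linear map on the bottom level -/
noncomputable def lin₀ (h : ∀ (a : Y.A₀) (u : Z.N),
    I (pr Y.H₀ Y.hbar₀ i a • u) = pr Y.H₀ Y.hbar₀ i' a • I u) :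
    (Y.UB hpO Z).N →ₗ[MvPowerSeries (Fin r) O] (Y.UB hpO Z').N where
  toFun := fun m : Z.N => I m
  map_add' := fun x y : Z.N => map_add I x y
  map_smul' := fun s (m : Z.N) => by
    have h1 := h (algebraMap O Y.A₀ (MvPowerSeries.constantCoeff s)) m
    rw [AlgHom.commutes, AlgHom.commutes] at h1
    exact h1

theorem lin₀_rho (h : ∀ (a : Y.A₀) (u : Z.N),
    I (pr Y.H₀ Y.hbar₀ i a • u) = pr Y.H₀ Y.hbar₀ i' a • I u) (a : Y.A₀)
    (u : (Y.UB hpO Z).N) :
    lin₀ hpO I h ((Y.UB hpO Z).ρ₀ a u) = (Y.UB hpO Z').ρ₀ a (lin₀ hpO I h u) := h a u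

end Bot

section Max

variable (Z : Y.BData i Mo) {ϖ : O}

include hpO in
/-- the maximal ideal of the power series ring acting, seen on the bottom level -/
theorem mem_max_iff (hϖ : maximalIdeal O = Ideal.span {ϖ}) (n : ℕ) (m : (Mo n).M) :
    letI := Y.modS hpO i Mo n
    m ∈ maximalIdeal (MvPowerSeries (Fin r) O) •
      (⊤ : Submodule (MvPowerSeries (Fin r) O) (Mo n).M) ↔
      ∃ w : Z.N, Z.f n m = algebraMap O (Y.H₀ i).B ϖ • w := by
  letI := Y.modS hpO i Mo n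
  have hϖm : ϖ ∈ maximalIdeal O := by rw [hϖ]; exact Ideal.mem_span_singleton_self ϖ
  have haug : aug O r ≤ maximalIdeal (MvPowerSeries (Fin r) O) := by
    rw [aug, Ideal.span_le]
    rintro _ ⟨j, rfl⟩
    change (MvPowerSeries.X j : MvPowerSeries (Fin r) O) ∈ maximalIdeal _
    rw [PS.mem_maximalIdeal_iff, MvPowerSeries.constantCoeff_X]
    exact zero_mem _
  constructor
  · intro hm
    refine Submodule.smul_induction_on hm ?_ ?_
    · intro s hs x _
      rw [PS.mem_maximalIdeal_iff, hϖ, Ideal.mem_span_singleton'] at hs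
      obtain ⟨c, hc⟩ := hs
      refine ⟨algebraMap O (Y.H₀ i).B c • Z.f n x, ?_⟩
      change Z.f n (Y.thB hpO i n s • x) = _
      rw [Y.f_thB hpO Z, ← hc, smul_smul, ← map_mul, mul_comm]
    · rintro x y ⟨w, hw⟩ ⟨w', hw'⟩
      exact ⟨w + w', by rw [map_add, hw, hw', smul_add]⟩
  · rintro ⟨w, hw⟩
    obtain ⟨m', rfl⟩ := Z.f_surj n w
    have h1 : Z.f n (m - algebraMap O (Y.H n i).B ϖ • m') = 0 := by
      rw [map_sub, Z.f_smul, AlgHom.commutes, hw, sub_self]
    rw [Y.ker_iff hpO Z] at h1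
    have h2 : m = (m - algebraMap O (Y.H n i).B ϖ • m') + algebraMap O (Y.H n i).B ϖ • m' := by
      abel
    rw [h2]
    refine add_mem (Submodule.smul_mono_left haug h1) ?_
    have h3 : algebraMap O (Y.H n i).B ϖ • m' =
        (MvPowerSeries.C ϖ : MvPowerSeries (Fin r) O) • m' := by
      change _ = Y.thB hpO i n (MvPowerSeries.C ϖ) • m'
      have h2 : (MvPowerSeries.C ϖ : MvPowerSeries (Fin r) O) =
        algebraMap O (MvPowerSeries (Fin r) O) ϖ := rfl
      rw [h2, AlgHom.commutes]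
    rw [h3]
    refine Submodule.smul_mem_smul ?_ trivial
    rw [PS.mem_maximalIdeal_iff, MvPowerSeries.constantCoeff_C]
    exact hϖm

end Max

end Sys

end Fermat.Agent.H25.GE
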