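import Mathlib
import Fermat.Agent.TFin.RaiseU
import Fermat.Agent.TAlg.ML0

set_option autoImplicit false
set_option linter.unusedSectionVars false
set_option linter.style.haveILetI false

/-!
# Consequences of level raising data
-/

namespace Fermat.Agent.H25.GE

open Fermat.Agent.H25 Fermat.Agent.H25.PR Fermat.Agent.CC Fermat.Agent.TW IsLocalRing Matrix
open Fermat.Agent.H05 Fermat.Agent.H25.TR Fermat.Agent.H25.TWM Fermat.Agent.TAlg Fermat.Agent.H25.GD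

/-- in a local domain with principal maximal ideal, non zero elements are units times powers of
the generator. -/
theorem exists_eq_pow_mul {O : Type} [CommRing O] [IsDomain O] [IsLocalRing O]
    [IsNoetherianRing O] {ϖ : O} (hϖ : maximalIdeal O = Ideal.span {ϖ}) {o : O} (ho : o ≠ 0) :
    ∃ (k : ℕ) (u : Oˣ), o = ϖ ^ k * u := by
  by_contra hcon
  push Not at hcon
  have h : ∀ k : ℕ, o ∈ maximalIdeal O ^ k := by
    intro k
    induction k with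
    | zero => rw [pow_zero, Ideal.one_eq_top]; trivial
    | succ k ih =>
      rw [hϖ, Ideal.span_singleton_pow, Ideal.mem_span_singleton'] at ih
      obtain ⟨c, hc⟩ := ih
      by_cases hu : IsUnit c
      · obtain ⟨u, rfl⟩ := hu
        exact absurd (by rw [← hc, mul_comm]) (hcon k u)
      · have h1 : c ∈ maximalIdeal O := (mem_maximalIdeal c).mpr hu
        rw [hϖ, Ideal.mem_span_singleton'] at h1
        obtain ⟨c', hc'⟩ := h1
        rw [hϖ, Ideal.span_singleton_pow, Ideal.mem_span_singleton']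
        exact ⟨c', by rw [← hc, ← hc', pow_succ]; ring⟩
  have h1 : o ∈ (⨅ k : ℕ, maximalIdeal O ^ k) := by
    rw [Ideal.mem_iInf]; exact h
  rw [Ideal.iInf_pow_eq_bot_of_isLocalRing _ (maximalIdeal.isMaximal O).ne_top] at h1
  exact ho h1

namespace Sys

variable {O k : Type} [CommRing O] [IsDomain O] [CharZero O] [IsLocalRing O]
    [IsNoetherianRing O] [IsAdicComplete (maximalIdeal O) O] [Finite (ResidueField O)]
    [Field k] [Finite k] {D : RD O k}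
    {p : ℕ} [Fact p.Prime] (hpO : (p : O) ∈ maximalIdeal O)
    {r : ℕ} {κ : Type} [Finite κ] [Nonempty κ] {Y : Sys D p r κ}
    {i i' : κ} {d d' : ℕ}
    {Mo : ∀ n, MData (Y.H n i) p (Y.qv n) (Y.e n) d}
    {Mo' : ∀ n, MData (Y.H n i') p (Y.qv n) (Y.e n) d'}
    {Z : Y.BData i Mo} {Z' : Y.BData i' Mo'} {q : Nat.Primes} {ϖ : O}
    (R : RaiseD Y Z Z' q ϖ)

namespace RaiseD

theorem i₁_pr (n : ℕ) (a : Y.A n) (m : (Mo n).M) :
    R.i₁ n (pr (Y.H n) (Y.hbar n) i a • m) = pr (Y.H n) (Y.hbar n) i' a • R.i₁ n m :=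
  pr_mem_eqv (R.i₁ n) (R.bad n) (fun ℓ hℓ hb x => R.i₁_T n ℓ hℓ hb x) a m

theorem i₂_pr (n : ℕ) (a : Y.A n) (m : (Mo n).M) :
    R.i₂ n (pr (Y.H n) (Y.hbar n) i a • m) = pr (Y.H n) (Y.hbar n) i' a • R.i₂ n m :=
  pr_mem_eqv (R.i₂ n) (R.bad n) (fun ℓ hℓ hb x => R.i₂_T n ℓ hℓ hb x) a m

theorem j₁_pr (n : ℕ) (a : Y.A n) (m : (Mo' n).M) :
    R.j₁ n (pr (Y.H n) (Y.hbar n) i' a • m) = pr (Y.H n) (Y.hbar n) i a • R.j₁ n m :=
  pr_mem_eqv (R.j₁ n) (R.bad n) (fun ℓ hℓ hb x => R.j₁_T n ℓ hℓ hb x) a m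

theorem j₂_pr (n : ℕ) (a : Y.A n) (m : (Mo' n).M) :
    R.j₂ n (pr (Y.H n) (Y.hbar n) i' a • m) = pr (Y.H n) (Y.hbar n) i a • R.j₂ n m :=
  pr_mem_eqv (R.j₂ n) (R.bad n) (fun ℓ hℓ hb x => R.j₂_T n ℓ hℓ hb x) a m

theorem I₁_pr (a : Y.A₀) (u : Z.N) :
    R.I₁ (pr Y.H₀ Y.hbar₀ i a • u) = pr Y.H₀ Y.hbar₀ i' a • R.I₁ u :=
  bot_smul R.I₁ R.i₁ R.i₁_pr R.f_i₁ a u

theorem I₂_pr (a : Y.A₀) (u : Z.N) :
    R.I₂ (pr Y.H₀ Y.hbar₀ i a • u) = pr Y.H₀ Y.hbar₀ i' a • R.I₂ u :=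
  bot_smul R.I₂ R.i₂ R.i₂_pr R.f_i₂ a u

theorem I₁_alg (o : O) (u : Z.N) :
    R.I₁ (algebraMap O (Y.H₀ i).B o • u) = algebraMap O (Y.H₀ i').B o • R.I₁ u := by
  have h1 := R.I₁_pr (algebraMap O Y.A₀ o) u
  rwa [AlgHom.commutes, AlgHom.commutes] at h1

theorem I₂_alg (o : O) (u : Z.N) :
    R.I₂ (algebraMap O (Y.H₀ i).B o • u) = algebraMap O (Y.H₀ i').B o • R.I₂ u := by
  have h1 := R.I₂_pr (algebraMap O Y.A₀ o) u
  rwa [AlgHom.commutes, AlgHom.commutes] at h1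

theorem f_i (n : ℕ) (a b : (Mo n).M) :
    Z'.f n (R.i₁ n a + R.i₂ n b) = R.I₁ (Z.f n a) + R.I₂ (Z.f n b) := by
  rw [map_add, R.f_i₁, R.f_i₂]

theorem f_sub_j₁ (n : ℕ) (a : (Mo n).M) (x : (Mo' n).M) {c : Z.N}
    (h : Z.f n a = R.J₁ (Z'.f n x) + c) : Z.f n (a - R.j₁ n x) = c := by
  rw [map_sub, R.f_j₁, h, add_sub_cancel_left]

theorem f_sub_j₂ (n : ℕ) (a : (Mo n).M) (x : (Mo' n).M) {c : Z.N}
    (h : Z.f n a = R.J₂ (Z'.f n x) + c) : Z.f n (a - R.j₂ n x) = c := by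
  rw [map_sub, R.f_j₂, h, add_sub_cancel_left]

include hpO in
theorem hi (hϖ : maximalIdeal O = Ideal.span {ϖ}) (n : ℕ) (a b : (Y.UD hpO i Mo).M n)
    (hab : lin hpO (R.i₁ n) (R.i₁_pr n) a + lin hpO (R.i₂ n) (R.i₂_pr n) b ∈
      maximalIdeal (MvPowerSeries (Fin r) O) •
        (⊤ : Submodule (MvPowerSeries (Fin r) O) ((Y.UD hpO i' Mo').M n))) :
    a ∈ maximalIdeal (MvPowerSeries (Fin r) O) •
        (⊤ : Submodule (MvPowerSeries (Fin r) O) ((Y.UD hpO i Mo).M n)) ∧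
    b ∈ maximalIdeal (MvPowerSeries (Fin r) O) •
        (⊤ : Submodule (MvPowerSeries (Fin r) O) ((Y.UD hpO i Mo).M n)) := by
  obtain ⟨w, hw⟩ := (mem_max_iff hpO Z' hϖ n _).mp hab
  obtain ⟨⟨a', ha'⟩, b', hb'⟩ := R.ihara _ _ _ ((R.f_i n a b).symm.trans hw)
  exact ⟨(mem_max_iff hpO Z hϖ n _).mpr ⟨a', ha'⟩, (mem_max_iff hpO Z hϖ n _).mpr ⟨b', hb'⟩⟩

/-- elements of a product of modules -/
theorem _root_.Fermat.Agent.H25.GE.mem_smul_prod {S M : Type} [CommRing S] [AddCommGroup M]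
    [Module S M] (I : Ideal S) {a b : M} (ha : a ∈ I • (⊤ : Submodule S M))
    (hb : b ∈ I • (⊤ : Submodule S M)) : (a, b) ∈ I • (⊤ : Submodule S (M × M)) := by
  have h1 : (a, (0 : M)) ∈ I • (⊤ : Submodule S (M × M)) :=
    map_mem_smul_top (LinearMap.inl S M M) I ha
  have h2 : ((0 : M), b) ∈ I • (⊤ : Submodule S (M × M)) :=
    map_mem_smul_top (LinearMap.inr S M M) I hb
  have h3 := add_mem h1 h2
  rwa [Prod.mk_add_mk, add_zero, zero_add] at h3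

include hpO in
theorem hj (hϖ : maximalIdeal O = Ideal.span {ϖ}) (n : ℕ) (a b : (Y.UD hpO i Mo).M n) :
    ∃ x : (Y.UD hpO i' Mo').M n, lin hpO (R.j₁ n) (R.j₁_pr n) x = a ∧
      lin hpO (R.j₂ n) (R.j₂_pr n) x = b := by
  let S := MvPowerSeries (Fin r) O
  let U := Y.UD hpO i Mo
  let J : (Y.UD hpO i' Mo').M n →ₗ[S] (U.M n × U.M n) :=
    (lin hpO (R.j₁ n) (R.j₁_pr n)).prod (lin hpO (R.j₂ n) (R.j₂_pr n))
  haveI : Module.Finite S (U.M n) := Module.Finite.of_surjective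
    (U.e n).symm.toLinearMap (U.e n).symm.surjective
  have hfg : (⊤ : Submodule S (U.M n × U.M n)).FG := Module.Finite.fg_top
  have hle : (⊤ : Submodule S (U.M n × U.M n)) ≤ LinearMap.range J ⊔
      maximalIdeal S • (⊤ : Submodule S (U.M n × U.M n)) := by
    rintro ⟨a, b⟩ -
    obtain ⟨x, u, v, hx, hx'⟩ := R.dual (Z.f n a) (Z.f n b)
    obtain ⟨x, rfl⟩ := Z'.f_surj n x
    have h1 : (J x) ∈ LinearMap.range J := LinearMap.mem_range_self J x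
    have h2 : (a, b) - J x ∈ maximalIdeal S • (⊤ : Submodule S (U.M n × U.M n)) := by
      refine mem_smul_prod _ ?_ ?_
      · exact (mem_max_iff hpO Z hϖ n _).mpr ⟨u, R.f_sub_j₁ n a x hx⟩
      · exact (mem_max_iff hpO Z hϖ n _).mpr ⟨v, R.f_sub_j₂ n b x hx'⟩
    have h3 := Submodule.add_mem_sup h1 h2
    rwa [add_sub_cancel] at h3
  have htop : (⊤ : Submodule S (U.M n × U.M n)) ≤ LinearMap.range J :=
    Submodule.le_of_le_smul_of_le_jacobson_bot hfg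
      (IsLocalRing.maximalIdeal_le_jacobson _) hle
  obtain ⟨x, hx⟩ := htop (Submodule.mem_top (x := (a, b)))
  exact ⟨x, congrArg Prod.fst hx, congrArg Prod.snd hx⟩

/-- the cokernel at the bottom level is torsion free -/
theorem mem_of_smul_mem (hϖ : maximalIdeal O = Ideal.span {ϖ}) {o : O} (ho : o ≠ 0) (w : Z'.N)
    (h : ∃ u v : Z.N, algebraMap O (Y.H₀ i').B o • w = R.I₁ u + R.I₂ v) :
    ∃ u v : Z.N, w = R.I₁ u + R.I₂ v := by
  obtain ⟨k, e, rfl⟩ := exists_eq_pow_mul hϖ ho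
  have key : ∀ (k : ℕ) (w : Z'.N), (∃ u v : Z.N,
      algebraMap O (Y.H₀ i').B (ϖ ^ k) • w = R.I₁ u + R.I₂ v) →
      ∃ u v : Z.N, w = R.I₁ u + R.I₂ v := by
    intro k
    induction k with
    | zero =>
      intro w h
      rwa [pow_zero, map_one, one_smul] at h
    | succ k ih =>
      rintro w ⟨u, v, huv⟩
      refine ih w ?_
      rw [pow_succ', map_mul, mul_smul] at huv
      obtain ⟨⟨u', hu'⟩, v', hv'⟩ := R.ihara u v _ huv.symm
      refine ⟨u', v', ?_⟩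
      rw [hu', hv', R.I₁_alg, R.I₂_alg, ← smul_add] at huv
      have h1 := R.tf (algebraMap O (Y.H₀ i').B (ϖ ^ k) • w - (R.I₁ u' + R.I₂ v'))
        (by rw [smul_sub, huv, sub_self])
      exact sub_eq_zero.mp h1
  refine key k w ?_
  obtain ⟨u, v, huv⟩ := h
  refine ⟨algebraMap O (Y.H₀ i).B (e⁻¹ : Oˣ) • u, algebraMap O (Y.H₀ i).B (e⁻¹ : Oˣ) • v, ?_⟩
  rw [R.I₁_alg, R.I₂_alg, ← smul_add, ← huv, smul_smul, ← map_mul]
  congr 2
  rw [mul_comm, mul_assoc, Units.mul_inv, mul_one]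

end RaiseD

end Sys

end Fermat.Agent.H25.GE
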