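import Mathlib
import Fermat.Agent.TFin.RaiseU2

set_option autoImplicit false
set_option linter.unusedSectionVars false
set_option linter.style.haveILetI false

/-!
# Newness and the Hecke bound on the bottom level
-/

namespace Fermat.Agent.TAlg

/-- Steinberg relations at unramified points -/
lemma Jst_le_of_Junr {R : Type} [CommRing R] {q ε : R} (Φ S : M2 R) {P : Ideal R}
    (h : Junr S ≤ P) (htr : Φ.trace - ε * (q + 1) ∈ P) : Jst ε q Φ S ≤ P := by
  refine sup_le (sup_le (sup_le ?_ ?_) ?_) ?_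
  · exact (ent_mul_left _ _).trans h
  · exact (ent_mul_right _ _).trans h
  · exact (le_sup_right.trans (J1_le_Junr q Φ S)).trans h
  · rw [Ideal.span_le, Set.singleton_subset_iff]
    exact htr

end Fermat.Agent.TAlg

namespace Fermat.Agent.H25.GE

open Fermat.Agent.H25 Fermat.Agent.H25.PR Fermat.Agent.CC Fermat.Agent.TW IsLocalRing Matrix
open Fermat.Agent.H05 Fermat.Agent.H25.TR Fermat.Agent.H25.TWM Fermat.Agent.TAlg Fermat.Agent.H25.GD

section Pt

variable {O k : Type} [CommRing O] [IsDomain O] [CharZero O] [IsLocalRing O] [IsNoetherianRing O]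
    [IsAdicComplete (maximalIdeal O) O] [Field k] [Finite k] {D : RD O k}
    {S : Finset Nat.Primes} {bad : Finset ℕ} {κ : Type} [Finite κ] [Nonempty κ]
    (H : κ → CData D S bad) (hbar : HBar D S) {p : ℕ} (hp : p.Prime)
    (hpO : (p : O) ∈ maximalIdeal O) {𝒯 : Type} {tv : 𝒯 → Nat.Primes} (hT : FrD D p tv)

include hpO hT in
/-- the local type of a point with unipotent inertia -/
theorem pt_type (i : κ) (x : (H i).X) (t : 𝒯) (h2 : (H i).t x (tmv p hp (tv t) (tv t).2) = 2) :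
    Junr ((CA H hbar).rho (tmv p hp (tv t) (tv t).2)) ≤ RingHom.ker (pt H hbar i x) ∨
    Jst 1 (algebraMap O (AR H hbar) ((tv t : ℕ) : O))
      ((CA H hbar).rho (frv (tv t) (tv t).2)) ((CA H hbar).rho (tmv p hp (tv t) (tv t).2)) ≤
      RingHom.ker (pt H hbar i x) ∨
    Jst (-1) (algebraMap O (AR H hbar) ((tv t : ℕ) : O))
      ((CA H hbar).rho (frv (tv t) (tv t).2)) ((CA H hbar).rho (tmv p hp (tv t) (tv t).2)) ≤
      RingHom.ker (pt H hbar i x) := by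
  haveI : (RingHom.ker (pt H hbar i x)).IsPrime := RingHom.ker_isPrime _
  refine dichotomy _ ?_ _ _ ?_ ?_ ?_
  · intro h
    rw [RingHom.mem_ker] at h
    change pt H hbar i x _ = 0 at h
    rw [AlgHom.commutes] at h
    have h1 := (FaithfulSMul.algebraMap_injective O ((H i).P x)) (h.trans (map_zero _).symm)
    exact (tv t).2.ne_zero (by exact_mod_cast h1)
  · refine J1_le (CA H hbar) hp hpO hT (CA_contS _ _) t
      (pt H hbar i x : AR H hbar →+* (H i).P x) ?_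
    change pt H hbar i x _ = 2
    rw [pt_t, h2]
  · rw [Comp.det_rho, hT.chi t _ (tmv_spec p hp (tv t) (tv t).2).2.1, map_one]
  · rw [Comp.det_rho, hT.chiF]

include hpO hT in
/-- the product of the two Steinberg ideals vanishes at points with `tr Φ = ±(q+1)`. -/
theorem pt_Jst_mul (i : κ) (x : (H i).X) (t : 𝒯)
    (h2 : (H i).t x (tmv p hp (tv t) (tv t).2) = 2)
    (hF : (H i).t x (frv (tv t) (tv t).2) ^ 2 = (((tv t : ℕ) : (H i).P x) + 1) ^ 2) :
    Jst 1 (algebraMap O (AR H hbar) ((tv t : ℕ) : O))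
      ((CA H hbar).rho (frv (tv t) (tv t).2)) ((CA H hbar).rho (tmv p hp (tv t) (tv t).2)) *
    Jst (-1) (algebraMap O (AR H hbar) ((tv t : ℕ) : O))
      ((CA H hbar).rho (frv (tv t) (tv t).2)) ((CA H hbar).rho (tmv p hp (tv t) (tv t).2)) ≤
      RingHom.ker (pt H hbar i x) := by
  have htr : pt H hbar i x ((CA H hbar).rho (frv (tv t) (tv t).2)).trace =
      (H i).t x (frv (tv t) (tv t).2) := by
    rw [Comp.trace_rho, pt_t]
  have hq : pt H hbar i x (algebraMap O (AR H hbar) ((tv t : ℕ) : O)) =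
      ((tv t : ℕ) : (H i).P x) := by
    rw [AlgHom.commutes, map_natCast]
  rcases pt_type H hbar hp hpO hT i x t h2 with h | h | h
  · have h3 : ((H i).t x (frv (tv t) (tv t).2) - (((tv t : ℕ) : (H i).P x) + 1)) *
        ((H i).t x (frv (tv t) (tv t).2) + (((tv t : ℕ) : (H i).P x) + 1)) = 0 := by
      linear_combination hF
    rcases mul_eq_zero.mp h3 with h4 | h4
    · refine (Ideal.mul_le_left).trans (Jst_le_of_Junr _ _ h ?_)
      rw [RingHom.mem_ker]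
      change pt H hbar i x _ = 0
      rw [map_sub, map_mul, map_add, htr, hq, map_one, one_mul, h4]
    · refine (Ideal.mul_le_right).trans (Jst_le_of_Junr _ _ h ?_)
      rw [RingHom.mem_ker]
      change pt H hbar i x _ = 0
      rw [map_sub, map_mul, map_add, htr, hq, map_neg, map_one]
      linear_combination h4
  · exact Ideal.mul_le_left.trans h
  · exact Ideal.mul_le_right.trans h

end Pt

namespace Sys

variable {O k : Type} [CommRing O] [IsDomain O] [CharZero O] [IsLocalRing O]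
    [IsNoetherianRing O] [IsAdicComplete (maximalIdeal O) O] [Finite (ResidueField O)]
    [Field k] [Finite k] {D : RD O k}
    {p : ℕ} [Fact p.Prime] (hpO : (p : O) ∈ maximalIdeal O)
    {r : ℕ} {κ : Type} [Finite κ] [Nonempty κ] {Y : Sys D p r κ}
    {i i' : κ} {d d' : ℕ}
    {Mo : ∀ n, MData (Y.H n i) p (Y.qv n) (Y.e n) d}
    {Mo' : ∀ n, MData (Y.H n i') p (Y.qv n) (Y.e n) d'}
    {Z : Y.BData i Mo} {Z' : Y.BData i' Mo'} {ϖ : O} {𝒯 : Type} {tv : 𝒯 → Nat.Primes}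
    (hT : FrD D p tv) {t : 𝒯} (R : RaiseD Y Z Z' (tv t) ϖ)

/-- the ideal of operators mapping the bottom module of level `N q` to the image of level `N`. -/
def RaiseD.KI {q : Nat.Primes} (R : RaiseD Y Z Z' q ϖ) : Ideal Y.A₀ where
  carrier := {a | ∀ m : Z'.N, ∃ u v : Z.N, pr Y.H₀ Y.hbar₀ i' a • m = R.I₁ u + R.I₂ v}
  zero_mem' m := ⟨0, 0, by rw [map_zero, map_zero, map_zero, add_zero, zero_smul]⟩
  add_mem' {a b} ha hb m := by
    obtain ⟨u, v, h⟩ := ha m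
    obtain ⟨u', v', h'⟩ := hb m
    exact ⟨u + u', v + v', by
      rw [map_add, add_smul, h, h', map_add, map_add]; abel⟩
  smul_mem' c a ha m := by
    obtain ⟨u, v, h⟩ := ha m
    exact ⟨pr Y.H₀ Y.hbar₀ i c • u, pr Y.H₀ Y.hbar₀ i c • v, by
      rw [smul_eq_mul, map_mul, mul_smul, h, smul_add, R.I₁_pr, R.I₂_pr]⟩

include hpO hT in
/-- newness on the bottom level. -/
theorem RaiseD.hnew (hϖ : maximalIdeal O = Ideal.span {ϖ})
    (h2 : ∀ y, (Y.H₀ i').t y (tmv p (Fact.out : p.Prime) (tv t) (tv t).2) = 2)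
    (hnew : ∀ y, (Y.H₀ i').t y (frv (tv t) (tv t).2) ^ 2 =
        (((tv t : ℕ) : (Y.H₀ i').P y) + 1) ^ 2 ∨
      ∃ b : Y.A₀, (Y.H₀ i').ev y (pr Y.H₀ Y.hbar₀ i' b) ≠ 0 ∧
        ∀ m : Z'.N, ∃ u v : Z.N, pr Y.H₀ Y.hbar₀ i' b • m = R.I₁ u + R.I₂ v)
    (n : ℕ) (a : Y.A n) (ha : a ∈ Jst 1 (algebraMap O (Y.A n) ((tv t : ℕ) : O))
      ((CA (Y.H n) (Y.hbar n)).rho (frv (tv t) (tv t).2))
      ((CA (Y.H n) (Y.hbar n)).rho (tmv p (Fact.out : p.Prime) (tv t) (tv t).2)) *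
    Jst (-1) (algebraMap O (Y.A n) ((tv t : ℕ) : O))
      ((CA (Y.H n) (Y.hbar n)).rho (frv (tv t) (tv t).2))
      ((CA (Y.H n) (Y.hbar n)).rho (tmv p (Fact.out : p.Prime) (tv t) (tv t).2)))
    (m : Z'.N) : ∃ u v : Z.N, pr Y.H₀ Y.hbar₀ i' (Y.π n a) • m = R.I₁ u + R.I₂ v := by
  classical
  have hp : p.Prime := Fact.out
  -- the image in the bottom ring
  have ha₀ : Y.π n a ∈ Jst 1 (algebraMap O Y.A₀ ((tv t : ℕ) : O))
      ((CA Y.H₀ Y.hbar₀).rho (frv (tv t) (tv t).2))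
      ((CA Y.H₀ Y.hbar₀).rho (tmv p hp (tv t) (tv t).2)) *
    Jst (-1) (algebraMap O Y.A₀ ((tv t : ℕ) : O))
      ((CA Y.H₀ Y.hbar₀).rho (frv (tv t) (tv t).2))
      ((CA Y.H₀ Y.hbar₀).rho (tmv p hp (tv t) (tv t).2)) := by
    have h3 := Ideal.mem_map_of_mem (Y.π n : Y.A n →+* Y.A₀) ha
    rw [Ideal.map_mul, map_Jst, map_Jst, map_neg, map_one] at h3
    have e1 : ((CA (Y.H n) (Y.hbar n)).rho (frv (tv t) (tv t).2)).map
        (Y.π n : Y.A n →+* Y.A₀) = _ := Y.π_rho n _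
    have e2 : ((CA (Y.H n) (Y.hbar n)).rho (tmv p hp (tv t) (tv t).2)).map
        (Y.π n : Y.A n →+* Y.A₀) = _ := Y.π_rho n _
    have e3 : (Y.π n : Y.A n →+* Y.A₀) (algebraMap O (Y.A n) ((tv t : ℕ) : O)) =
        algebraMap O Y.A₀ ((tv t : ℕ) : O) := (Y.π n).commutes _
    rw [e1, e2, e3] at h3
    exact h3
  -- the ideal in the component
  let I : Ideal (Y.H₀ i').B := R.KI.map (pr Y.H₀ Y.hbar₀ i' : Y.A₀ →+* (Y.H₀ i').B)
  obtain ⟨o, ho, hoI⟩ := (Y.H₀ i').exists_smul_mem I (pr Y.H₀ Y.hbar₀ i' (Y.π n a)) (by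
    intro y
    rcases hnew y with h | ⟨b, hb, hb'⟩
    · left
      have h3 := pt_Jst_mul Y.H₀ Y.hbar₀ hp hpO hT i' y t (h2 y) h ha₀
      exact h3
    · exact Or.inr ⟨_, Ideal.mem_map_of_mem (pr Y.H₀ Y.hbar₀ i' : Y.A₀ →+* (Y.H₀ i').B)
        (show b ∈ R.KI from hb'), hb⟩)
  refine R.mem_of_smul_mem hϖ ho _ ?_
  rw [← mul_smul]
  -- elements of `I` map into the image
  have key : ∀ c ∈ I, ∀ m : Z'.N, ∃ u v : Z.N, c • m = R.I₁ u + R.I₂ v := by
    intro c hc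
    refine Submodule.span_induction (p := fun c _ => ∀ m : Z'.N, ∃ u v : Z.N,
      c • m = R.I₁ u + R.I₂ v) ?_ ?_ ?_ ?_ hc
    · rintro _ ⟨b, hb, rfl⟩ m
      exact hb m
    · intro m
      exact ⟨0, 0, by rw [map_zero, map_zero, add_zero, zero_smul]⟩
    · intro x y _ _ hx hy m
      obtain ⟨u, v, h⟩ := hx m
      obtain ⟨u', v', h'⟩ := hy m
      exact ⟨u + u', v + v', by rw [add_smul, h, h', map_add, map_add]; abel⟩
    · intro c x _ hx m
      obtain ⟨u, v, h⟩ := hx (c • m)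
      exact ⟨u, v, by rw [smul_eq_mul, mul_comm, mul_smul, h]⟩
  exact key _ hoI m

/-- the Hecke bound on the bottom level. -/
theorem hbd (t : 𝒯) (i : κ)
    (hne : ∀ y, (Y.H₀ i).t y (frv (tv t) (tv t).2) ^ 2 ≠ (((tv t : ℕ) : (Y.H₀ i).P y) + 1) ^ 2)
    {Mo : ∀ n, MData (Y.H n i) p (Y.qv n) (Y.e n) d} (Z : Y.BData i Mo) :
    ∃ o : O, o ≠ 0 ∧ ∀ m : Z.N, ∃ z : Z.N, pr Y.H₀ Y.hbar₀ i (algebraMap O Y.A₀ o) • m =
      pr Y.H₀ Y.hbar₀ i (((CA Y.H₀ Y.hbar₀).rho (frv (tv t) (tv t).2)).trace *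
        ((CA Y.H₀ Y.hbar₀).rho (frv (tv t) (tv t).2)).trace -
        algebraMap O Y.A₀ (((tv t : ℕ) : O) + 1) *
          algebraMap O Y.A₀ (((tv t : ℕ) : O) + 1)) • z := by
  set δ : Y.A₀ := ((CA Y.H₀ Y.hbar₀).rho (frv (tv t) (tv t).2)).trace *
        ((CA Y.H₀ Y.hbar₀).rho (frv (tv t) (tv t).2)).trace -
        algebraMap O Y.A₀ (((tv t : ℕ) : O) + 1) *
          algebraMap O Y.A₀ (((tv t : ℕ) : O) + 1) with hδ
  obtain ⟨o, ho, h⟩ := (Y.H₀ i).exists_smul_mem (Ideal.span {pr Y.H₀ Y.hbar₀ i δ}) 1 (by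
    intro y
    right
    refine ⟨_, Ideal.mem_span_singleton_self _, ?_⟩
    rw [hδ, map_sub, map_sub, map_mul, map_mul, map_mul, map_mul, Comp.trace_rho, pr_t,
      CData.ev_C, AlgHom.commutes, AlgHom.commutes, map_add, map_natCast, map_one, sub_ne_zero]
    intro h
    apply hne y
    rw [pow_two, pow_two, h])
  refine ⟨o, ho, fun m => ?_⟩
  rw [mul_one, Ideal.mem_span_singleton'] at h
  obtain ⟨c, hc⟩ := h
  refine ⟨c • m, ?_⟩
  rw [AlgHom.commutes, ← hc, ← mul_smul, mul_comm]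

end Sys

end Fermat.Agent.H25.GE
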