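import Mathlib
import Fermat.Agent.TFin.RaiseU3

set_option autoImplicit false
set_option linter.unusedSectionVars false
set_option linter.style.haveILetI false

/-!
# Modularity lifting for systems of components
-/

namespace Fermat.Agent.H25.GE

open Fermat.Agent.H25 Fermat.Agent.H25.PR Fermat.Agent.CC Fermat.Agent.TW IsLocalRing Matrix
open Fermat.Agent.H05 Fermat.Agent.H25.TR Fermat.Agent.H25.TWM Fermat.Agent.TAlg Fermat.Agent.H25.GD

section Pt

variable {O k : Type} [CommRing O] [IsDomain O] [CharZero O] [IsLocalRing O] [IsNoetherianRing O]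
    [IsAdicComplete (maximalIdeal O) O] [Field k] [Finite k] {D : RD O k}
    {S : Finset Nat.Primes} {B : Type} [CommRing B] [Algebra O B] [Module.Finite O B]
    (C : Comp D B) {p : ℕ} (hp : p.Prime)
    (hpO : (p : O) ∈ maximalIdeal O) {𝒯 : Type} {tv : 𝒯 → Nat.Primes} (hT : FrD D p tv)

include hpO hT in
/-- the Steinberg relations hold at a point with unipotent inertia and the right trace of
Frobenius. -/
theorem C_Jst (hC : C.ContS S (lamI O B)) {P' : Type} [CommRing P'] [IsDomain P'] [Algebra O P']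
    (hinj : Function.Injective (algebraMap O P')) (f : B →ₐ[O] P') (t : 𝒯)
    (h2 : f (C.t (tmv p hp (tv t) (tv t).2)) = 2) {ε : O} (hε : ε ^ 2 = 1)
    (hF : f (C.t (frv (tv t) (tv t).2)) = algebraMap O P' (ε * (((tv t : ℕ) : O) + 1))) :
    Jst (algebraMap O B ε) (algebraMap O B ((tv t : ℕ) : O))
      (C.rho (frv (tv t) (tv t).2)) (C.rho (tmv p hp (tv t) (tv t).2)) ≤
      RingHom.ker (f : B →+* P') := by
  haveI : (RingHom.ker (f : B →+* P')).IsPrime := RingHom.ker_isPrime _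
  have hε' : ε = 1 ∨ ε = -1 := by
    have h3 : (ε - 1) * (ε + 1) = 0 := by linear_combination hε
    rcases mul_eq_zero.mp h3 with h | h
    · exact Or.inl (sub_eq_zero.mp h)
    · exact Or.inr (eq_neg_of_add_eq_zero_left h)
  have htr : f (C.rho (frv (tv t) (tv t).2)).trace =
      algebraMap O P' (ε * (((tv t : ℕ) : O) + 1)) := by rw [Comp.trace_rho, hF]
  have hq2 : (((tv t : ℕ) : O) + 1) ≠ 0 := fun h =>
    Nat.succ_ne_zero (tv t : ℕ) (by exact_mod_cast h)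
  have hval : ∀ e : O, f ((C.rho (frv (tv t) (tv t).2)).trace -
      algebraMap O B e * (algebraMap O B ((tv t : ℕ) : O) + 1)) =
      algebraMap O P' ((ε - e) * (((tv t : ℕ) : O) + 1)) := by
    intro e
    have e1 : algebraMap O B e * (algebraMap O B ((tv t : ℕ) : O) + 1) =
        algebraMap O B (e * (((tv t : ℕ) : O) + 1)) := by
      simp only [map_mul, map_add, map_one]
    rw [map_sub, htr, e1, AlgHom.commutes, ← map_sub]
    congr 1
    ring
  -- the sign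
  have hsign : ∀ e : O, Jst (algebraMap O B e) (algebraMap O B ((tv t : ℕ) : O))
      (C.rho (frv (tv t) (tv t).2)) (C.rho (tmv p hp (tv t) (tv t).2)) ≤
      RingHom.ker (f : B →+* P') → e = ε := by
    intro e he
    have h3 : f _ = 0 := he (trace_mem_Jst _ _)
    rw [hval] at h3
    have h4 := hinj (h3.trans (map_zero _).symm)
    rcases mul_eq_zero.mp h4 with h6 | h6
    · exact (sub_eq_zero.mp h6).symm
    · exact absurd h6 hq2
  have key := dichotomy (RingHom.ker (f : B →+* P'))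
    (q := algebraMap O B ((tv t : ℕ) : O)) ?_ (C.rho (frv (tv t) (tv t).2))
    (C.rho (tmv p hp (tv t) (tv t).2)) ?_ ?_ ?_
  · rcases key with h | h | h
    · refine Jst_le_of_Junr _ _ h ?_
      rw [RingHom.mem_ker]
      change f _ = 0
      rw [hval, sub_self, zero_mul, map_zero]
    · have h3 := hsign 1 (by rw [map_one]; exact h)
      rw [← h3, map_one]
      exact h
    · have h3 := hsign (-1) (by rw [map_neg, map_one]; exact h)
      rw [← h3, map_neg, map_one]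
      exact h
  · intro h
    rw [RingHom.mem_ker] at h
    change f _ = 0 at h
    rw [AlgHom.commutes] at h
    have h1 := hinj (h.trans (map_zero _).symm)
    exact (tv t).2.ne_zero (by exact_mod_cast h1)
  · exact J1_le C hp hpO hT hC t (f : B →+* P') h2
  · rw [Comp.det_rho, hT.chi t _ (tmv_spec p hp (tv t) (tv t).2).2.1, map_one]
  · rw [Comp.det_rho, hT.chiF]

end Pt

namespace Sys

variable {O k : Type} [CommRing O] [IsDomain O] [CharZero O] [IsLocalRing O]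
    [IsNoetherianRing O] [IsAdicComplete (maximalIdeal O) O] [Finite (ResidueField O)]
    [Field k] [Finite k] {D : RD O k}
    {p : ℕ} [Fact p.Prime] (hpO : (p : O) ∈ maximalIdeal O)
    {r : ℕ} {κ : Type} [Finite κ] [Nonempty κ] {Y : Sys D p r κ} {ϖ : O}

instance isPrime_aug : (aug O r).IsPrime := by
  have h : aug O r = RingHom.ker (MvPowerSeries.constantCoeff (σ := Fin r) (R := O)) := by
    ext f
    exact mem_XI_iff f
  rw [h]
  exact RingHom.ker_isPrime _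

theorem C_mem_aug {o : O} (h : (MvPowerSeries.C o : MvPowerSeries (Fin r) O) ∈ aug O r) :
    o = 0 := by
  have h1 := (mem_XI_iff (σ := Fin r) (A := O) _).mp h
  rwa [MvPowerSeries.constantCoeff_C] at h1

theorem RaiseD.D11 {i i' : κ} {d d' : ℕ}
    {Mo : ∀ n, MData (Y.H n i) p (Y.qv n) (Y.e n) d}
    {Mo' : ∀ n, MData (Y.H n i') p (Y.qv n) (Y.e n) d'}
    {Z : Y.BData i Mo} {Z' : Y.BData i' Mo'} {q : Nat.Primes}
    (R : RaiseD Y Z Z' q ϖ) (n : ℕ) (x : (Mo n).M) : R.j₁ n (R.i₁ n x) =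
      pr (Y.H n) (Y.hbar n) i (algebraMap O (Y.A n) (((q : ℕ) : O) + 1)) • x := by
  rw [R.comp11, AlgHom.commutes, algebraMap_smul]

theorem RaiseD.D22 {i i' : κ} {d d' : ℕ}
    {Mo : ∀ n, MData (Y.H n i) p (Y.qv n) (Y.e n) d}
    {Mo' : ∀ n, MData (Y.H n i') p (Y.qv n) (Y.e n) d'}
    {Z : Y.BData i Mo} {Z' : Y.BData i' Mo'} {q : Nat.Primes}
    (R : RaiseD Y Z Z' q ϖ) (n : ℕ) (x : (Mo n).M) : R.j₂ n (R.i₂ n x) =
      pr (Y.H n) (Y.hbar n) i (algebraMap O (Y.A n) (((q : ℕ) : O) + 1)) • x := by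
  rw [R.comp22, AlgHom.commutes, algebraMap_smul]

theorem RaiseD.D12 {i i' : κ} {d d' : ℕ}
    {Mo : ∀ n, MData (Y.H n i) p (Y.qv n) (Y.e n) d}
    {Mo' : ∀ n, MData (Y.H n i') p (Y.qv n) (Y.e n) d'}
    {Z : Y.BData i Mo} {Z' : Y.BData i' Mo'} {q : Nat.Primes}
    (R : RaiseD Y Z Z' q ϖ) (n : ℕ) {g : GQ}
    (h : ∀ x, R.Tq n x = ((Y.H n i).C (Y.hbar n)).t g • x) (x : (Mo n).M) :
    R.j₁ n (R.i₂ n x) = pr (Y.H n) (Y.hbar n) i ((CA (Y.H n) (Y.hbar n)).rho g).trace • x := by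
  rw [R.comp12, h, Comp.trace_rho, pr_t]

theorem RaiseD.D21 {i i' : κ} {d d' : ℕ}
    {Mo : ∀ n, MData (Y.H n i) p (Y.qv n) (Y.e n) d}
    {Mo' : ∀ n, MData (Y.H n i') p (Y.qv n) (Y.e n) d'}
    {Z : Y.BData i Mo} {Z' : Y.BData i' Mo'} {q : Nat.Primes}
    (R : RaiseD Y Z Z' q ϖ) (n : ℕ) {g : GQ}
    (h : ∀ x, R.Tq n x = ((Y.H n i).C (Y.hbar n)).t g • x) (x : (Mo n).M) :
    R.j₂ n (R.i₁ n x) = pr (Y.H n) (Y.hbar n) i ((CA (Y.H n) (Y.hbar n)).rho g).trace • x := by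
  rw [R.comp21, h, Comp.trace_rho, pr_t]

theorem π_trace (n : ℕ) (g : GQ) : Y.π n ((CA (Y.H n) (Y.hbar n)).rho g).trace =
    ((CA Y.H₀ Y.hbar₀).rho g).trace := by
  rw [← Y.π_rho n g]
  exact (AddMonoidHom.map_trace (Y.π n : Y.A n →+ Y.A₀) ((CA (Y.H n) (Y.hbar n)).rho g))

theorem finite_residueField_A₀ : Finite (ResidueField Y.A₀) := by
  have h1 : maximalIdeal Y.A₀ ≤ RingHom.ker (CA Y.H₀ Y.hbar₀).resB := fun a ha =>
    (CA Y.H₀ Y.hbar₀).mem_maximalIdeal a |>.mp ha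
  let f : ResidueField Y.A₀ →+* k := Ideal.Quotient.lift (maximalIdeal Y.A₀)
    (CA Y.H₀ Y.hbar₀).resB fun a ha => h1 ha
  exact Finite.of_injective f f.injective

set_option maxHeartbeats 2000000 in
include hpO in
/-- **MODULARITY LIFTING** for systems of components.  The components `cp j`, `j₀ ≤ j ≤ m`, have
level `N q_0 ... q_{j-1}`; the first `j₀` primes are already of Steinberg type at the component
`cp j₀`. -/
theorem modularityLifting {m : ℕ} {tv : Fin m → Nat.Primes}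
    (hϖ : maximalIdeal O = Ideal.span {ϖ}) (hT : FrD D p tv)
    (ε : Fin m → O) (hε : ∀ t, ε t ^ 2 = 1)
    (htr : ∀ t, (D.rbar (frv (tv t) (tv t).2)).trace = D.res (ε t * (((tv t : ℕ) : O) + 1)))
    (he : ∀ n j, n ≤ Y.e n j) (hSel : ∀ n, SelB (Y.H n) (Y.hbar n) r tv)
    (cp : Fin (m + 1) → κ) (d : Fin (m + 1) → ℕ)
    (Mo : ∀ (j : Fin (m + 1)) (n : ℕ), MData (Y.H n (cp j)) p (Y.qv n) (Y.e n) (d j))
    (Z : ∀ j, Y.BData (cp j) (Mo j)) (j₀ : Fin (m + 1))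
    (R : ∀ t : Fin m, j₀ ≤ t.castSucc → RaiseD Y (Z t.castSucc) (Z t.succ) (tv t) ϖ)
    (hunr : ∀ (n : ℕ) (j : Fin (m + 1)) (t : Fin m), j₀ ≤ j → j ≤ t.castSucc →
      ∀ x g, (Y.H n (cp j)).t x (tmv p (Fact.out : p.Prime) (tv t) (tv t).2 * g) =
        (Y.H n (cp j)).t x g)
    (h1 : ∀ (n : ℕ) (j : Fin (m + 1)) (t : Fin m), j₀ ≤ j → t.castSucc < j →
      ∀ x, (Y.H n (cp j)).t x (tmv p (Fact.out : p.Prime) (tv t) (tv t).2) = 2)
    (hst : ∀ (n : ℕ) (t : Fin m), t.castSucc < j₀ → ∀ x,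
      (Y.H n (cp j₀)).t x (frv (tv t) (tv t).2) = algebraMap O _ (ε t * (((tv t : ℕ) : O) + 1)))
    (hTq : ∀ (t : Fin m) (h : j₀ ≤ t.castSucc) (n : ℕ) x, (R t h).Tq n x =
      ((Y.H n (cp t.castSucc)).C (Y.hbar n)).t (frv (tv t) (tv t).2) • x)
    (h1' : ∀ (t : Fin m), j₀ ≤ t.castSucc → ∀ y,
      (Y.H₀ (cp t.succ)).t y (tmv p (Fact.out : p.Prime) (tv t) (tv t).2) = 2)
    (hnew : ∀ (t : Fin m) (h : j₀ ≤ t.castSucc) (y : (Y.H₀ (cp t.succ)).X),
      (Y.H₀ (cp t.succ)).t y (frv (tv t) (tv t).2) ^ 2 =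
        (((tv t : ℕ) : (Y.H₀ (cp t.succ)).P y) + 1) ^ 2 ∨
      ∃ b : Y.A₀, (Y.H₀ (cp t.succ)).ev y (pr Y.H₀ Y.hbar₀ (cp t.succ) b) ≠ 0 ∧
        ∀ x : (Z t.succ).N, ∃ u v : (Z t.castSucc).N,
          pr Y.H₀ Y.hbar₀ (cp t.succ) b • x = (R t h).I₁ u + (R t h).I₂ v)
    (hbd : ∀ (t : Fin m), j₀ ≤ t.castSucc → ∀ y,
      (Y.H₀ (cp t.castSucc)).t y (frv (tv t) (tv t).2) ^ 2 ≠
        (((tv t : ℕ) : (Y.H₀ (cp t.castSucc)).P y) + 1) ^ 2)
    (hd : d j₀ ≠ 0) (w : κ) (xw : (Y.H₀ w).B →ₐ[O] O) (tW : GQ → O)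
    (hW : ∀ g, xw (((Y.H₀ w).C Y.hbar₀).t g) = tW g)
    (hW1 : ∀ t, tW (tmv p (Fact.out : p.Prime) (tv t) (tv t).2) = 2)
    (hW2 : ∀ t, tW (frv (tv t) (tv t).2) = ε t * (((tv t : ℕ) : O) + 1)) :
    ∃ y : (Y.H₀ (cp (Fin.last m))).X, ∀ g,
      (Y.H₀ (cp (Fin.last m))).t y g = algebraMap O _ (tW g) := by
  classical
  have hp : p.Prime := Fact.out
  let S := MvPowerSeries (Fin r) O
  have hq1' : ∀ t, IsUnit ((tv t : ℕ) : O) := by
    intro t
    by_contra hcon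
    have h3 : ((tv t : ℕ) : O) ∈ maximalIdeal O := (mem_maximalIdeal _).mpr hcon
    have hcop : Nat.Coprime p (tv t : ℕ) :=
      (Nat.coprime_primes hp (tv t).2).mpr (hT.ne t)
    have h4 : ((p : ℤ) * Nat.gcdA p (tv t) + ((tv t : ℕ) : ℤ) * Nat.gcdB p (tv t)) = 1 := by
      rw [← Nat.gcd_eq_gcd_ab, hcop]; rfl
    have h5 : ((p : O) * (Nat.gcdA p (tv t) : ℤ) + ((tv t : ℕ) : O) *
        (Nat.gcdB p (tv t) : ℤ)) = 1 := by exact_mod_cast congrArg (Int.cast : ℤ → O) h4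
    have h6 : (1 : O) ∈ maximalIdeal O := by
      rw [← h5]
      exact Ideal.add_mem _ (Ideal.mul_mem_right _ _ hpO) (Ideal.mul_mem_right _ _ h3)
    exact (Ideal.ne_top_iff_one _).mp (maximalIdeal.isMaximal O).ne_top h6
  -- lifts of Frobenius
  have hlift : ∀ t, ∃ M : Mt O, M.map D.res = D.rbar (frv (tv t) (tv t).2) := by
    intro t
    choose f hf using fun (ij : Fin 2 × Fin 2) => D.surj (D.rbar (frv (tv t) (tv t).2) ij.1 ij.2)
    refine ⟨Matrix.of fun i j => f (i, j), ?_⟩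
    ext i j
    exact hf (i, j)
  choose Φ₀ hΦ₀ using hlift
  let F : Ultrafilter ℕ := Filter.hyperfilter ℕ
  have hF : (F : Filter ℕ) ≤ Filter.atTop := Nat.hyperfilter_le_atTop
  haveI : ∀ n, IsLocalHom (algebraMap O (Y.A n)) := fun n => (CA (Y.H n) (Y.hbar n)).isLocalHom
  have hmem : ∀ (n : ℕ) (b : Y.A n), (CA (Y.H n) (Y.hbar n)).resB b = 0 ↔
      b ∈ maximalIdeal (Y.A n) := fun n b => ((CA (Y.H n) (Y.hbar n)).mem_maximalIdeal b).symm
  haveI : Finite (ResidueField Y.A₀) := finite_residueField_A₀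
  let U : Fin (m + 1) → UData S (fun n => JJ O hpO (Y.e n)) Y.A
    (fun n => (Y.thA hpO n : S →+* Y.A n)) := fun j => Y.UD hpO (cp j) (Mo j)
  let B : ∀ j, UBase (U j) (aug O r) Y.A₀ := fun j => Y.UB hpO (Z j)
  let i₁ : ∀ (t : Fin m) n, (U t.castSucc).M n →ₗ[S] (U t.succ).M n := fun t n =>
    if h : j₀ ≤ t.castSucc then lin hpO ((R t h).i₁ n) ((R t h).i₁_pr n) else 0
  let i₂ : ∀ (t : Fin m) n, (U t.castSucc).M n →ₗ[S] (U t.succ).M n := fun t n =>
    if h : j₀ ≤ t.castSucc then lin hpO ((R t h).i₂ n) ((R t h).i₂_pr n) else 0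
  let j₁ : ∀ (t : Fin m) n, (U t.succ).M n →ₗ[S] (U t.castSucc).M n := fun t n =>
    if h : j₀ ≤ t.castSucc then lin hpO ((R t h).j₁ n) ((R t h).j₁_pr n) else 0
  let j₂ : ∀ (t : Fin m) n, (U t.succ).M n →ₗ[S] (U t.castSucc).M n := fun t n =>
    if h : j₀ ≤ t.castSucc then lin hpO ((R t h).j₂ n) ((R t h).j₂_pr n) else 0
  let I₁ : ∀ t : Fin m, (B t.castSucc).N →ₗ[S] (B t.succ).N := fun t =>
    if h : j₀ ≤ t.castSucc then lin₀ hpO (R t h).I₁ (R t h).I₁_pr else 0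
  let I₂ : ∀ t : Fin m, (B t.castSucc).N →ₗ[S] (B t.succ).N := fun t =>
    if h : j₀ ≤ t.castSucc then lin₀ hpO (R t h).I₂ (R t h).I₂_pr else 0
  have ei₁ : ∀ (t : Fin m) (h : j₀ ≤ t.castSucc) n,
      i₁ t n = lin hpO ((R t h).i₁ n) ((R t h).i₁_pr n) := fun t h n => dif_pos h
  have ei₂ : ∀ (t : Fin m) (h : j₀ ≤ t.castSucc) n,
      i₂ t n = lin hpO ((R t h).i₂ n) ((R t h).i₂_pr n) := fun t h n => dif_pos h
  have ej₁ : ∀ (t : Fin m) (h : j₀ ≤ t.castSucc) n,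
      j₁ t n = lin hpO ((R t h).j₁ n) ((R t h).j₁_pr n) := fun t h n => dif_pos h
  have ej₂ : ∀ (t : Fin m) (h : j₀ ≤ t.castSucc) n,
      j₂ t n = lin hpO ((R t h).j₂ n) ((R t h).j₂_pr n) := fun t h n => dif_pos h
  have eI₁ : ∀ (t : Fin m) (h : j₀ ≤ t.castSucc),
      I₁ t = lin₀ hpO (R t h).I₁ (R t h).I₁_pr := fun t h => dif_pos h
  have eI₂ : ∀ (t : Fin m) (h : j₀ ≤ t.castSucc),
      I₂ t = lin₀ hpO (R t h).I₂ (R t h).I₂_pr := fun t h => dif_pos h
  let x : Y.A₀ →ₐ[O] O := xw.comp (pr Y.H₀ Y.hbar₀ w)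
  have hx : ∀ g, x ((CA Y.H₀ Y.hbar₀).t g) = tW g := fun g => by
    change xw (pr Y.H₀ Y.hbar₀ w _) = _
    rw [pr_t, hW]
  -- killing at a component from points
  have hkill : ∀ (n : ℕ) (j : Fin (m + 1)) (I : Ideal (Y.A n)),
      (∀ y, I ≤ RingHom.ker (pt (Y.H n) (Y.hbar n) (cp j) y)) →
      ∀ a ∈ I, (U j).ρ n a = 0 := by
    intro n j I h a ha
    refine UD_ρ_eq_zero hpO (Mo j) n ?_
    refine (Y.H n (cp j)).ext_ev fun y => ?_
    rw [map_zero]
    exact h y ha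
  have key := Fermat.Agent.TAlg.modularityLifting₀ (O := toCLR O)
    (IsUnit.of_mul_eq_one_right _ D.h2) (m := m)
    (fun t => ((tv t : ℕ) : O)) hq1'
    (fun t h => (tv t).2.one_lt.ne' (by exact_mod_cast h))
    (fun t h => Nat.succ_ne_zero (tv t : ℕ) (by exact_mod_cast h)) Φ₀
    (fun t => by
      rw [← rdres_mem (D := D), map_sub, RingHom.map_det]
      have : D.res.mapMatrix (Φ₀ t) = D.rbar (frv (tv t) (tv t).2) := hΦ₀ t
      rw [this, D.det_rbar, hT.chiF, sub_self])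
    ε hε
    (fun t => by
      rw [← rdres_mem (D := D), map_sub]
      have : D.res (Φ₀ t).trace = (D.rbar (frv (tv t) (tv t).2)).trace := by
        rw [← hΦ₀ t]
        exact AddMonoidHom.map_trace D.res.toAddMonoidHom (Φ₀ t)
      rw [this, htr, sub_self])
    r (F := F) (small_JJ O hpO hF he) (A := fun n => Y.A n)
    (fun n => algebraMap O (Y.A n))
    (fun n b => by
      obtain ⟨o, ho⟩ := D.surj ((CA (Y.H n) (Y.hbar n)).resB b)
      refine ⟨o, ?_⟩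
      rw [← hmem, map_sub, Comp.res_comp, ho, sub_self])
    (fun n => (CA (Y.H n) (Y.hbar n)).resB) (fun n => (CA (Y.H n) (Y.hbar n)).surj)
    (θA := fun n => (Y.thA hpO n : S →+* Y.A n))
    (fun n o => (Y.thA hpO n).commutes o)
    (fun n i => by
      change Y.thA hpO n _ ∈ _
      rw [Y.thA_X]
      exact Y.x_sub_one_mem hpO n i)
    (fun n t => (CA (Y.H n) (Y.hbar n)).rho (frv (tv t) (tv t).2))
    (fun n t => (CA (Y.H n) (Y.hbar n)).rho (tmv p hp (tv t) (tv t).2))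
    (fun n t => by rw [Comp.det_rho, hT.chiF])
    (fun n t => by
      rw [Comp.det_rho, hT.chi t _ (tmv_spec p hp (tv t) (tv t).2).2.1, map_one])
    (fun n t i j => by
      rw [← hmem, map_sub, Comp.res_comp, sub_eq_zero]
      have e1 := congrFun (congrFun ((CA (Y.H n) (Y.hbar n)).rho_res (frv (tv t) (tv t).2)) i) j
      have e2 := congrFun (congrFun (hΦ₀ t) i) j
      exact e1.trans e2.symm)
    (fun n t i j => by
      rw [← hmem, map_sub, sub_eq_zero]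
      have e1 := congrFun (congrFun ((CA (Y.H n) (Y.hbar n)).rho_res
        (tmv p hp (tv t) (tv t).2)) i) j
      rw [hT.unr t _ (tmv_spec p hp (tv t) (tv t).2).2.1] at e1
      refine e1.trans ?_
      rw [Matrix.one_apply, Matrix.one_apply]
      split_ifs <;> simp)
    (fun n => finrank_tan (Y.H n) (Y.hbar n) hp hpO hT (hSel n))
    U j₀
    (fun n j t hj ht a ha => by
      refine hkill n j (Junr ((CA (Y.H n) (Y.hbar n)).rho (tmv p hp (tv t) (tv t).2)))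
        (fun y => ?_) a ha
      have h3 := (pt_rho_iff (Y.H n) (Y.hbar n) (cp j) y (tmv p hp (tv t) (tv t).2)).mpr
        (hunr n j t hj ht y)
      rw [Junr, ent_le_iff]
      intro a b
      rw [RingHom.mem_ker]
      have h4 := congrFun (congrFun h3 a) b
      rw [Matrix.map_apply] at h4
      rw [Matrix.sub_apply, map_sub, h4, Matrix.one_apply, Matrix.one_apply]
      split_ifs <;> simp)
    (fun n j t hj ht a ha => by
      refine hkill n j _ (fun y => ?_) a ha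
      refine J1_le (CA (Y.H n) (Y.hbar n)) hp hpO hT (CA_contS _ _) t
        (pt (Y.H n) (Y.hbar n) (cp j) y : Y.A n →+* (Y.H n (cp j)).P y) ?_
      change pt (Y.H n) (Y.hbar n) (cp j) y _ = 2
      rw [pt_t, h1 n j t hj ht])
    (fun n t ht a ha => by
      refine hkill n j₀ _ (fun y => ?_) a ha
      refine C_Jst (CA (Y.H n) (Y.hbar n)) hp hpO hT (CA_contS _ _)
        (FaithfulSMul.algebraMap_injective O ((Y.H n (cp j₀)).P y))
        (pt (Y.H n) (Y.hbar n) (cp j₀) y) t ?_ (hε t) ?_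
      · rw [pt_t, h1 n j₀ t le_rfl ht]
      · rw [pt_t, hst n t ht])
    i₁ i₂ j₁ j₂
    (fun t h n a b hab => by
      rw [ei₁ t h, ei₂ t h] at hab
      exact (R t h).hi hpO hϖ n a b hab)
    (fun t h n a b => by
      rw [ej₁ t h, ej₂ t h]
      exact (R t h).hj hpO hϖ n a b)
    (fun t h n a x => by
      rw [ei₁ t h]
      exact lin_rho hpO _ _ a x)
    (fun t h n a x => by
      rw [ei₂ t h]
      exact lin_rho hpO _ _ a x)
    (fun t h n a x => by
      rw [ej₁ t h]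
      exact lin_rho hpO _ _ a x)
    (fun t h n a x => by
      rw [ej₂ t h]
      exact lin_rho hpO _ _ a x)
    (fun t h n x => by
      rw [ei₁ t h, ej₁ t h]
      exact (R t h).D11 n x)
    (fun t h n x => by
      rw [ei₂ t h, ej₁ t h]
      exact (R t h).D12 n (hTq t h n) x)
    (fun t h n x => by
      rw [ei₁ t h, ej₂ t h]
      exact (R t h).D21 n (hTq t h n) x)
    (fun t h n x => by
      rw [ei₂ t h, ej₂ t h]
      exact (R t h).D22 n x)
    hd (𝔞 := aug O r) (fun o ho => C_mem_aug ho) B (algebraMap O Y.A₀)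
    (fun j n o => (Y.π n).commutes o)
    (fun t => ((CA Y.H₀ Y.hbar₀).rho (frv (tv t) (tv t).2)).trace)
    (fun j n t => Y.π_trace n _)
    I₁ I₂
    (fun t h a u => by
      rw [eI₁ t h]
      exact lin₀_rho hpO _ _ a u)
    (fun t h a u => by
      rw [eI₂ t h]
      exact lin₀_rho hpO _ _ a u)
    (fun t h n x => by
      rw [eI₁ t h, ei₁ t h]
      exact (R t h).f_i₁ n x)
    (fun t h n x => by
      rw [eI₂ t h, ei₂ t h]
      exact (R t h).f_i₂ n x)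
    (fun t h n a ha y => by
      rw [eI₁ t h, eI₂ t h]
      exact (R t h).hnew hpO hT hϖ (h1' t h) (hnew t h) n a ha y)
    (fun t h => by
      obtain ⟨o, ho, h3⟩ := Sys.hbd t (cp t.castSucc) (hbd t h) (Z t.castSucc)
      exact ⟨o, ho, h3⟩)
    (x : Y.A₀ →+* O)
    (fun n t a ha => by
      have h3 := Ideal.mem_map_of_mem (Y.π n : Y.A n →+* Y.A₀) ha
      rw [map_Jst] at h3
      have e1 : ((CA (Y.H n) (Y.hbar n)).rho (frv (tv t) (tv t).2)).map
          (Y.π n : Y.A n →+* Y.A₀) = _ := Y.π_rho n _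
      have e2 : ((CA (Y.H n) (Y.hbar n)).rho (tmv p hp (tv t) (tv t).2)).map
          (Y.π n : Y.A n →+* Y.A₀) = _ := Y.π_rho n _
      have e3 : ∀ o : O, (Y.π n : Y.A n →+* Y.A₀) (algebraMap O (Y.A n) o) =
          algebraMap O Y.A₀ o := (Y.π n).commutes
      rw [e1, e2, e3, e3] at h3
      exact C_Jst (CA Y.H₀ Y.hbar₀) hp hpO hT (CA_contS _ _) Function.injective_id x t
        ((hx _).trans (hW1 t)) (hε t) ((hx _).trans (hW2 t)) h3)
  obtain ⟨y, hy⟩ := (Y.H₀ (cp (Fin.last m))).exists_point (pr Y.H₀ Y.hbar₀ (cp (Fin.last m))) x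
    (fun a ha => by
      apply key
      rw [RingHom.mem_ker]
      refine LinearMap.ext fun m : (Z (Fin.last m)).N => ?_
      change pr Y.H₀ Y.hbar₀ (cp (Fin.last _)) a • m = 0
      have h3 : pr Y.H₀ Y.hbar₀ (cp (Fin.last _)) a = 0 := ha
      rw [h3, zero_smul])
  refine ⟨y, fun g => ?_⟩
  have h3 := hy ((CA Y.H₀ Y.hbar₀).t g)
  rw [pr_t, CData.ev_C, hx] at h3
  exact h3

end Sys

end Fermat.Agent.H25.GE
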