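import Mathlib
import Fermat.Agent.TFin.ML
import Fermat.Agent.TFin.CokerSys
import Fermat.Agent.TFin.TanSub
import Fermat.Agent.TAlg.PStep
import Fermat.Agent.TAlg.Fr2

set_option autoImplicit false
set_option linter.unusedSectionVars false
set_option linter.style.haveILetI false

/-!
# The support of the patched module of the flat tower, over the restricted trace ring
-/

namespace Fermat.Agent.H25.GE

open Fermat.Agent.H25 Fermat.Agent.H25.PR Fermat.Agent.CC Fermat.Agent.TW IsLocalRing Matrix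
open Fermat.Agent.H05 Fermat.Agent.H25.TR Fermat.Agent.H25.TWM Fermat.Agent.TAlg Fermat.Agent.H25.GD

namespace Sys

variable {O k : Type} [CommRing O] [IsDomain O] [CharZero O] [IsLocalRing O]
    [IsNoetherianRing O] [IsAdicComplete (maximalIdeal O) O] [Finite (ResidueField O)]
    [Field k] [Finite k] {D : RD O k}
    {p : ℕ} [Fact p.Prime] (hpO : (p : O) ∈ maximalIdeal O)
    {r : ℕ} {κ : Type} [Finite κ] [Nonempty κ] {Y : Sys D p r κ} {ϖ : O}

include hpO in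
theorem isUnit_tv {𝒯 : Type} {tv : 𝒯 → Nat.Primes} (hT : FrD D p tv) (t : 𝒯) :
    IsUnit ((tv t : ℕ) : O) := by
  have hp : p.Prime := Fact.out
  by_contra hcon
  have h3 : ((tv t : ℕ) : O) ∈ maximalIdeal O := (mem_maximalIdeal _).mpr hcon
  have hcop : Nat.Coprime p (tv t : ℕ) :=
    (Nat.coprime_primes hp (tv t).2).mpr (hT.ne t)
  have h4 : ((p : ℤ) * Nat.gcdA p (tv t) + ((tv t : ℕ) : ℤ) * Nat.gcdB p (tv t)) = 1 := by
    rw [← Nat.gcd_eq_gcd_ab, hcop]; rfl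
  have h5 : ((p : O) * (Nat.gcdA p (tv t) : ℤ) + ((tv t : ℕ) : O) *
      (Nat.gcdB p (tv t) : ℤ)) = 1 := by exact_mod_cast congrArg (Int.cast : ℤ → O) h4
  have h6 : (1 : O) ∈ maximalIdeal O := by
    rw [← h5]
    exact Ideal.add_mem _ (Ideal.mul_mem_right _ _ hpO) (Ideal.mul_mem_right _ _ h3)
  exact (Ideal.ne_top_iff_one _).mp (maximalIdeal.isMaximal O).ne_top h6

/-- killing at a component from points, over the restricted trace ring. -/
theorem UDr_kill {κ' : Type} [Finite κ'] [Nonempty κ'] (φ : κ' → κ) (j : κ') {d : ℕ}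
    (Mo : ∀ n, MData (Y.H n (φ j)) p (Y.qv n) (Y.e n) d) (n : ℕ)
    (I : Ideal ((Y.comap φ).A n))
    (h : ∀ y, I ≤ RingHom.ker (pt ((Y.comap φ).H n) ((Y.comap φ).hbar n) j y)) :
    ∀ a ∈ I, (Y.UDr hpO φ j Mo).ρ n a = 0 := by
  intro a ha
  have h2 : pr ((Y.comap φ).H n) ((Y.comap φ).hbar n) j a = 0 := by
    refine ((Y.comap φ).H n j).ext_ev fun y => ?_
    rw [map_zero]
    exact h y ha
  refine LinearMap.ext fun (m : (Mo n).M) => ?_
  exact (Y.UDr_ρ' hpO φ j Mo n a m).trans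
    ((congrArg (fun b : (Y.H n (φ j)).B => b • m) h2).trans (zero_smul _ m))

set_option maxHeartbeats 2000000 in
/-- **The full Steinberg component is in the support of the patched module of the flat tower**, over
the restricted trace ring. -/
theorem flat_support {m : ℕ} {tv : Fin m → Nat.Primes}
    (hϖ : maximalIdeal O = Ideal.span {ϖ}) (hT : FrD D p tv)
    (ε : Fin m → O) (hε : ∀ t, ε t ^ 2 = 1)
    (Φ₀ : Fin m → Matrix (Fin 2) (Fin 2) O)
    (htr₀ : ∀ t, (Φ₀ t).trace - ε t * (((tv t : ℕ) : O) + 1) ∈ maximalIdeal O)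
    {F : Ultrafilter ℕ} (hJ : Small F (fun n => JJ O hpO (Y.e n)))
    (cp : Fin (m + 1) → κ) (d : Fin (m + 1) → ℕ)
    (Mo : ∀ (j : Fin (m + 1)) (n : ℕ), MData (Y.H n (cp j)) p (Y.qv n) (Y.e n) (d j))
    (Z : ∀ j, Y.BData (cp j) (Mo j)) (j₀ : Fin (m + 1))
    (R : ∀ t : Fin m, j₀ ≤ t.castSucc → RaiseD Y (Z t.castSucc) (Z t.succ) (tv t) ϖ)
    (hunr : ∀ (n : ℕ) (j : Fin (m + 1)) (t : Fin m), j₀ ≤ j → j ≤ t.castSucc →
      ∀ x g, (Y.H n (cp j)).t x (tmv p (Fact.out : p.Prime) (tv t) (tv t).2 * g) =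
        (Y.H n (cp j)).t x g)
    (h1 : ∀ (n : ℕ) (j : Fin (m + 1)) (t : Fin m), j₀ ≤ j → t.castSucc < j →
      ∀ x, (Y.H n (cp j)).t x (tmv p (Fact.out : p.Prime) (tv t) (tv t).2) = 2)
    (hst : ∀ (n : ℕ) (t : Fin m), t.castSucc < j₀ → ∀ x,
      (Y.H n (cp j₀)).t x (frv (tv t) (tv t).2) = algebraMap O _ (ε t * (((tv t : ℕ) : O) + 1)))
    (hTq : ∀ (t : Fin m) (h : j₀ ≤ t.castSucc) (n : ℕ) x, (R t h).Tq n x =
      ((Y.H n (cp t.castSucc)).C (Y.hbar n)).t (frv (tv t) (tv t).2) • x)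
    (h1' : ∀ (t : Fin m), j₀ ≤ t.castSucc → ∀ y,
      (Y.H₀ (cp t.succ)).t y (tmv p (Fact.out : p.Prime) (tv t) (tv t).2) = 2)
    (hnew : ∀ (t : Fin m) (h : j₀ ≤ t.castSucc) (y : (Y.H₀ (cp t.succ)).X),
      (Y.H₀ (cp t.succ)).t y (frv (tv t) (tv t).2) ^ 2 =
        (((tv t : ℕ) : (Y.H₀ (cp t.succ)).P y) + 1) ^ 2 ∨
      ∃ b : Y.A₀, (Y.H₀ (cp t.succ)).ev y (pr Y.H₀ Y.hbar₀ (cp t.succ) b) ≠ 0 ∧
        ∀ x : (Z t.succ).N, ∃ u v : (Z t.castSucc).N,
          pr Y.H₀ Y.hbar₀ (cp t.succ) b • x = (R t h).I₁ u + (R t h).I₂ v)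
    (hbd : ∀ (t : Fin m), j₀ ≤ t.castSucc → ∀ y,
      (Y.H₀ (cp t.castSucc)).t y (frv (tv t) (tv t).2) ^ 2 ≠
        (((tv t : ℕ) : (Y.H₀ (cp t.castSucc)).P y) + 1) ^ 2)
    (hd : d j₀ ≠ 0)
    (P : Pack (toCLR O) r (Fin m) (fun t => ((tv t : ℕ) : O)) Φ₀)
    (hP : P.OK (fun t => okML (((tv t : ℕ) : O)) (Φ₀ t).trace))
    (hP' : OKst P.i (fun t => ((tv t : ℕ) : O)) P.Φ P.S
      (fun t => okML (((tv t : ℕ) : O)) (Φ₀ t).trace))
    (φ : ∀ n, P.R →+* MvPowerSeries (Fin m × Fin 3) ((Y.comap cp).A n))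
    (hφs : ∀ n, Function.Surjective (φ n))
    (hφi : ∀ n o, φ n (P.i o) = MvPowerSeries.C (algebraMap O ((Y.comap cp).A n) o))
    (hφΦ : ∀ n t, (P.Φ t).map (φ n) =
      frM ((CA ((Y.comap cp).H n) ((Y.comap cp).hbar n)).rho (frv (tv t) (tv t).2)) t)
    (hφS : ∀ n t, (P.S t).map (φ n) =
      frM ((CA ((Y.comap cp).H n) ((Y.comap cp).hbar n)).rho
        (tmv p (Fact.out : p.Prime) (tv t) (tv t).2)) t)
    {θ : ℕ → (MvPowerSeries (Fin m × Fin 3) (MvPowerSeries (Fin r) O) →+* P.R)}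
    (hθ : ∀ n, (φ n).comp (θ n) =
      MvPowerSeries.map (Y.thR hpO cp n : MvPowerSeries (Fin r) O →+* (Y.comap cp).A n))
    (hθi : ∀ n o, θ n (MvPowerSeries.C (MvPowerSeries.C o)) = P.i o) :
    Module.annihilator P.R (((Y.UDr hpO cp (Fin.last m) (Mo (Fin.last m))).frame φ hθ).Lim
      (small_frameIdeal (σ := Fin m × Fin 3) hJ)) ≤ P.K ⊥ (fun t => .st (ε t)) := by
  classical
  have hp : p.Prime := Fact.out
  let S := MvPowerSeries (Fin r) O
  haveI : Finite (ResidueField (Y.comap cp).A₀) := finite_residueField_A₀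
  let U : Fin (m + 1) → UData S (fun n => JJ O hpO (Y.e n)) (Y.comap cp).A
    (fun n => (Y.thR hpO cp n : S →+* (Y.comap cp).A n)) := fun j => Y.UDr hpO cp j (Mo j)
  let B : ∀ j, UBase (U j) (aug O r) (Y.comap cp).A₀ := fun j => Y.UBr hpO cp (Z j)
  let i₁ : ∀ (t : Fin m) n, (U t.castSucc).M n →ₗ[S] (U t.succ).M n := fun t n =>
    if h : j₀ ≤ t.castSucc then lin hpO ((R t h).i₁ n) ((R t h).i₁_pr n) else 0
  let i₂ : ∀ (t : Fin m) n, (U t.castSucc).M n →ₗ[S] (U t.succ).M n := fun t n =>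
    if h : j₀ ≤ t.castSucc then lin hpO ((R t h).i₂ n) ((R t h).i₂_pr n) else 0
  let j₁ : ∀ (t : Fin m) n, (U t.succ).M n →ₗ[S] (U t.castSucc).M n := fun t n =>
    if h : j₀ ≤ t.castSucc then lin hpO ((R t h).j₁ n) ((R t h).j₁_pr n) else 0
  let j₂ : ∀ (t : Fin m) n, (U t.succ).M n →ₗ[S] (U t.castSucc).M n := fun t n =>
    if h : j₀ ≤ t.castSucc then lin hpO ((R t h).j₂ n) ((R t h).j₂_pr n) else 0
  let I₁ : ∀ t : Fin m, (B t.castSucc).N →ₗ[S] (B t.succ).N := fun t =>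
    if h : j₀ ≤ t.castSucc then lin₀ hpO (R t h).I₁ (R t h).I₁_pr else 0
  let I₂ : ∀ t : Fin m, (B t.castSucc).N →ₗ[S] (B t.succ).N := fun t =>
    if h : j₀ ≤ t.castSucc then lin₀ hpO (R t h).I₂ (R t h).I₂_pr else 0
  have ei₁ : ∀ (t : Fin m) (h : j₀ ≤ t.castSucc) n,
      i₁ t n = lin hpO ((R t h).i₁ n) ((R t h).i₁_pr n) := fun t h n => dif_pos h
  have ei₂ : ∀ (t : Fin m) (h : j₀ ≤ t.castSucc) n,
      i₂ t n = lin hpO ((R t h).i₂ n) ((R t h).i₂_pr n) := fun t h n => dif_pos h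
  have ej₁ : ∀ (t : Fin m) (h : j₀ ≤ t.castSucc) n,
      j₁ t n = lin hpO ((R t h).j₁ n) ((R t h).j₁_pr n) := fun t h n => dif_pos h
  have ej₂ : ∀ (t : Fin m) (h : j₀ ≤ t.castSucc) n,
      j₂ t n = lin hpO ((R t h).j₂ n) ((R t h).j₂_pr n) := fun t h n => dif_pos h
  have eI₁ : ∀ (t : Fin m) (h : j₀ ≤ t.castSucc),
      I₁ t = lin₀ hpO (R t h).I₁ (R t h).I₁_pr := fun t h => dif_pos h
  have eI₂ : ∀ (t : Fin m) (h : j₀ ≤ t.castSucc),
      I₂ t = lin₀ hpO (R t h).I₂ (R t h).I₂_pr := fun t h => dif_pos h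
  -- the actions
  have hρ : ∀ (j : Fin (m + 1)) (n : ℕ) (a : Y.A n), (U j).ρ n (Y.res cp n a) =
      (Y.UD hpO (cp j) (Mo j)).ρ n a := fun j n a => Y.UDr_ρ hpO cp j (Mo j) n a
  have hρ₀ : ∀ (j : Fin (m + 1)) (a : Y.A₀), (B j).ρ₀ (Y.res₀ cp a) =
      (Y.UB hpO (Z j)).ρ₀ a := fun j a => Y.UBr_ρ₀ hpO cp (Z j) a
  have hco : ∀ (n : ℕ) (o : O), Y.res cp n (algebraMap O (Y.A n) o) =
      algebraMap O ((Y.comap cp).A n) o := fun n o => (Y.res cp n).commutes o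
  have hco₀ : ∀ (o : O), Y.res₀ cp (algebraMap O Y.A₀ o) =
      algebraMap O ((Y.comap cp).A₀) o := fun o => (Y.res₀ cp).commutes o
  have htrn : ∀ (n : ℕ) (g : GQ), Y.res cp n ((CA (Y.H n) (Y.hbar n)).rho g).trace =
      ((CA ((Y.comap cp).H n) ((Y.comap cp).hbar n)).rho g).trace := fun n g => by
    rw [Comp.trace_rho, Comp.trace_rho, res_t]
  have htr₀' : ∀ (g : GQ), Y.res₀ cp ((CA Y.H₀ Y.hbar₀).rho g).trace =
      ((CA (Y.comap cp).H₀ (Y.comap cp).hbar₀).rho g).trace := fun g => by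
    rw [Comp.trace_rho, Comp.trace_rho, res₀_t]
  have h1f : ∀ (n : ℕ) (j : Fin (m + 1)) (t : Fin m), j₀ ≤ j → t.castSucc < j →
      ∀ x : ((Y.comap cp).H n j).X, ((Y.comap cp).H n j).t x
        (tmv p (Fact.out : p.Prime) (tv t) (tv t).2) = 2 := h1
  have hstf : ∀ (n : ℕ) (t : Fin m), t.castSucc < j₀ → ∀ x : ((Y.comap cp).H n j₀).X,
      ((Y.comap cp).H n j₀).t x (frv (tv t) (tv t).2) =
        algebraMap O _ (ε t * (((tv t : ℕ) : O) + 1)) := hst
  have key := ml_support (O := toCLR O) (m := m)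
    (fun t => ((tv t : ℕ) : O)) (isUnit_tv hpO hT)
    (fun t h => (tv t).2.one_lt.ne' (by exact_mod_cast h))
    (fun t h => Nat.succ_ne_zero (tv t : ℕ) (by exact_mod_cast h)) Φ₀ ε hε htr₀
    r (F := F) hJ (A := fun n => (Y.comap cp).A n)
    (fun n => algebraMap O ((Y.comap cp).A n))
    (θA := fun n => (Y.thR hpO cp n : S →+* (Y.comap cp).A n))
    (fun n t => (CA ((Y.comap cp).H n) ((Y.comap cp).hbar n)).rho (frv (tv t) (tv t).2))
    (fun n t => (CA ((Y.comap cp).H n) ((Y.comap cp).hbar n)).rho (tmv p hp (tv t) (tv t).2))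
    U j₀
    (fun n j t hj ht a ha => by
      refine UDr_kill hpO cp j (Mo j) n
        (Junr ((CA ((Y.comap cp).H n) ((Y.comap cp).hbar n)).rho (tmv p hp (tv t) (tv t).2)))
        (fun y => ?_) a ha
      have h3 := (pt_rho_iff ((Y.comap cp).H n) ((Y.comap cp).hbar n) j y
        (tmv p hp (tv t) (tv t).2)).mpr (hunr n j t hj ht y)
      rw [Junr, ent_le_iff]
      intro a b
      rw [RingHom.mem_ker]
      have h4 := congrFun (congrFun h3 a) b
      rw [Matrix.map_apply] at h4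
      rw [Matrix.sub_apply, map_sub, h4, Matrix.one_apply, Matrix.one_apply]
      split_ifs <;> simp)
    (fun n j t hj ht a ha => by
      refine UDr_kill hpO cp j (Mo j) n _ (fun y => ?_) a ha
      refine J1_le (CA ((Y.comap cp).H n) ((Y.comap cp).hbar n)) hp hpO hT (CA_contS _ _) t
        (pt ((Y.comap cp).H n) ((Y.comap cp).hbar n) j y :
          (Y.comap cp).A n →+* ((Y.comap cp).H n j).P y) ?_
      change pt ((Y.comap cp).H n) ((Y.comap cp).hbar n) j y _ = 2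
      rw [pt_t, h1f n j t hj ht])
    (fun n t ht a ha => by
      refine UDr_kill hpO cp j₀ (Mo j₀) n _ (fun y => ?_) a ha
      refine C_Jst (CA ((Y.comap cp).H n) ((Y.comap cp).hbar n)) hp hpO hT (CA_contS _ _)
        (FaithfulSMul.algebraMap_injective O (((Y.comap cp).H n j₀).P y))
        (pt ((Y.comap cp).H n) ((Y.comap cp).hbar n) j₀ y) t ?_ (hε t) ?_
      · rw [pt_t, h1f n j₀ t le_rfl ht]
      · rw [pt_t, hstf n t ht])
    i₁ i₂ j₁ j₂
    (fun t h n a b hab => by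
      rw [ei₁ t h, ei₂ t h] at hab
      exact (R t h).hi hpO hϖ n a b hab)
    (fun t h n a b => by
      rw [ej₁ t h, ej₂ t h]
      exact (R t h).hj hpO hϖ n a b)
    (fun t h n a x => by
      obtain ⟨a, rfl⟩ := Y.res_surjective cp n a
      rw [ei₁ t h, hρ, hρ]
      exact lin_rho hpO _ _ a x)
    (fun t h n a x => by
      obtain ⟨a, rfl⟩ := Y.res_surjective cp n a
      rw [ei₂ t h, hρ, hρ]
      exact lin_rho hpO _ _ a x)
    (fun t h n a x => by
      obtain ⟨a, rfl⟩ := Y.res_surjective cp n a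
      rw [ej₁ t h, hρ, hρ]
      exact lin_rho hpO _ _ a x)
    (fun t h n a x => by
      obtain ⟨a, rfl⟩ := Y.res_surjective cp n a
      rw [ej₂ t h, hρ, hρ]
      exact lin_rho hpO _ _ a x)
    (fun t h n x => by
      rw [ei₁ t h, ej₁ t h]
      beta_reduce
      rw [← hco, hρ]
      exact (R t h).D11 n x)
    (fun t h n x => by
      rw [ei₂ t h, ej₁ t h]
      beta_reduce
      rw [← htrn, hρ]
      exact (R t h).D12 n (hTq t h n) x)
    (fun t h n x => by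
      rw [ei₁ t h, ej₂ t h]
      beta_reduce
      rw [← htrn, hρ]
      exact (R t h).D21 n (hTq t h n) x)
    (fun t h n x => by
      rw [ei₂ t h, ej₂ t h]
      beta_reduce
      rw [← hco, hρ]
      exact (R t h).D22 n x)
    hd (𝔞 := aug O r) (fun o ho => C_mem_aug ho) B (algebraMap O (Y.comap cp).A₀)
    (fun j n o => ((Y.comap cp).π n).commutes o)
    (fun t => ((CA (Y.comap cp).H₀ (Y.comap cp).hbar₀).rho (frv (tv t) (tv t).2)).trace)
    (fun j n t => (Y.comap cp).π_trace n _)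
    I₁ I₂
    (fun t h a u => by
      obtain ⟨a, rfl⟩ := Y.res₀_surjective cp a
      rw [eI₁ t h, hρ₀, hρ₀]
      exact lin₀_rho hpO _ _ a u)
    (fun t h a u => by
      obtain ⟨a, rfl⟩ := Y.res₀_surjective cp a
      rw [eI₂ t h, hρ₀, hρ₀]
      exact lin₀_rho hpO _ _ a u)
    (fun t h n x => by
      rw [eI₁ t h, ei₁ t h]
      exact (R t h).f_i₁ n x)
    (fun t h n x => by
      rw [eI₂ t h, ei₂ t h]
      exact (R t h).f_i₂ n x)
    (fun t h n a ha y => by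
      -- lift `a` to the full trace ring
      have hmap : (Jst 1 (algebraMap O (Y.A n) ((tv t : ℕ) : O))
          ((CA (Y.H n) (Y.hbar n)).rho (frv (tv t) (tv t).2))
          ((CA (Y.H n) (Y.hbar n)).rho (tmv p hp (tv t) (tv t).2)) *
          Jst (-1) (algebraMap O (Y.A n) ((tv t : ℕ) : O))
          ((CA (Y.H n) (Y.hbar n)).rho (frv (tv t) (tv t).2))
          ((CA (Y.H n) (Y.hbar n)).rho (tmv p hp (tv t) (tv t).2))).map
          (Y.res cp n : Y.A n →+* (Y.comap cp).A n) =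
          Jst 1 (algebraMap O ((Y.comap cp).A n) ((tv t : ℕ) : O))
          ((CA ((Y.comap cp).H n) ((Y.comap cp).hbar n)).rho (frv (tv t) (tv t).2))
          ((CA ((Y.comap cp).H n) ((Y.comap cp).hbar n)).rho (tmv p hp (tv t) (tv t).2)) *
          Jst (-1) (algebraMap O ((Y.comap cp).A n) ((tv t : ℕ) : O))
          ((CA ((Y.comap cp).H n) ((Y.comap cp).hbar n)).rho (frv (tv t) (tv t).2))
          ((CA ((Y.comap cp).H n) ((Y.comap cp).hbar n)).rho (tmv p hp (tv t) (tv t).2)) := by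
        rw [Ideal.map_mul, map_Jst, map_Jst, map_neg, map_one]
        have e1 : ((CA (Y.H n) (Y.hbar n)).rho (frv (tv t) (tv t).2)).map
            (Y.res cp n : Y.A n →+* (Y.comap cp).A n) = _ := Y.res_rho cp n _
        have e2 : ((CA (Y.H n) (Y.hbar n)).rho (tmv p hp (tv t) (tv t).2)).map
            (Y.res cp n : Y.A n →+* (Y.comap cp).A n) = _ := Y.res_rho cp n _
        have e3 : (Y.res cp n : Y.A n →+* (Y.comap cp).A n)
            (algebraMap O (Y.A n) ((tv t : ℕ) : O)) =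
            algebraMap O ((Y.comap cp).A n) ((tv t : ℕ) : O) := hco n _
        rw [e1, e2, e3]
      obtain ⟨a', ha', rfl⟩ : ∃ a' ∈ (Jst 1 (algebraMap O (Y.A n) ((tv t : ℕ) : O))
          ((CA (Y.H n) (Y.hbar n)).rho (frv (tv t) (tv t).2))
          ((CA (Y.H n) (Y.hbar n)).rho (tmv p hp (tv t) (tv t).2)) *
          Jst (-1) (algebraMap O (Y.A n) ((tv t : ℕ) : O))
          ((CA (Y.H n) (Y.hbar n)).rho (frv (tv t) (tv t).2))
          ((CA (Y.H n) (Y.hbar n)).rho (tmv p hp (tv t) (tv t).2))), Y.res cp n a' = a := by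
        have ha2 := hmap.symm ▸ ha
        exact (Ideal.mem_map_iff_of_surjective (Y.res cp n : Y.A n →+* (Y.comap cp).A n)
          (Y.res_surjective cp n)).mp ha2
      rw [eI₁ t h, eI₂ t h]
      have e4 : (B t.succ).π n (Y.res cp n a') = Y.res₀ cp (Y.π n a') := Y.π_res cp n a'
      rw [e4, hρ₀]
      exact (R t h).hnew hpO hT hϖ (h1' t h) (hnew t h) n a' ha' y)
    (fun t h => by
      obtain ⟨o, ho, h3⟩ := Sys.hbd t (cp t.castSucc) (hbd t h) (Z t.castSucc)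
      refine ⟨o, ho, fun y => ?_⟩
      obtain ⟨z, hz⟩ := h3 y
      refine ⟨z, ?_⟩
      beta_reduce
      rw [← hco₀, ← hco₀, ← htr₀', ← map_mul, ← map_mul, ← map_sub, hρ₀, hρ₀]
      exact hz)
    P hP hP' φ hφs hφi hφΦ hφS hθ hθi (Fin.last m) (Fin.le_last _)
  have e : Pack.tyS (O := toCLR O) ε (Fin.last m) = fun t => .st (ε t) := by
    funext t
    rw [Pack.tyS, if_pos (Fin.castSucc_lt_last t)]
  rw [e] at key
  exact key

end Sys

end Fermat.Agent.H25.GE
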