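import Mathlib
import Fermat.Agent.TFin.FlatSupp

set_option autoImplicit false
set_option linter.unusedSectionVars false
set_option linter.style.haveILetI false

/-!
# The step at `p` (hard case) for systems of components
-/

namespace Fermat.Agent.TAlg

open IsLocalRing

/-- the zero patching data -/
noncomputable def UData.zero {ι S : Type} [CommRing S] (J : ι → Ideal S)
    (θA : ι → (S →+* PUnit.{1})) : UData S J (fun _ => PUnit.{1}) θA where
  M _ := PUnit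
  d := 0
  e _ :=
    { toFun := fun _ => 0
      invFun := fun _ => PUnit.unit
      map_add' := fun _ _ => (add_zero _).symm
      map_smul' := fun _ _ => (smul_zero _).symm
      left_inv := fun _ => rfl
      right_inv := fun _ => Subsingleton.elim _ _ }
  ρ _ :=
    { toFun := fun _ => 0
      map_one' := Subsingleton.elim _ _
      map_mul' := fun _ _ => Subsingleton.elim _ _
      map_zero' := rfl
      map_add' := fun _ _ => (add_zero _).symm }
  hθ _ _ := Subsingleton.elim _ _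

/-- the map to the zero ring -/
def toPUnit (A : Type) [CommRing A] : A →+* PUnit.{1} where
  toFun _ := PUnit.unit
  map_one' := rfl
  map_mul' _ _ := rfl
  map_zero' := rfl
  map_add' _ _ := rfl

/-- the map to power series over the zero ring -/
noncomputable def toPS (A σ : Type) [CommRing A] : A →+* MvPowerSeries σ PUnit.{1} where
  toFun _ := 0
  map_one' := by ext
  map_mul' _ _ := by ext
  map_zero' := rfl
  map_add' _ _ := (add_zero _).symm

theorem ps_subsingleton (σ : Type) : Subsingleton (MvPowerSeries σ PUnit.{1}) :=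
  ⟨fun _ _ => by ext⟩

theorem mem_maximalIdeal_of_surj {A B : Type} [CommRing A] [IsLocalRing A] [CommRing B]
    [IsLocalRing B] (f : A →+* B) (hf : Function.Surjective f) {a : A}
    (ha : a ∈ maximalIdeal A) : f a ∈ maximalIdeal B := by
  rw [mem_maximalIdeal, mem_nonunits_iff]
  intro h
  obtain ⟨b, hb⟩ := h.exists_right_inv
  obtain ⟨c, rfl⟩ := hf b
  have h1 : IsUnit (a * c - 1) := by
    by_contra hcon
    have h2 : a * c - 1 ∈ maximalIdeal A := (mem_maximalIdeal _).mpr hcon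
    have h3 : (1 : A) ∈ maximalIdeal A := by
      have := Ideal.sub_mem _ (Ideal.mul_mem_right c _ ha) h2
      rwa [sub_sub_cancel] at this
    exact (Ideal.ne_top_iff_one _).mp (maximalIdeal.isMaximal A).ne_top h3
  have h2 := h1.map f
  rw [map_sub, map_mul, hb, map_one, sub_self] at h2
  exact not_isUnit_zero h2

end Fermat.Agent.TAlg

namespace Fermat.Agent.H25.GE

open Fermat.Agent.H25 Fermat.Agent.H25.PR Fermat.Agent.CC Fermat.Agent.TW IsLocalRing Matrix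
open Fermat.Agent.H05 Fermat.Agent.H25.TR Fermat.Agent.H25.TWM Fermat.Agent.TAlg Fermat.Agent.H25.GD

namespace Sys

variable {O k : Type} [CommRing O] [IsDomain O] [CharZero O] [IsLocalRing O]
    [IsNoetherianRing O] [IsAdicComplete (maximalIdeal O) O] [Finite (ResidueField O)]
    [Field k] [Finite k] {D : RD O k}
    {p : ℕ} [Fact p.Prime] (hpO : (p : O) ∈ maximalIdeal O)
    {r : ℕ} {κ : Type} [Finite κ] [Nonempty κ]

set_option maxHeartbeats 4000000 in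
/-- **The step at `p`** for systems of components, one variable explicit. -/
theorem hardCase_aux {Y : Sys D p (r + 1) κ} {ϖ : O} {m : ℕ} {tv : Fin m → Nat.Primes}
    (hϖ : maximalIdeal O = Ideal.span {ϖ}) (hT : FrD D p tv)
    (ε : Fin m → O) (hε : ∀ t, ε t ^ 2 = 1)
    (htr : ∀ t, (D.rbar (frv (tv t) (tv t).2)).trace = D.res (ε t * (((tv t : ℕ) : O) + 1)))
    (he : ∀ n j, n ≤ Y.e n j)
    (cp : Fin (m + 1) → κ) (d : Fin (m + 1) → ℕ)
    (Mo : ∀ (j : Fin (m + 1)) (n : ℕ), MData (Y.H n (cp j)) p (Y.qv n) (Y.e n) (d j))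
    (Z : ∀ j, Y.BData (cp j) (Mo j)) (j₀ : Fin (m + 1))
    (R : ∀ t : Fin m, j₀ ≤ t.castSucc → RaiseD Y (Z t.castSucc) (Z t.succ) (tv t) ϖ)
    (hunr : ∀ (n : ℕ) (j : Fin (m + 1)) (t : Fin m), j₀ ≤ j → j ≤ t.castSucc →
      ∀ x g, (Y.H n (cp j)).t x (tmv p (Fact.out : p.Prime) (tv t) (tv t).2 * g) =
        (Y.H n (cp j)).t x g)
    (h1 : ∀ (n : ℕ) (j : Fin (m + 1)) (t : Fin m), j₀ ≤ j → t.castSucc < j →
      ∀ x, (Y.H n (cp j)).t x (tmv p (Fact.out : p.Prime) (tv t) (tv t).2) = 2)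
    (hst : ∀ (n : ℕ) (t : Fin m), t.castSucc < j₀ → ∀ x,
      (Y.H n (cp j₀)).t x (frv (tv t) (tv t).2) = algebraMap O _ (ε t * (((tv t : ℕ) : O) + 1)))
    (hTq : ∀ (t : Fin m) (h : j₀ ≤ t.castSucc) (n : ℕ) x, (R t h).Tq n x =
      ((Y.H n (cp t.castSucc)).C (Y.hbar n)).t (frv (tv t) (tv t).2) • x)
    (h1' : ∀ (t : Fin m), j₀ ≤ t.castSucc → ∀ y,
      (Y.H₀ (cp t.succ)).t y (tmv p (Fact.out : p.Prime) (tv t) (tv t).2) = 2)
    (hnew : ∀ (t : Fin m) (h : j₀ ≤ t.castSucc) (y : (Y.H₀ (cp t.succ)).X),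
      (Y.H₀ (cp t.succ)).t y (frv (tv t) (tv t).2) ^ 2 =
        (((tv t : ℕ) : (Y.H₀ (cp t.succ)).P y) + 1) ^ 2 ∨
      ∃ b : Y.A₀, (Y.H₀ (cp t.succ)).ev y (pr Y.H₀ Y.hbar₀ (cp t.succ) b) ≠ 0 ∧
        ∀ x : (Z t.succ).N, ∃ u v : (Z t.castSucc).N,
          pr Y.H₀ Y.hbar₀ (cp t.succ) b • x = (R t h).I₁ u + (R t h).I₂ v)
    (hbd : ∀ (t : Fin m), j₀ ≤ t.castSucc → ∀ y,
      (Y.H₀ (cp t.castSucc)).t y (frv (tv t) (tv t).2) ^ 2 ≠
        (((tv t : ℕ) : (Y.H₀ (cp t.castSucc)).P y) + 1) ^ 2)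
    (hd : d j₀ ≠ 0)
    -- the step at `p`
    {pp : Nat.Primes} (hpp : (pp : ℕ) = p) {i' : κ} {d' : ℕ}
    {Mo' : ∀ n, MData (Y.H n i') p (Y.qv n) (Y.e n) d'} {Z' : Y.BData i' Mo'}
    (Rp : RaiseD Y (Z (Fin.last m)) Z' pp ϖ)
    (h1p : ∀ (n : ℕ) (t : Fin m) x,
      (Y.H n i').t x (tmv p (Fact.out : p.Prime) (tv t) (tv t).2) = 2)
    -- `T_p` and `y`
    (tp y e : ∀ n, (Y.comap cp).A n)
    (hy : ∀ n, y n ∈ maximalIdeal ((Y.comap cp).A n))
    (hTp : ∀ n x, Rp.Tq n x =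
      pr ((Y.comap cp).H n) ((Y.comap cp).hbar n) (Fin.last m) (tp n) • x)
    (hye : ∀ n, ((p : (Y.comap cp).A n) + 1) ^ 2 - tp n ^ 2 = y n * e n)
    (hSelI : ∀ n, SelBQ ((Y.comap cp).H n) ((Y.comap cp).hbar n) (r + 1) tv (fun δ => δ (y n) = 0))
    -- the strict trace rings
    (w : κ)
    (hSels : ∀ (hd' : 2 * d (Fin.last m) < d') n,
      SelB ((Rp.YC hpO hϖ hd' (fun _ : Unit => w)).H n)
        ((Rp.YC hpO hϖ hd' (fun _ : Unit => w)).hbar n) (r + 1) tv)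
    (xw : (Y.H₀ w).B →ₐ[O] O) (tW : GQ → O)
    (hW : ∀ g, xw (((Y.H₀ w).C Y.hbar₀).t g) = tW g)
    (hW1 : ∀ t, tW (tmv p (Fact.out : p.Prime) (tv t) (tv t).2) = 2)
    (hW2 : ∀ t, tW (frv (tv t) (tv t).2) = ε t * (((tv t : ℕ) : O) + 1)) :
    ∃ (hd' : 2 * d (Fin.last m) < d')
      (x : ((Rp.YC hpO hϖ hd' (fun _ : Unit => w)).H₀ none).X), ∀ g,
      ((Rp.YC hpO hϖ hd' (fun _ : Unit => w)).H₀ none).t x g = algebraMap O _ (tW g) := by
  classical
  have hp : p.Prime := Fact.out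
  let S := MvPowerSeries (Fin (r + 1)) O
  have hq1' := isUnit_tv (p := p) hpO hT
  have hq2' : ∀ t, ((tv t : ℕ) : O) + 1 ≠ 0 := fun t h =>
    Nat.succ_ne_zero (tv t : ℕ) (by exact_mod_cast h)
  -- lifts of Frobenius
  have hlift : ∀ t, ∃ M : Mt O, M.map D.res = D.rbar (frv (tv t) (tv t).2) := by
    intro t
    choose f hf using fun (ij : Fin 2 × Fin 2) => D.surj (D.rbar (frv (tv t) (tv t).2) ij.1 ij.2)
    refine ⟨Matrix.of fun i j => f (i, j), ?_⟩
    ext i j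
    exact hf (i, j)
  choose Φ₀ hΦ₀ using hlift
  have hdet₀ : ∀ t, (Φ₀ t).det - ((tv t : ℕ) : O) ∈ maximalIdeal O := by
    intro t
    rw [← rdres_mem (D := D), map_sub, RingHom.map_det]
    have : D.res.mapMatrix (Φ₀ t) = D.rbar (frv (tv t) (tv t).2) := hΦ₀ t
    rw [this, D.det_rbar, hT.chiF, sub_self]
  have htr₀ : ∀ t, (Φ₀ t).trace - ε t * (((tv t : ℕ) : O) + 1) ∈ maximalIdeal O := by
    intro t
    rw [← rdres_mem (D := D), map_sub]
    have : D.res (Φ₀ t).trace = (D.rbar (frv (tv t) (tv t).2)).trace := by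
      rw [← hΦ₀ t]
      exact AddMonoidHom.map_trace D.res.toAddMonoidHom (Φ₀ t)
    rw [this, htr, sub_self]
  let F : Ultrafilter ℕ := Filter.hyperfilter ℕ
  have hF : (F : Filter ℕ) ≤ Filter.atTop := Nat.hyperfilter_le_atTop
  have hJ := small_JJ O hpO hF he
  obtain ⟨P, hP, hP'⟩ := exists_pack_ML (toCLR O) (IsUnit.of_mul_eq_one_right _ D.h2) (r + 1)
    (Fin m) (fun t => ((tv t : ℕ) : O)) Φ₀ hdet₀ (fun t => ⟨ε t, hε t, htr₀ t⟩)
  haveI := P.loc
  -- the matrices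
  have hΦm : ∀ {κ' : Type} [Finite κ'] [Nonempty κ'] (Y' : Sys D p (r + 1) κ') (n : ℕ)
      (t : Fin m) (i j : Fin 2),
      (CA (Y'.H n) (Y'.hbar n)).rho (frv (tv t) (tv t).2) i j -
        algebraMap O (Y'.A n) (Φ₀ t i j) ∈ maximalIdeal (Y'.A n) := by
    intro κ' _ _ Y' n t i j
    rw [(CA (Y'.H n) (Y'.hbar n)).mem_maximalIdeal, map_sub, Comp.res_comp, sub_eq_zero]
    have e1 := congrFun (congrFun ((CA (Y'.H n) (Y'.hbar n)).rho_res (frv (tv t) (tv t).2)) i) j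
    have e2 := congrFun (congrFun (hΦ₀ t) i) j
    exact e1.trans e2.symm
  have hSm : ∀ {κ' : Type} [Finite κ'] [Nonempty κ'] (Y' : Sys D p (r + 1) κ') (n : ℕ)
      (t : Fin m) (i j : Fin 2),
      (CA (Y'.H n) (Y'.hbar n)).rho (tmv p hp (tv t) (tv t).2) i j -
        (1 : Matrix (Fin 2) (Fin 2) (Y'.A n)) i j ∈ maximalIdeal (Y'.A n) := by
    intro κ' _ _ Y' n t i j
    rw [(CA (Y'.H n) (Y'.hbar n)).mem_maximalIdeal, map_sub, sub_eq_zero]
    have e1 := congrFun (congrFun ((CA (Y'.H n) (Y'.hbar n)).rho_res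
      (tmv p hp (tv t) (tv t).2)) i) j
    rw [hT.unr t _ (tmv_spec p hp (tv t) (tv t).2).2.1] at e1
    refine e1.trans ?_
    rw [Matrix.one_apply, Matrix.one_apply]
    split_ifs <;> simp
  have hres : ∀ {κ' : Type} [Finite κ'] [Nonempty κ'] (Y' : Sys D p (r + 1) κ') (n : ℕ)
      (b : Y'.A n), ∃ o : O, b - algebraMap O (Y'.A n) o ∈ maximalIdeal (Y'.A n) := by
    intro κ' _ _ Y' n b
    obtain ⟨o, ho⟩ := D.surj ((CA (Y'.H n) (Y'.hbar n)).resB b)
    refine ⟨o, ?_⟩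
    rw [(CA (Y'.H n) (Y'.hbar n)).mem_maximalIdeal, map_sub, Comp.res_comp, ho, sub_self]
  have hdΦ : ∀ {κ' : Type} [Finite κ'] [Nonempty κ'] (Y' : Sys D p (r + 1) κ') (n : ℕ)
      (t : Fin m), ((CA (Y'.H n) (Y'.hbar n)).rho (frv (tv t) (tv t).2)).det =
        algebraMap O (Y'.A n) ((tv t : ℕ) : O) := by
    intro κ' _ _ Y' n t
    rw [Comp.det_rho, hT.chiF]
  have hdS : ∀ {κ' : Type} [Finite κ'] [Nonempty κ'] (Y' : Sys D p (r + 1) κ') (n : ℕ)
      (t : Fin m), ((CA (Y'.H n) (Y'.hbar n)).rho (tmv p hp (tv t) (tv t).2)).det = 1 := by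
    intro κ' _ _ Y' n t
    rw [Comp.det_rho, hT.chi t _ (tmv_spec p hp (tv t) (tv t).2).2.1, map_one]
  have hloc : ∀ {κ' : Type} [Finite κ'] [Nonempty κ'] (Y' : Sys D p (r + 1) κ') (n : ℕ),
      IsLocalHom (algebraMap O (Y'.A n)) := fun Y' n => (CA (Y'.H n) (Y'.hbar n)).isLocalHom
  have hthm : ∀ n (i : Fin (r + 1)), Y.thA hpO n (MvPowerSeries.X i) ∈ maximalIdeal (Y.A n) := by
    intro n i
    rw [Y.thA_X]
    exact Y.x_sub_one_mem hpO n i
  -- the flat trace rings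
  choose φf hφfs hφfi hφfΦ hφfS hφfX using fun n =>
    haveI := hloc (Y.comap cp) n
    exists_phi_y P (algebraMap O ((Y.comap cp).A n)) (hres (Y.comap cp) n)
      (CA ((Y.comap cp).H n) ((Y.comap cp).hbar n)).resB
      (CA ((Y.comap cp).H n) ((Y.comap cp).hbar n)).surj
      (fun t => (CA ((Y.comap cp).H n) ((Y.comap cp).hbar n)).rho (frv (tv t) (tv t).2))
      (fun t => (CA ((Y.comap cp).H n) ((Y.comap cp).hbar n)).rho (tmv p hp (tv t) (tv t).2))
      (hdΦ (Y.comap cp) n) (hdS (Y.comap cp) n) (hΦm (Y.comap cp) n) (hSm (Y.comap cp) n)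
      (y n) (hy n)
      (fun N hN hNy => Nat.le_of_add_le_add_right
        (finrank_tan_sub _ _ hp hpO hT (hSelI n) N hN hNy))
  choose θf hθf hθfi using fun n =>
    exists_theta (σ := Fin m × Fin 3) P.i (algebraMap O ((Y.comap cp).A n)) (φf n) (hφfs n)
      (hφfi n) (Y.thR hpO cp n : S →+* (Y.comap cp).A n)
      (fun o => (Y.thR hpO cp n).commutes o)
      (fun i => mem_maximalIdeal_of_surj (Y.res cp n : Y.A n →+* (Y.comap cp).A n)
        (Y.res_surjective cp n) (hthm n i))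
  have hM := flat_support hpO hϖ hT ε hε Φ₀ htr₀ hJ cp d Mo Z j₀ R hunr h1 hst hTq h1' hnew hbd hd
    P hP hP' φf hφfs hφfi hφfΦ hφfS hθf hθfi
  -- data over the flat trace rings
  have hfi : ∀ n (o : O), φf n (P.i o) = MvPowerSeries.C ((Y.res cp n : Y.A n →+*
      (Y.comap cp).A n) (algebraMap O (Y.A n) o)) := by
    intro n o
    rw [hφfi]
    exact congrArg _ ((Y.res cp n).commutes o).symm
  have hfΦ : ∀ n t, (P.Φ t).map (φf n) =
      frM (((CA (Y.H n) (Y.hbar n)).rho (frv (tv t) (tv t).2)).map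
        (Y.res cp n : Y.A n →+* (Y.comap cp).A n)) t := by
    intro n t
    rw [hφfΦ]
    exact congrArg (fun M => frM M t) (Y.res_rho cp n _).symm
  have hfS : ∀ n t, (P.S t).map (φf n) =
      frM (((CA (Y.H n) (Y.hbar n)).rho (tmv p hp (tv t) (tv t).2)).map
        (Y.res cp n : Y.A n →+* (Y.comap cp).A n)) t := by
    intro n t
    rw [hφfS]
    exact congrArg (fun M => frM M t) (Y.res_rho cp n _).symm
  let U' : UData S (fun n => JJ O hpO (Y.e n)) Y.A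
    (fun n => (Y.thA hpO n : S →+* Y.A n)) := Y.UD hpO i' Mo'
  let Uf : UData S (fun n => JJ O hpO (Y.e n)) (Y.comap cp).A
    (fun n => (Y.res cp n : Y.A n →+* (Y.comap cp).A n).comp (Y.thA hpO n : S →+* Y.A n)) :=
    Y.UDr hpO cp (Fin.last m) (Mo (Fin.last m))
  have hUf : ∀ n (a : Y.A n), Uf.ρ n ((Y.res cp n : Y.A n →+* (Y.comap cp).A n) a) =
      (Y.UD hpO (cp (Fin.last m)) (Mo (Fin.last m))).ρ n a := fun n a =>
    Y.UDr_ρ hpO cp (Fin.last m) (Mo (Fin.last m)) n a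
  have hkill : ∀ n t, ∀ x ∈ J1 (algebraMap O (Y.A n) ((tv t : ℕ) : O))
      ((CA (Y.H n) (Y.hbar n)).rho (frv (tv t) (tv t).2))
      ((CA (Y.H n) (Y.hbar n)).rho (tmv p hp (tv t) (tv t).2)), U'.ρ n x = 0 := by
    intro n t a ha
    refine UD_ρ_eq_zero hpO Mo' n ?_
    refine (Y.H n i').ext_ev fun y => ?_
    rw [map_zero]
    refine (J1_le (CA (Y.H n) (Y.hbar n)) hp hpO hT (CA_contS _ _) t
      (pt (Y.H n) (Y.hbar n) i' y : Y.A n →+* (Y.H n i').P y) ?_) ha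
    change pt (Y.H n) (Y.hbar n) i' y _ = 2
    rw [pt_t, h1p n t y]
  have hPu : IsUnit (((pp : ℕ) : O) + 1) := by
    rw [hpp]
    by_contra hcon
    have h2 : (p : O) + 1 ∈ maximalIdeal O := (mem_maximalIdeal _).mpr hcon
    have h3 : (1 : O) ∈ maximalIdeal O := by
      have := Ideal.sub_mem _ h2 hpO
      rwa [add_sub_cancel_left] at this
    exact (Ideal.ne_top_iff_one _).mp (maximalIdeal.isMaximal O).ne_top h3
  have hPf : ∀ n, (Y.res cp n : Y.A n →+* (Y.comap cp).A n)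
      (algebraMap O (Y.A n) (((pp : ℕ) : O) + 1)) = (p : (Y.comap cp).A n) + 1 := by
    intro n
    rw [map_add, map_add, map_one, map_one, map_natCast, map_natCast, hpp]
  have hye' : ∀ n, (Y.res cp n : Y.A n →+* (Y.comap cp).A n)
      (algebraMap O (Y.A n) (((pp : ℕ) : O) + 1)) *
      (Y.res cp n : Y.A n →+* (Y.comap cp).A n)
      (algebraMap O (Y.A n) (((pp : ℕ) : O) + 1)) - tp n * tp n = y n * e n := by
    intro n
    rw [hPf, ← hye n, pow_two, pow_two]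
  have hT12 : ∀ n (x : (Mo (Fin.last m) n).M), Rp.Tq n x = Uf.ρ n (tp n) x := fun n x =>
    (hTp n x).trans (Y.UDr_ρ' hpO cp (Fin.last m) (Mo (Fin.last m)) n (tp n) x).symm
  by_cases hd' : 2 * d (Fin.last m) < d'
  · refine ⟨hd', ?_⟩
    let YC := Rp.YC hpO hϖ hd' (fun _ : Unit => w)
    let ψ : ∀ n, Y.A n →+* YC.A n := fun n =>
      (Rp.psi hpO hϖ hd' (fun _ : Unit => w) n : Y.A n →+* YC.A n)
    have hψ : ∀ n, Function.Surjective (ψ n) := Rp.psi_surjective hpO hϖ hd' (fun _ : Unit => w)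
    let Us : UData S (fun n => JJ O hpO (Y.e n)) YC.A
      (fun n => (ψ n).comp (Y.thA hpO n : S →+* Y.A n)) := Rp.UCs hpO hϖ hd' (fun _ : Unit => w)
    have hUs : ∀ n (a : Y.A n), Us.ρ n (ψ n a) = (Rp.UC hpO hϖ).ρ n a := fun n a =>
      Rp.UCs_ρ hpO hϖ hd' (fun _ : Unit => w) n a
    choose φs hφss hφsi hφsΦ hφsS using fun n =>
      haveI := hloc YC n
      exists_phi P (algebraMap O (YC.A n)) (hres YC n)
        (CA (YC.H n) (YC.hbar n)).resB
        (CA (YC.H n) (YC.hbar n)).surj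
        (fun t => (CA (YC.H n) (YC.hbar n)).rho (frv (tv t) (tv t).2))
        (fun t => (CA (YC.H n) (YC.hbar n)).rho (tmv p hp (tv t) (tv t).2))
        (hdΦ YC n) (hdS YC n) (hΦm YC n) (hSm YC n)
        (finrank_tan (YC.H n) (YC.hbar n) hp hpO hT (hSels hd' n))
    choose θs hθs hθsi using fun n =>
      exists_theta (σ := Fin m × Fin 3) P.i (algebraMap O (YC.A n)) (φs n) (hφss n)
        (hφsi n) ((ψ n).comp (Y.thA hpO n : S →+* Y.A n))
        (fun o => by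
          have h3 : Y.thA hpO n (MvPowerSeries.C o) = algebraMap O (Y.A n) o :=
            (Y.thA hpO n).commutes o
          change Rp.psi hpO hϖ hd' (fun _ : Unit => w) n (Y.thA hpO n (MvPowerSeries.C o)) = _
          rw [h3, AlgHom.commutes])
        (fun i => mem_maximalIdeal_of_surj (ψ n) (hψ n) (hthm n i))
    have hsi : ∀ n (o : O), φs n (P.i o) = MvPowerSeries.C (ψ n (algebraMap O (Y.A n) o)) := by
      intro n o
      rw [hφsi]
      exact congrArg _ ((Rp.psi hpO hϖ hd' (fun _ : Unit => w) n).commutes o).symm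
    have hsΦ : ∀ n t, (P.Φ t).map (φs n) =
        frM (((CA (Y.H n) (Y.hbar n)).rho (frv (tv t) (tv t).2)).map (ψ n)) t := by
      intro n t
      rw [hφsΦ]
      exact congrArg (fun M => frM M t) (Rp.psi_rho hpO hϖ hd' (fun _ : Unit => w) n _).symm
    have hsS : ∀ n t, (P.S t).map (φs n) =
        frM (((CA (Y.H n) (Y.hbar n)).rho (tmv p hp (tv t) (tv t).2)).map (ψ n)) t := by
      intro n t
      rw [hφsS]
      exact congrArg (fun M => frM M t) (Rp.psi_rho hpO hϖ hd' (fun _ : Unit => w) n _).symm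
    have key := pstep (O := toCLR O) (IsUnit.of_mul_eq_one_right _ D.h2) (m := m)
      (fun t => ((tv t : ℕ) : O)) hq1' hq2' Φ₀ hdet₀ ε hε htr₀ r (F := F) hJ
      (A := fun n => Y.A n) (Af := fun n => (Y.comap cp).A n) (As := fun n => YC.A n)
      (fun n => algebraMap O (Y.A n))
      (fun n => (Y.res cp n : Y.A n →+* (Y.comap cp).A n)) ψ
      (θA := fun n => (Y.thA hpO n : S →+* Y.A n))
      (fun n t => (CA (Y.H n) (Y.hbar n)).rho (frv (tv t) (tv t).2))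
      (fun n t => (CA (Y.H n) (Y.hbar n)).rho (tmv p hp (tv t) (tv t).2))
      U' Uf Us
      (fun n t a ha => by
        rw [hUs]
        refine LinearMap.ext fun x => ?_
        obtain ⟨x, rfl⟩ := Rp.qC_surj hpO hϖ n x
        have h3 : (Y.UD hpO i' Mo').ρ n a = 0 := hkill n t a ha
        rw [← Rp.qC_ρ, h3, LinearMap.zero_apply, map_zero]
        rfl)
      (Rp.i₁S hpO) (Rp.i₂S hpO) (Rp.j₁S hpO) (Rp.j₂S hpO) (Rp.qC hpO hϖ)
      (fun n => (LinearMap.fst S _ _) ∘ₗ (Rp.ret hpO hϖ n))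
      (fun n => (LinearMap.snd S _ _) ∘ₗ (Rp.ret hpO hϖ n))
      (Rp.secC hpO hϖ)
      (fun n x => by
        have h3 := Rp.secC_qC hpO hϖ n x
        have h4 : Rp.iS hpO n (Rp.ret hpO hϖ n x) + Rp.secC hpO hϖ n (Rp.qC hpO hϖ n x) = x := by
          rw [h3, add_sub_cancel]
        exact h4.symm)
      (fun n a b => Rp.jS_surj hpO hϖ n a b)
      (fun n a x => by
        rw [hUf]
        exact Rp.j₁_smul n a x)
      (fun n a x => by
        rw [hUf]
        exact Rp.j₂_smul n a x)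
      (fun n a x => by
        rw [hUs]
        exact Rp.qC_ρ hpO hϖ n a x)
      (((pp : ℕ) : O) + 1) hPu tp
      (fun n x => by
        rw [hUf]
        exact Rp.D11 n x)
      (fun n x => (Rp.comp12 n x).trans (hT12 n x))
      (fun n x => (Rp.comp21 n x).trans (hT12 n x))
      (fun n x => by
        rw [hUf]
        exact Rp.D22 n x)
      y e hye' P hP hP' φf hfi hfΦ hfS hφfX hθf φs hsi hsΦ hsS hθs hM
    let x : YC.A₀ →ₐ[O] O := xw.comp (pr YC.H₀ YC.hbar₀ (some ()))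
    have hx : ∀ g, x ((CA YC.H₀ YC.hbar₀).t g) = tW g := fun g => by
      change xw (pr YC.H₀ YC.hbar₀ (some ()) _) = _
      rw [pr_t]
      exact hW g
    haveI : Finite (ResidueField YC.A₀) := finite_residueField_A₀
    have hJst : ∀ n t (e : O), (Jst (P.i e) (P.i ((tv t : ℕ) : O)) (P.Φ t) (P.S t)).map (φs n) =
        (Jst (algebraMap O (YC.A n) e) (algebraMap O (YC.A n) ((tv t : ℕ) : O))
          ((CA (YC.H n) (YC.hbar n)).rho (frv (tv t) (tv t).2))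
          ((CA (YC.H n) (YC.hbar n)).rho (tmv p hp (tv t) (tv t).2))).map
          (MvPowerSeries.C : YC.A n →+* MvPowerSeries (Fin m × Fin 3) (YC.A n)) := by
      intro n t e
      rw [map_Jst, hφsi, hφsi, hφsΦ, hφsS, Jst_frM]
    have hfin := UBase.ker_le (Rp.UBCs hpO hϖ hd' (fun _ : Unit => w)) φs hθs hφss hJ
      (P.K ⊥ (fun t => .st (ε t))) key (x : YC.A₀ →+* O) (by
        intro n r hr
        have h3 : P.K ⊥ (fun t => .st (ε t)) ≤ ((⨆ t, Jst (algebraMap O (YC.A n) (ε t))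
            (algebraMap O (YC.A n) ((tv t : ℕ) : O))
            ((CA (YC.H n) (YC.hbar n)).rho (frv (tv t) (tv t).2))
            ((CA (YC.H n) (YC.hbar n)).rho (tmv p hp (tv t) (tv t).2))).map
            (MvPowerSeries.C : YC.A n →+* MvPowerSeries (Fin m × Fin 3) (YC.A n))).comap
            (φs n) := by
          refine P.K_bot_le fun t => ?_
          change Jst (P.i (ε t)) (P.i ((tv t : ℕ) : O)) (P.Φ t) (P.S t) ≤ _
          rw [← Ideal.map_le_iff_le_comap, hJst, Ideal.map_iSup]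
          exact le_iSup (fun t => (Jst (algebraMap O (YC.A n) (ε t))
            (algebraMap O (YC.A n) ((tv t : ℕ) : O))
            ((CA (YC.H n) (YC.hbar n)).rho (frv (tv t) (tv t).2))
            ((CA (YC.H n) (YC.hbar n)).rho (tmv p hp (tv t) (tv t).2))).map
            (MvPowerSeries.C : YC.A n →+* MvPowerSeries (Fin m × Fin 3) (YC.A n))) t
        have h4 := coeff_mem_of_mem_map_C (h3 hr) 0
        rw [MvPowerSeries.coeff_zero_eq_constantCoeff_apply] at h4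
        have h5 : (⨆ t, Jst (algebraMap O (YC.A n) (ε t))
            (algebraMap O (YC.A n) ((tv t : ℕ) : O))
            ((CA (YC.H n) (YC.hbar n)).rho (frv (tv t) (tv t).2))
            ((CA (YC.H n) (YC.hbar n)).rho (tmv p hp (tv t) (tv t).2))) ≤
            RingHom.ker ((x : YC.A₀ →+* O).comp (YC.π n : YC.A n →+* YC.A₀)) := by
          refine iSup_le fun t => ?_
          refine C_Jst (CA (YC.H n) (YC.hbar n)) hp hpO hT (CA_contS _ _)
            Function.injective_id (x.comp (YC.π n)) t ?_ (hε t) ?_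
          · change x (YC.π n _) = 2
            rw [π_t, hx, hW1]
          · change x (YC.π n _) = _
            rw [π_t, hx, hW2]
            rfl
        exact h5 h4)
    obtain ⟨y, hy⟩ := (YC.H₀ none).exists_point (pr YC.H₀ YC.hbar₀ none) x
      (fun a ha => by
        apply hfin
        obtain ⟨b, rfl⟩ := Rp.psi₀_surjective hpO hϖ hd' (fun _ : Unit => w) a
        rw [RingHom.mem_ker]
        refine (Rp.UBCs_ρ₀ hpO hϖ hd' (fun _ : Unit => w) b).trans ?_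
        exact (Ideal.Quotient.eq_zero_iff_mem (I := Rp.aC₀ hpO hϖ)).mp ha)
    refine ⟨y, fun g => ?_⟩
    have h3 := hy ((CA YC.H₀ YC.hbar₀).t g)
    rw [pr_t, CData.ev_C, hx] at h3
    exact h3
  · exfalso
    haveI hps := ps_subsingleton (Fin m × Fin 3)
    have key := pstep (O := toCLR O) (IsUnit.of_mul_eq_one_right _ D.h2) (m := m)
      (fun t => ((tv t : ℕ) : O)) hq1' hq2' Φ₀ hdet₀ ε hε htr₀ r (F := F) hJ
      (A := fun n => Y.A n) (Af := fun n => (Y.comap cp).A n) (As := fun n => PUnit.{1})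
      (fun n => algebraMap O (Y.A n))
      (fun n => (Y.res cp n : Y.A n →+* (Y.comap cp).A n)) (fun n => toPUnit (Y.A n))
      (θA := fun n => (Y.thA hpO n : S →+* Y.A n))
      (fun n t => (CA (Y.H n) (Y.hbar n)).rho (frv (tv t) (tv t).2))
      (fun n t => (CA (Y.H n) (Y.hbar n)).rho (tmv p hp (tv t) (tv t).2))
      U' Uf (UData.zero _ _)
      (fun n t a ha => rfl)
      (Rp.i₁S hpO) (Rp.i₂S hpO) (Rp.j₁S hpO) (Rp.j₂S hpO) (fun n => 0)
      (fun n => (LinearMap.fst S _ _) ∘ₗ (Rp.ret hpO hϖ n))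
      (fun n => (LinearMap.snd S _ _) ∘ₗ (Rp.ret hpO hϖ n))
      (fun n => 0)
      (fun n x => by
        obtain ⟨z, rfl⟩ := Rp.iS_surjective hpO hϖ hd' n x
        have h4 : Rp.iS hpO n z = Rp.iS hpO n (Rp.ret hpO hϖ n (Rp.iS hpO n z)) + 0 := by
          rw [Rp.ret_iS, add_zero]
        exact h4)
      (fun n a b => Rp.jS_surj hpO hϖ n a b)
      (fun n a x => by
        rw [hUf]
        exact Rp.j₁_smul n a x)
      (fun n a x => by
        rw [hUf]
        exact Rp.j₂_smul n a x)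
      (fun n a x => rfl)
      (((pp : ℕ) : O) + 1) hPu tp
      (fun n x => by
        rw [hUf]
        exact Rp.D11 n x)
      (fun n x => (Rp.comp12 n x).trans (hT12 n x))
      (fun n x => (Rp.comp21 n x).trans (hT12 n x))
      (fun n x => by
        rw [hUf]
        exact Rp.D22 n x)
      y e hye' P hP hP' φf hfi hfΦ hfS hφfX hθf (fun n => toPS P.R (Fin m × Fin 3))
      (fun n o => Subsingleton.elim _ _) (fun n t => Matrix.ext fun _ _ => Subsingleton.elim _ _)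
      (fun n t => Matrix.ext fun _ _ => Subsingleton.elim _ _) (θs := θf)
      (fun n => RingHom.ext fun _ => Subsingleton.elim _ _) hM
    obtain ⟨k1, -, -, -⟩ := hP ⊥ (fun t => .st (ε t)) (fun t => by
      have := Pack.ok_tyS (O := toCLR O) (q := fun t => ((tv t : ℕ) : O)) ε htr₀ hε
        (Fin.last m) t ⊥
      rw [Pack.tyS, if_pos (Fin.castSucc_lt_last t)] at this
      exact this)
    change (P.K ⊥ (fun t => .st (ε t))).IsPrime at k1
    apply k1.ne_top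
    rw [Ideal.eq_top_iff_one]
    apply key
    rw [Module.mem_annihilator]
    intro x
    exact funext fun i : Fin 0 => i.elim0

include hpO in
/-- **THE STEP AT `p`** for systems of components (the hard case).  The components `cp j` form the
flat tower of `Sys.modularityLifting`; `Y.comap cp` is the system of flat components, `Rp` is the
level raising datum at `p` from the top `cp (Fin.last m)` of the tower to the component `i'` (of level
`N p`), and `Rp.YC` is the system whose components are the cokernel of `Rp` (component `none`) and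
the component `w` of the representation to be lifted (component `some ()`).  The conclusion is a
point of the cokernel with the traces of `w`. -/
theorem hardCase {Y : Sys D p r κ} {ϖ : O} {m : ℕ} {tv : Fin m → Nat.Primes}
    (hϖ : maximalIdeal O = Ideal.span {ϖ}) (hT : FrD D p tv)
    (ε : Fin m → O) (hε : ∀ t, ε t ^ 2 = 1)
    (htr : ∀ t, (D.rbar (frv (tv t) (tv t).2)).trace = D.res (ε t * (((tv t : ℕ) : O) + 1)))
    (he : ∀ n j, n ≤ Y.e n j)
    (cp : Fin (m + 1) → κ) (d : Fin (m + 1) → ℕ)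
    (Mo : ∀ (j : Fin (m + 1)) (n : ℕ), MData (Y.H n (cp j)) p (Y.qv n) (Y.e n) (d j))
    (Z : ∀ j, Y.BData (cp j) (Mo j)) (j₀ : Fin (m + 1))
    (R : ∀ t : Fin m, j₀ ≤ t.castSucc → RaiseD Y (Z t.castSucc) (Z t.succ) (tv t) ϖ)
    (hunr : ∀ (n : ℕ) (j : Fin (m + 1)) (t : Fin m), j₀ ≤ j → j ≤ t.castSucc →
      ∀ x g, (Y.H n (cp j)).t x (tmv p (Fact.out : p.Prime) (tv t) (tv t).2 * g) =
        (Y.H n (cp j)).t x g)
    (h1 : ∀ (n : ℕ) (j : Fin (m + 1)) (t : Fin m), j₀ ≤ j → t.castSucc < j →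
      ∀ x, (Y.H n (cp j)).t x (tmv p (Fact.out : p.Prime) (tv t) (tv t).2) = 2)
    (hst : ∀ (n : ℕ) (t : Fin m), t.castSucc < j₀ → ∀ x,
      (Y.H n (cp j₀)).t x (frv (tv t) (tv t).2) = algebraMap O _ (ε t * (((tv t : ℕ) : O) + 1)))
    (hTq : ∀ (t : Fin m) (h : j₀ ≤ t.castSucc) (n : ℕ) x, (R t h).Tq n x =
      ((Y.H n (cp t.castSucc)).C (Y.hbar n)).t (frv (tv t) (tv t).2) • x)
    (h1' : ∀ (t : Fin m), j₀ ≤ t.castSucc → ∀ y,
      (Y.H₀ (cp t.succ)).t y (tmv p (Fact.out : p.Prime) (tv t) (tv t).2) = 2)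
    (hnew : ∀ (t : Fin m) (h : j₀ ≤ t.castSucc) (y : (Y.H₀ (cp t.succ)).X),
      (Y.H₀ (cp t.succ)).t y (frv (tv t) (tv t).2) ^ 2 =
        (((tv t : ℕ) : (Y.H₀ (cp t.succ)).P y) + 1) ^ 2 ∨
      ∃ b : Y.A₀, (Y.H₀ (cp t.succ)).ev y (pr Y.H₀ Y.hbar₀ (cp t.succ) b) ≠ 0 ∧
        ∀ x : (Z t.succ).N, ∃ u v : (Z t.castSucc).N,
          pr Y.H₀ Y.hbar₀ (cp t.succ) b • x = (R t h).I₁ u + (R t h).I₂ v)
    (hbd : ∀ (t : Fin m), j₀ ≤ t.castSucc → ∀ y,
      (Y.H₀ (cp t.castSucc)).t y (frv (tv t) (tv t).2) ^ 2 ≠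
        (((tv t : ℕ) : (Y.H₀ (cp t.castSucc)).P y) + 1) ^ 2)
    (hd : d j₀ ≠ 0)
    -- the step at `p`
    {pp : Nat.Primes} (hpp : (pp : ℕ) = p) {i' : κ} {d' : ℕ}
    {Mo' : ∀ n, MData (Y.H n i') p (Y.qv n) (Y.e n) d'} {Z' : Y.BData i' Mo'}
    (Rp : RaiseD Y (Z (Fin.last m)) Z' pp ϖ)
    (h1p : ∀ (n : ℕ) (t : Fin m) x,
      (Y.H n i').t x (tmv p (Fact.out : p.Prime) (tv t) (tv t).2) = 2)
    -- `T_p` and `y`
    (tp y e : ∀ n, (Y.comap cp).A n)
    (hy : ∀ n, y n ∈ maximalIdeal ((Y.comap cp).A n))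
    (hTp : ∀ n x, Rp.Tq n x =
      pr ((Y.comap cp).H n) ((Y.comap cp).hbar n) (Fin.last m) (tp n) • x)
    (hye : ∀ n, ((p : (Y.comap cp).A n) + 1) ^ 2 - tp n ^ 2 = y n * e n)
    (hSelI : ∀ n, SelBQ ((Y.comap cp).H n) ((Y.comap cp).hbar n) r tv (fun δ => δ (y n) = 0))
    -- the strict trace rings
    (w : κ)
    (hSels : ∀ (hd' : 2 * d (Fin.last m) < d') n,
      SelB ((Rp.YC hpO hϖ hd' (fun _ : Unit => w)).H n)
        ((Rp.YC hpO hϖ hd' (fun _ : Unit => w)).hbar n) r tv)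
    (xw : (Y.H₀ w).B →ₐ[O] O) (tW : GQ → O)
    (hW : ∀ g, xw (((Y.H₀ w).C Y.hbar₀).t g) = tW g)
    (hW1 : ∀ t, tW (tmv p (Fact.out : p.Prime) (tv t) (tv t).2) = 2)
    (hW2 : ∀ t, tW (frv (tv t) (tv t).2) = ε t * (((tv t : ℕ) : O) + 1)) :
    ∃ (hd' : 2 * d (Fin.last m) < d')
      (x : ((Rp.YC hpO hϖ hd' (fun _ : Unit => w)).H₀ none).X), ∀ g,
      ((Rp.YC hpO hϖ hd' (fun _ : Unit => w)).H₀ none).t x g = algebraMap O _ (tW g) := by
  obtain ⟨r', rfl⟩ : ∃ r', r = r' + 1 := by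
    have := one_le_of_SelBQ _ _ (hSelI 0)
    exact ⟨r - 1, by omega⟩
  exact hardCase_aux hpO hϖ hT ε hε htr he cp d Mo Z j₀ R hunr h1 hst hTq h1' hnew hbd hd
    hpp Rp h1p tp y e hy hTp hye hSelI w hSels xw tW hW hW1 hW2

include hpO in
/-- **THE STEP AT `p`**, underlying point of level `N p`. -/
theorem hardCase' {Y : Sys D p r κ} {ϖ : O} {m : ℕ} {tv : Fin m → Nat.Primes}
    (hϖ : maximalIdeal O = Ideal.span {ϖ}) (hT : FrD D p tv)
    (ε : Fin m → O) (hε : ∀ t, ε t ^ 2 = 1)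
    (htr : ∀ t, (D.rbar (frv (tv t) (tv t).2)).trace = D.res (ε t * (((tv t : ℕ) : O) + 1)))
    (he : ∀ n j, n ≤ Y.e n j)
    (cp : Fin (m + 1) → κ) (d : Fin (m + 1) → ℕ)
    (Mo : ∀ (j : Fin (m + 1)) (n : ℕ), MData (Y.H n (cp j)) p (Y.qv n) (Y.e n) (d j))
    (Z : ∀ j, Y.BData (cp j) (Mo j)) (j₀ : Fin (m + 1))
    (R : ∀ t : Fin m, j₀ ≤ t.castSucc → RaiseD Y (Z t.castSucc) (Z t.succ) (tv t) ϖ)
    (hunr : ∀ (n : ℕ) (j : Fin (m + 1)) (t : Fin m), j₀ ≤ j → j ≤ t.castSucc →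
      ∀ x g, (Y.H n (cp j)).t x (tmv p (Fact.out : p.Prime) (tv t) (tv t).2 * g) =
        (Y.H n (cp j)).t x g)
    (h1 : ∀ (n : ℕ) (j : Fin (m + 1)) (t : Fin m), j₀ ≤ j → t.castSucc < j →
      ∀ x, (Y.H n (cp j)).t x (tmv p (Fact.out : p.Prime) (tv t) (tv t).2) = 2)
    (hst : ∀ (n : ℕ) (t : Fin m), t.castSucc < j₀ → ∀ x,
      (Y.H n (cp j₀)).t x (frv (tv t) (tv t).2) = algebraMap O _ (ε t * (((tv t : ℕ) : O) + 1)))
    (hTq : ∀ (t : Fin m) (h : j₀ ≤ t.castSucc) (n : ℕ) x, (R t h).Tq n x =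
      ((Y.H n (cp t.castSucc)).C (Y.hbar n)).t (frv (tv t) (tv t).2) • x)
    (h1' : ∀ (t : Fin m), j₀ ≤ t.castSucc → ∀ y,
      (Y.H₀ (cp t.succ)).t y (tmv p (Fact.out : p.Prime) (tv t) (tv t).2) = 2)
    (hnew : ∀ (t : Fin m) (h : j₀ ≤ t.castSucc) (y : (Y.H₀ (cp t.succ)).X),
      (Y.H₀ (cp t.succ)).t y (frv (tv t) (tv t).2) ^ 2 =
        (((tv t : ℕ) : (Y.H₀ (cp t.succ)).P y) + 1) ^ 2 ∨
      ∃ b : Y.A₀, (Y.H₀ (cp t.succ)).ev y (pr Y.H₀ Y.hbar₀ (cp t.succ) b) ≠ 0 ∧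
        ∀ x : (Z t.succ).N, ∃ u v : (Z t.castSucc).N,
          pr Y.H₀ Y.hbar₀ (cp t.succ) b • x = (R t h).I₁ u + (R t h).I₂ v)
    (hbd : ∀ (t : Fin m), j₀ ≤ t.castSucc → ∀ y,
      (Y.H₀ (cp t.castSucc)).t y (frv (tv t) (tv t).2) ^ 2 ≠
        (((tv t : ℕ) : (Y.H₀ (cp t.castSucc)).P y) + 1) ^ 2)
    (hd : d j₀ ≠ 0)
    -- the step at `p`
    {pp : Nat.Primes} (hpp : (pp : ℕ) = p) {i' : κ} {d' : ℕ}
    {Mo' : ∀ n, MData (Y.H n i') p (Y.qv n) (Y.e n) d'} {Z' : Y.BData i' Mo'}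
    (Rp : RaiseD Y (Z (Fin.last m)) Z' pp ϖ)
    (h1p : ∀ (n : ℕ) (t : Fin m) x,
      (Y.H n i').t x (tmv p (Fact.out : p.Prime) (tv t) (tv t).2) = 2)
    -- `T_p` and `y`
    (tp y e : ∀ n, (Y.comap cp).A n)
    (hy : ∀ n, y n ∈ maximalIdeal ((Y.comap cp).A n))
    (hTp : ∀ n x, Rp.Tq n x =
      pr ((Y.comap cp).H n) ((Y.comap cp).hbar n) (Fin.last m) (tp n) • x)
    (hye : ∀ n, ((p : (Y.comap cp).A n) + 1) ^ 2 - tp n ^ 2 = y n * e n)
    (hSelI : ∀ n, SelBQ ((Y.comap cp).H n) ((Y.comap cp).hbar n) r tv (fun δ => δ (y n) = 0))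
    -- the strict trace rings
    (w : κ)
    (hSels : ∀ (hd' : 2 * d (Fin.last m) < d') n,
      SelB ((Rp.YC hpO hϖ hd' (fun _ : Unit => w)).H n)
        ((Rp.YC hpO hϖ hd' (fun _ : Unit => w)).hbar n) r tv)
    (xw : (Y.H₀ w).B →ₐ[O] O) (tW : GQ → O)
    (hW : ∀ g, xw (((Y.H₀ w).C Y.hbar₀).t g) = tW g)
    (hW1 : ∀ t, tW (tmv p (Fact.out : p.Prime) (tv t) (tv t).2) = 2)
    (hW2 : ∀ t, tW (frv (tv t) (tv t).2) = ε t * (((tv t : ℕ) : O) + 1)) :
    ∃ x : (Y.H₀ i').X, ∀ g, (Y.H₀ i').t x g = algebraMap O _ (tW g) := by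
  obtain ⟨hd', x, hx⟩ := hardCase hpO hϖ hT ε hε htr he cp d Mo Z j₀ R hunr h1 hst hTq h1' hnew hbd
    hd hpp Rp h1p tp y e hy hTp hye hSelI w hSels xw tW hW hW1 hW2
  exact ⟨Rp.ptC₀ hpO hϖ hd' _ x, hx⟩

end Sys

end Fermat.Agent.H25.GE
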