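import Fermat.Agent.H19.A8
import Fermat.Agent.H12.LL.RDW2

/-!
# Killers of newforms at primes where the curve has the wrong trace
-/

set_option autoImplicit false
set_option linter.unusedSectionVars false
set_option linter.style.haveILetI false

noncomputable section

namespace Fermat.Agent.TFin

open CongruenceSubgroup
open Fermat.Agent Fermat.Agent.H22 Fermat.Agent.H16 Fermat.Agent.AL Fermat.Agent.TC
open Fermat.Agent.H19.A8 Fermat.Agent.Ell Fermat.Agent.H12.LL Fermat.Agent.H05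
open IsLocalRing WeierstrassCurve
open scoped MatrixGroups
open ModularFormClass (qCoeff)

section Self

variable {p : ℕ} [hp : Fact p.Prime] {M D : ℕ} [NeZero M]

/-- If the form `f` itself does not realise `a`, it is killed by an integral polynomial not
vanishing at `a`. -/
theorem exists_kill_self {f : CuspForm (Gamma0 M) 2} (hf : f.IsNormalizedEigenform)
    {a : Pr D → ZMod p}
    (hno : ∀ 𝔪 : Ideal (integralClosure ℤ ℂ), 𝔪.IsMaximal → (p : integralClosure ℤ ℂ) ∈ 𝔪 →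
      ¬ ∀ ℓ : Pr D, ∃ x : integralClosure ℤ ℂ, (x : ℂ) = qCoeff f ℓ ∧
        x - (((a ℓ).val : ℕ) : integralClosure ℤ ℂ) ∈ 𝔪) :
    ∃ z : MvPolynomial (Pr D) ℤ, MvPolynomial.aeval (fun ℓ : Pr D => qCoeff f ℓ) z = 0 ∧
      evp a z ≠ 0 := by
  by_contra hcon
  push Not at hcon
  have hint : ∀ ℓ : Pr D, IsIntegral ℤ (qCoeff f ℓ) := fun ℓ => isIntegral_qCoeff_prime hf ℓ.2.1
  let x : Pr D → integralClosure ℤ ℂ := fun ℓ => ⟨qCoeff f ℓ, hint ℓ⟩
  let g : MvPolynomial (Pr D) ℤ →+* integralClosure ℤ ℂ := (MvPolynomial.aeval x).toRingHom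
  letI : Algebra (MvPolynomial (Pr D) ℤ) (integralClosure ℤ ℂ) := g.toAlgebra
  have hint2 : Algebra.IsIntegral (MvPolynomial (Pr D) ℤ) (integralClosure ℤ ℂ) := by
    have : IsScalarTower ℤ (MvPolynomial (Pr D) ℤ) (integralClosure ℤ ℂ) :=
      IsScalarTower.of_algebraMap_eq' (RingHom.ext_int _ _)
    exact Algebra.IsIntegral.tower_top (R := ℤ)
  have hmax := ker_evp_isMaximal (p := p) a
  obtain ⟨Q, hQ, hQc⟩ := Ideal.exists_ideal_over_maximal_of_isIntegral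
    (S := integralClosure ℤ ℂ) (RingHom.ker (evp a)) (fun z hz => by
      refine hcon z ?_
      have h1 : g z = 0 := hz
      have h2 := ev_int_closure x z
      rw [← h2]
      exact congrArg Subtype.val h1)
  have hmem : ∀ z, evp a z = 0 → g z ∈ Q := fun z hz => by
    have h1 : z ∈ Q.comap (algebraMap (MvPolynomial (Pr D) ℤ) (integralClosure ℤ ℂ)) := by
      rw [hQc]; exact hz
    exact h1
  refine hno Q hQ ?_ fun ℓ => ⟨x ℓ, rfl, ?_⟩
  · have h1 := hmem (MvPolynomial.C (p : ℤ)) (by rw [evp_C]; simp)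
    have h2 : g (MvPolynomial.C (p : ℤ)) = (p : integralClosure ℤ ℂ) := by
      change MvPolynomial.aeval x (MvPolynomial.C (p : ℤ)) = _
      rw [MvPolynomial.aeval_C]
      simp
    rwa [h2] at h1
  · have h1 := hmem (MvPolynomial.X ℓ - MvPolynomial.C (((a ℓ).val : ℕ) : ℤ)) (by
      rw [map_sub, evp_X, evp_C, Int.cast_natCast, ZMod.natCast_zmod_val, sub_self])
    have h2 : g (MvPolynomial.X ℓ - MvPolynomial.C (((a ℓ).val : ℕ) : ℤ)) =
        x ℓ - (((a ℓ).val : ℕ) : integralClosure ℤ ℂ) := by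
      change MvPolynomial.aeval x _ = _
      rw [map_sub, MvPolynomial.aeval_X, MvPolynomial.aeval_C]
      simp
    rwa [h2] at h1

end Self

section K2

variable (W : WeierstrassCurve ℤ) (p : ℕ) [hp : Fact p.Prime]

/-- The statement K1 (helper19): a newform with `q ∥ L` congruent to the curve. -/
def K1Stmt : Prop := ∀ {L : ℕ} [NeZero L] {g : CuspForm (Gamma0 L) 2} (_ : g.IsNewform)
    {𝔪 : Ideal (integralClosure ℤ ℂ)} (_ : 𝔪.IsMaximal)
    (_ : (p : integralClosure ℤ ℂ) ∈ 𝔪) (bad : Finset ℕ)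
    (_ : ∀ ℓ : ℕ, ℓ.Prime → ℓ ∉ bad → ∃ a : integralClosure ℤ ℂ, (a : ℂ) = qCoeff g ℓ ∧
      a - ((W.apOfModel ℓ : ℤ) : integralClosure ℤ ℂ) ∈ 𝔪) {q : ℕ} (_ : q.Prime) (_ : q ≠ p)
    (_ : q ∣ L) (_ : ¬ q ^ 2 ∣ L) {A : ValuationSubring (AlgebraicClosure ℚ)}
    (_ : A.LiesOverPrime q) {φ : AlgebraicClosure ℚ ≃ₐ[ℚ] AlgebraicClosure ℚ}
    (_ : A.IsFrobeniusAt φ q),
    (PadicInt.toZMod (LinearMap.trace ℤ_[p] (TT (WQ W) p) (rr (WQ W) p φ))) ^ 2 =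
      ((q : ZMod p) + 1) ^ 2

variable {W p}

/-- **K2** -/
theorem exists_killer_of_K1 (hΔ : W.Δ ≠ 0) (hirr : W.ModRepIsIrreducible p)
    (hK1 : K1Stmt W p) {D : ℕ} (hD : D ≠ 0) {L : ℕ} [NeZero L] {g : CuspForm (Gamma0 L) 2}
    (hg : g.IsNewform) {q : ℕ} (hq : q.Prime) (hqp : q ≠ p) (hqL : q ∣ L) (hqq : ¬ q ^ 2 ∣ L)
    (hgood : W.IsGoodPrimeFor q)
    (hne : ((W.apOfModel q : ℤ) : ZMod p) ^ 2 ≠ ((q : ZMod p) + 1) ^ 2)
    {k : Type*} [Field k] (ι : ZMod p →+* k) :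
    ∃ s : MvPolynomial (Pr D) ℤ, MvPolynomial.aeval (fun ℓ : Pr D => qCoeff g ℓ) s = 0 ∧
      MvPolynomial.aeval (fun ℓ : Pr D => ι ((W.apOfModel ℓ : ℤ) : ZMod p)) s ≠ 0 := by
  classical
  obtain ⟨s, hs, hs'⟩ := exists_kill_self (p := p) (D := D) hg.1
    (a := fun ℓ : Pr D => ((W.apOfModel ℓ : ℤ) : ZMod p)) (by
      intro 𝔪 h𝔪 hp𝔪 hcong
      haveI := H51.isGalois_Qbar
      obtain ⟨A, hA⟩ := exists_liesOverPrime (AlgebraicClosure ℚ) hq
      obtain ⟨φ, hφ⟩ := exists_isFrobeniusAt (L := AlgebraicClosure ℚ) hq hA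
      have h1 := hK1 hg h𝔪 hp𝔪 D.primeFactors (fun ℓ hℓ hℓD => by
        have hℓD' : ¬ ℓ ∣ D := fun h => hℓD (Nat.mem_primeFactors.mpr ⟨hℓ, h, hD⟩)
        obtain ⟨x, hx1, hx2⟩ := hcong ⟨ℓ, hℓ, hℓD'⟩
        exact ⟨x, hx1, (sub_val_mem_iff hp𝔪 rfl).mp hx2⟩) hq hqp hqL hqq hA hφ
      have h2 : LinearMap.trace ℤ_[p] (TT (WQ W) p) (rr (WQ W) p φ) = (W.apOfModel q : ℤ_[p]) :=
        zRep_trace_frob hΔ hirr hq hgood hqp hA hφ
      rw [h2, map_intCast] at h1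
      exact hne h1)
  refine ⟨s, hs, ?_⟩
  have h3 : MvPolynomial.aeval (fun ℓ : Pr D => ι ((W.apOfModel ℓ : ℤ) : ZMod p)) s =
      ι (evp (fun ℓ : Pr D => ((W.apOfModel ℓ : ℤ) : ZMod p)) s) := by
    rw [evp, MvPolynomial.coe_eval₂Hom, MvPolynomial.hom_eval₂, MvPolynomial.aeval_def]
    congr 1
    exact RingHom.ext_int _ _
  rw [h3]
  exact (map_ne_zero ι).mpr hs'

end K2

end Fermat.Agent.TFin
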