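import Mathlib
import Fermat.Agent.TFin.LiftFIn
import Fermat.Agent.TFin.Killer
import Fermat.Agent.H19.NewTrace

/-!
# Modularity lifting: the base data attached to a semistable curve
-/

set_option autoImplicit false
set_option linter.unusedSectionVars false
set_option linter.style.haveILetI false

noncomputable section

namespace Fermat.Agent.TFin

open Fermat.Agent.TC Fermat.Agent.TW Fermat.Agent.CC Fermat.Agent.H25.GE Fermat.Agent.H25.TR
open Fermat.Agent.Ell Fermat.Agent.H25 Fermat.Agent.H25.PR Fermat.Agent.H25.PT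
open Fermat.Agent.H22 Fermat.Agent.H12.LL Fermat.Agent.H25.SB Fermat.Agent.H25.GD
open IsLocalRing CongruenceSubgroup Matrix

section defs

/-- all primes dividing `p Δ` -/
def bigS (W : WeierstrassCurve ℤ) (p : ℕ) : Finset Nat.Primes :=
  ((p * W.Δ.natAbs).primeFactors).subtype Nat.Prime

open Classical in
/-- the bad primes different from `p` at which `W[p]` is unramified -/
def unrT (W : WeierstrassCurve ℤ) (p : ℕ) : Finset Nat.Primes :=
  (bigS W p).filter fun t => (t : ℕ) ≠ p ∧ UnrAt W p t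

variable {W : WeierstrassCurve ℤ} {p : ℕ}

theorem mem_bigS (hΔ : W.Δ ≠ 0) (hp : p.Prime) {q : Nat.Primes} :
    q ∈ bigS W p ↔ (q : ℕ) = p ∨ ((q : ℕ) : ℤ) ∣ W.Δ := by
  have h1 : q ∈ bigS W p ↔ (q : ℕ) ∈ (p * W.Δ.natAbs).primeFactors :=
    Finset.mem_subtype (p := Nat.Prime)
  rw [h1, Nat.mem_primeFactors, Int.natCast_dvd]
  constructor
  · rintro ⟨-, h2, -⟩
    rcases (Nat.Prime.dvd_mul q.2).mp h2 with h | h
    · exact Or.inl ((Nat.prime_dvd_prime_iff_eq q.2 hp).mp h)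
    · exact Or.inr h
  · intro h
    refine ⟨q.2, ?_, mul_ne_zero hp.ne_zero (Int.natAbs_ne_zero.mpr hΔ)⟩
    rcases h with h | h
    · exact (dvd_of_eq h).mul_right _
    · exact h.mul_left _

theorem mem_unrT (hΔ : W.Δ ≠ 0) (hp : p.Prime) {t : Nat.Primes} :
    t ∈ unrT W p ↔ ((t : ℕ) : ℤ) ∣ W.Δ ∧ (t : ℕ) ≠ p ∧ UnrAt W p t := by
  classical
  rw [unrT, Finset.mem_filter, mem_bigS hΔ hp]
  constructor
  · rintro ⟨h | h, h2, h3⟩
    · exact absurd h h2
    · exact ⟨h, h2, h3⟩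
  · rintro ⟨h1, h2, h3⟩
    exact ⟨Or.inr h1, h2, h3⟩

end defs

section

variable {W : WeierstrassCurve ℤ} {p : ℕ} [hp : Fact p.Prime]

/-- killers from the geometric inputs -/
theorem kill_of_Geo (hΔ : W.Δ ≠ 0) (hirr : W.ModRepIsIrreducible p) (G : Geo p) : Kill W p := by
  intro k _ ι D hD _ L _ g hg q hq hqp hqL hqq hgood hne
  refine exists_killer_of_K1 hΔ hirr ?_ hD hg hq hqp hqL hqq hgood hne ι
  intro L _ g hg 𝔪 h𝔪 hp𝔪 bad hcong q hq hqp hqL hqq A hA φ hφ
  exact H19.newform_trace_sq_of_geo hΔ G hirr hg h𝔪 hp𝔪 bad hcong hq hqp hqL hqq hA hφ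

/-- **The base data attached to a semistable curve.** -/
theorem exists_setup (hΔ : W.Δ ≠ 0) (hss : W.IsSemistableModel) (hirr : W.ModRepIsIrreducible p)
    (hp2 : p ≠ 2) (hGW : GWad p) (G : Geo p) :
    ∃ (O : Type) (_ : CommRing O) (_ : IsDomain O) (_ : IsDiscreteValuationRing O)
      (_ : IsAdicComplete (maximalIdeal O) O) (_ : Finite (ResidueField O)) (_ : CharZero O)
      (_ : Algebra ℤ_[p] O) (_ : IsLocalHom (algebraMap ℤ_[p] O)) (K : Type) (_ : Field K)
      (_ : CharZero K) (_ : IsAlgClosed K) (_ : Algebra O K) (_ : FaithfulSMul O K),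
      (p : O) ∈ maximalIdeal O ∧ ∃ I : FIn hΔ hirr hp2 O, I.S = bigS W p ∧
        I.D₀ = p * W.Δ.natAbs ∧ ∀ n, SelM (RDW hΔ hirr hp2 O) p ⟨p, hp.out⟩ (bigS W p) (unrT W p)
          I.r (fun j => ⟨(I.c n).q j, (I.c n).prime j⟩) := by
  classical
  have hp0 := hp.out
  have hpp : p ^ 2 - 1 ≠ 0 := by
    have h1 : 2 ≤ p := hp0.two_le
    have h2 : 4 ≤ p ^ 2 := by nlinarith
    omega
  obtain ⟨O, i1, i2, i3, i4, i5, i6, i7, i8, i9, hinj, ω, hω⟩ := exists_coeff p _ hpp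
  have hpO : (p : O) ∈ maximalIdeal O := p_mem_maxO O
  have hu : IsUnit ((p ^ 2 - 1 : ℕ) : O) := by
    by_contra hnu
    have h1 : ((p ^ 2 - 1 : ℕ) : O) ∈ maximalIdeal O := (mem_maximalIdeal _).mpr hnu
    have h2 : ((p ^ 2 : ℕ) : O) ∈ maximalIdeal O := by
      rw [Nat.cast_pow, pow_two]
      exact Ideal.mul_mem_left _ _ hpO
    have h3 : (1 : O) = ((p ^ 2 : ℕ) : O) - ((p ^ 2 - 1 : ℕ) : O) := by
      rw [← Nat.cast_sub (Nat.sub_le _ _)]
      have : p ^ 2 - (p ^ 2 - 1) = 1 := by omega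
      rw [this, Nat.cast_one]
    have h4 : (1 : O) ∈ maximalIdeal O := by
      rw [h3]; exact sub_mem h2 h1
    exact (Ideal.ne_top_iff_one _).mp (maximalIdeal.isMaximal O).ne_top h4
  have hζ := isPrimitiveRoot_residue hu hω
  let K := AlgebraicClosure (FractionRing O)
  haveI hK : FaithfulSMul O K := (faithfulSMul_iff_algebraMap_injective _ _).mpr (by
    rw [IsScalarTower.algebraMap_eq O (FractionRing O) K]
    exact (algebraMap (FractionRing O) K).injective.comp (IsFractionRing.injective O _))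
  haveI : CharZero K := charZero_of_injective_algebraMap (FaithfulSMul.algebraMap_injective O K)
  refine ⟨O, i1, i2, i3, i4, i5, i6, i7, i9, K, inferInstance, inferInstance, inferInstance,
    inferInstance, hK, hpO, ?_⟩
  refine exists_fIn hΔ hirr hp2 hGW (kill_of_Geo hΔ hirr G) G (nLIn_of_semistable hss) hζ hpO rfl
    ((mem_bigS hΔ hp0).mpr (Or.inl rfl)) (fun h => ((mem_unrT hΔ hp0).mp h).2.1 rfl)
    (Finset.filter_subset _ _) (fun q hq => ?_) (fun q hq hqT hqp hun => ?_)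
    (mul_ne_zero hp0.ne_zero (Int.natAbs_ne_zero.mpr hΔ)) (dvd_mul_right _ _)
    (fun q _ h => (Int.natCast_dvd.mp h).mul_left _)
  · rw [mem_bigS hΔ hp0, not_or] at hq
    exact unrAt_of_good q.2 hq.2 fun h => hq.1 ((Nat.prime_dvd_prime_iff_eq q.2 hp0).mp h)
  · have hqp' : (q : ℕ) ≠ p := fun h => hqp (Subtype.ext h)
    refine hqT ((mem_unrT hΔ hp0).mpr ⟨?_, hqp', hun⟩)
    exact ((mem_bigS hΔ hp0).mp hq).resolve_left hqp'

end

end Fermat.Agent.TFin
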