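import Mathlib
import Fermat.Agent.H12.LL.Top
import Fermat.Agent.H18R.Top

/-!
# Modularity lifting, step one: the minimal level

Let `W` be an integral model with `2 ∣ Δ`, `W[p]` irreducible and residually modular of an even
squarefree level.  We lower the level to a product of primes `q` at which `W[p]` is ramified, of `p`
if `W[p]` is not residually modular of any even squarefree level prime to `p`, and possibly of `2`.
-/

set_option autoImplicit false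
set_option linter.unusedSectionVars false
set_option linter.style.haveILetI false

noncomputable section

namespace Fermat.Agent.TFin

open Fermat.Agent.TW Fermat.Agent.CC Fermat.Agent.Ell Fermat.Agent.H12.LL
open IsLocalRing CongruenceSubgroup
open ModularFormClass (qCoeff)

/-- the primes of the minimal level (`b`: is `p` a prime of the level?) -/
def RamP (W : WeierstrassCurve ℤ) (p : ℕ) (b : Prop) (q : ℕ) : Prop :=
  (q ≠ p ∧ (q = 2 ∨ ¬ UnrAt W p q)) ∨ (q = p ∧ b)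

open Classical in
/-- the set of the primes of the minimal level -/
def nminSet (W : WeierstrassCurve ℤ) (p : ℕ) (b : Prop) : Finset Nat.Primes :=
  (W.Δ.natAbs.primeFactors.filter (RamP W p b)).subtype Nat.Prime

/-- the minimal level -/
def nmin (W : WeierstrassCurve ℤ) (p : ℕ) (b : Prop) : ℕ := Q0 (nminSet W p b)

/-- mode S: `p` divides all even squarefree levels -/
def ModeS (W : WeierstrassCurve ℤ) (p : ℕ) : Prop :=
  ∀ M : ℕ, Squarefree M → 2 ∣ M → W.IsResiduallyModularOfLevel p M → p ∣ M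

section

variable {W : WeierstrassCurve ℤ} {p : ℕ} {b : Prop}

theorem mem_nminSet (hΔ : W.Δ ≠ 0) {t : Nat.Primes} :
    t ∈ nminSet W p b ↔ ((t : ℕ) : ℤ) ∣ W.Δ ∧ RamP W p b t := by
  classical
  have h1 : t ∈ nminSet W p b ↔ (t : ℕ) ∈ W.Δ.natAbs.primeFactors.filter (RamP W p b) :=
    Finset.mem_subtype (p := Nat.Prime)
  rw [h1, Finset.mem_filter, Nat.mem_primeFactors]
  constructor
  · rintro ⟨⟨-, h2, -⟩, h3⟩
    exact ⟨Int.natCast_dvd.mpr h2, h3⟩
  · rintro ⟨h2, h3⟩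
    exact ⟨⟨t.2, Int.natCast_dvd.mp h2, Int.natAbs_ne_zero.mpr hΔ⟩, h3⟩

theorem nmin_pos (W : WeierstrassCurve ℤ) (p : ℕ) (b : Prop) : 0 < nmin W p b := Q0_pos _

theorem squarefree_nmin (W : WeierstrassCurve ℤ) (p : ℕ) (b : Prop) : Squarefree (nmin W p b) :=
  squarefree_Q0 _

/-- the prime divisors of the minimal level -/
theorem prime_dvd_nmin (hΔ : W.Δ ≠ 0) {q : ℕ} (hq : q.Prime) :
    q ∣ nmin W p b ↔ (q : ℤ) ∣ W.Δ ∧ RamP W p b q := by
  constructor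
  · intro h
    obtain ⟨t, ht, rfl⟩ := prime_dvd_Q0 hq h
    exact (mem_nminSet hΔ).mp ht
  · intro h
    exact dvd_Q0 (t := ⟨q, hq⟩) ((mem_nminSet hΔ).mpr h)

theorem two_dvd_nmin (hΔ : W.Δ ≠ 0) (hp2 : p ≠ 2) (h2 : (2 : ℤ) ∣ W.Δ) : 2 ∣ nmin W p b :=
  (prime_dvd_nmin hΔ Nat.prime_two).mpr ⟨by exact_mod_cast h2, Or.inl ⟨hp2.symm, Or.inl rfl⟩⟩

theorem p_dvd_nmin (hΔ : W.Δ ≠ 0) (hp : p.Prime) :
    p ∣ nmin W p b ↔ (p : ℤ) ∣ W.Δ ∧ b := by
  rw [prime_dvd_nmin hΔ hp]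
  refine and_congr_right fun _ => ?_
  constructor
  · rintro (h | h)
    · exact absurd rfl h.1
    · exact h.2
  · exact fun h => Or.inr ⟨rfl, h⟩

/-- ramified primes are bad -/
theorem dvd_disc_of_ram (hp : p.Prime) {q : ℕ} (hq : q.Prime) (hqp : q ≠ p)
    (h : ¬ UnrAt W p q) : (q : ℤ) ∣ W.Δ := by
  by_contra hgood
  exact h (unrAt_of_good hq hgood (fun hd => hqp ((Nat.prime_dvd_prime_iff_eq hq hp).mp hd)))

/-- the ramified primes divide the minimal level -/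
theorem dvd_nmin_of_ram (hΔ : W.Δ ≠ 0) (hp : p.Prime) {q : ℕ} (hq : q.Prime) (hqp : q ≠ p)
    (h : ¬ UnrAt W p q) : q ∣ nmin W p b :=
  (prime_dvd_nmin hΔ hq).mpr ⟨dvd_disc_of_ram hp hq hqp h, Or.inl ⟨hqp, Or.inr h⟩⟩

/-- away from `2` and `p` the primes of the minimal level are ramified -/
theorem not_unrAt_of_dvd_nmin (hΔ : W.Δ ≠ 0) {q : ℕ} (hq : q.Prime) (hq2 : q ≠ 2) (hqp : q ≠ p)
    (h : q ∣ nmin W p b) : ¬ UnrAt W p q := by
  rcases ((prime_dvd_nmin hΔ hq).mp h).2 with ⟨-, h | h⟩ | h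
  · exact absurd h hq2
  · exact h
  · exact absurd h.1 hqp

theorem Q0_union {S T : Finset Nat.Primes} (h : Disjoint S T) :
    Q0 (S.disjUnion T h) = Q0 S * Q0 T := by
  unfold Q0
  rw [Finset.prod_disjUnion]

theorem squarefree_mul_Q0 {S T : Finset Nat.Primes} (h : Disjoint S T) :
    Squarefree (Q0 S * Q0 T) := by
  rw [← Q0_union h]; exact squarefree_Q0 _

theorem coprime_Q0 {S T : Finset Nat.Primes} (h : Disjoint S T) : Nat.Coprime (Q0 S) (Q0 T) :=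
  (Nat.squarefree_mul_iff.mp (squarefree_mul_Q0 h)).1

theorem Q0_erase {T : Finset Nat.Primes} [DecidableEq Nat.Primes] {t : Nat.Primes} (ht : t ∈ T) :
    Q0 T = Q0 (T.erase t) * (t : ℕ) :=
  (Finset.prod_erase_mul T (fun t : Nat.Primes => (t : ℕ)) ht).symm

variable [hp : Fact p.Prime]

/-- The inputs of the first step: Mazur's principle, and the trace of Frobenius at the Steinberg
primes. -/
structure Step1In (W : WeierstrassCurve ℤ) (p : ℕ) [Fact p.Prime] : Prop where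
  /-- Mazur's principle -/
  mz : ∀ {M q : ℕ}, q.Prime → q ≠ 2 → q ≠ p → 2 ∣ M → Squarefree (M * q) →
    ¬ q ≡ 1 [MOD p] → UnrAt W p q → W.IsResiduallyModularOfLevel p (M * q) →
    W.IsResiduallyModularOfLevel p M
  /-- the trace of Frobenius at the Steinberg primes -/
  sq : ∀ {L : ℕ} [NeZero L] {g : CuspForm (Gamma0 L) 2}, g.IsNewform → CongF W p g →
    ∀ {q : ℕ}, q.Prime → q ≠ p → q ∣ L → ¬ q ^ 2 ∣ L →
    ∀ {A : ValuationSubring Qb}, A.LiesOverPrime q → ∀ {φ : GQ}, A.IsFrobeniusAt φ q →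
      (PadicInt.toZMod (LinearMap.trace ℤ_[p] (TT (WQ W) p) (rr (WQ W) p φ))) ^ 2 =
        ((q : ZMod p) + 1) ^ 2

/-- the primes which remain after the first step -/
structure Leftover (W : WeierstrassCurve ℤ) (p : ℕ) [Fact p.Prime] (t : ℕ) : Prop where
  ne_p : t ≠ p
  ne_two : t ≠ 2
  one : t ≡ 1 [MOD p]
  unr : UnrAt W p t
  tr : ∀ A : ValuationSubring Qb, A.LiesOverPrime t → ∀ φ : GQ, A.IsFrobeniusAt φ t →
    (PadicInt.toZMod (LinearMap.trace ℤ_[p] (TT (WQ W) p) (rr (WQ W) p φ))) ^ 2 = 4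

/-- **LIFT, step one**: all primes except those of the minimal level and a set of primes congruent
to one modulo `p` can be removed from the level. -/
theorem Step1In.exists_leftover (H : Step1In W p) (hΔ : W.Δ ≠ 0)
    (hirr : W.ModRepIsIrreducible p) (hp2 : p ≠ 2) (h2Δ : (2 : ℤ) ∣ W.Δ) {M : ℕ}
    (hM : Squarefree M) (hmode : p ∣ M → (p : ℤ) ∣ W.Δ ∧ b)
    (hR : W.IsResiduallyModularOfLevel p M) :
    ∃ T : Finset Nat.Primes, Disjoint (nminSet W p b) T ∧ (∀ t ∈ T, (t : ℕ) ∣ M) ∧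
      (∀ t ∈ T, Leftover W p t) ∧ W.IsResiduallyModularOfLevel p (nmin W p b * Q0 T) := by
  classical
  have hM0 : M ≠ 0 := hM.ne_zero
  -- all primes of `M` outside of the minimal level
  let T₁ : Finset Nat.Primes := (M.primeFactors.subtype Nat.Prime).filter (· ∉ nminSet W p b)
  have hT₁ : ∀ t : Nat.Primes, t ∈ T₁ ↔ (t : ℕ) ∣ M ∧ t ∉ nminSet W p b := by
    intro t
    have h1 : t ∈ T₁ ↔ t ∈ (M.primeFactors.subtype Nat.Prime : Finset Nat.Primes) ∧
        t ∉ nminSet W p b := Finset.mem_filter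
    have h2 : t ∈ (M.primeFactors.subtype Nat.Prime : Finset Nat.Primes) ↔
        (t : ℕ) ∈ M.primeFactors := Finset.mem_subtype (p := Nat.Prime)
    rw [h1, h2, Nat.mem_primeFactors]
    exact ⟨fun h => ⟨h.1.2.1, h.2⟩, fun h => ⟨⟨t.2, h.1, hM0⟩, h.2⟩⟩
  have hdisj : ∀ T ⊆ T₁, Disjoint (nminSet W p b) T := by
    intro T hT
    rw [Finset.disjoint_right]
    exact fun t ht => ((hT₁ t).mp (hT ht)).2
  have hRT₁ : W.IsResiduallyModularOfLevel p (nmin W p b * Q0 T₁) := by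
    refine H18R.isResiduallyModular_mono hΔ hirr hR ?_
      (mul_ne_zero (nmin_pos W p b).ne' (Q0_pos T₁).ne')
    rw [← Nat.prod_primeFactors_of_squarefree hM]
    refine Finset.prod_primes_dvd _ (fun q hq => (Nat.prime_of_mem_primeFactors hq).prime)
      fun q hq => ?_
    have hqp := Nat.prime_of_mem_primeFactors hq
    have hqM := Nat.dvd_of_mem_primeFactors hq
    by_cases hmem : (⟨q, hqp⟩ : Nat.Primes) ∈ nminSet W p b
    · exact (dvd_Q0 hmem).trans (dvd_mul_right _ _)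
    · exact (dvd_Q0 ((hT₁ ⟨q, hqp⟩).mpr ⟨hqM, hmem⟩)).trans (dvd_mul_left _ _)
  -- minimal choice
  let F : Finset (Finset Nat.Primes) :=
    T₁.powerset.filter fun T => W.IsResiduallyModularOfLevel p (nmin W p b * Q0 T)
  have hF : F.Nonempty := ⟨T₁, by
    rw [Finset.mem_filter, Finset.mem_powerset]; exact ⟨Finset.Subset.refl _, hRT₁⟩⟩
  obtain ⟨T, hTF, hmin⟩ := Finset.exists_min_image F Finset.card hF
  rw [Finset.mem_filter, Finset.mem_powerset] at hTF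
  obtain ⟨hTT, hRT⟩ := hTF
  have herase : ∀ t ∈ T, ¬ W.IsResiduallyModularOfLevel p (nmin W p b * Q0 (T.erase t)) := by
    intro t ht h
    have h1 := hmin (T.erase t) (by
      rw [Finset.mem_filter, Finset.mem_powerset]
      exact ⟨(Finset.erase_subset t T).trans hTT, h⟩)
    have h2 := Finset.card_erase_lt_of_mem ht
    omega
  have h2n : ∀ T' : Finset Nat.Primes, 2 ∣ nmin W p b * Q0 T' := fun T' =>
    (two_dvd_nmin hΔ hp2 h2Δ).trans (dvd_mul_right _ _)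
  have hne2 : ∀ t ∈ T, (t : ℕ) ≠ 2 := by
    intro t ht h
    refine ((hT₁ t).mp (hTT ht)).2 ((mem_nminSet hΔ).mpr ⟨?_, Or.inl ⟨?_, Or.inl h⟩⟩)
    · rw [h]; exact_mod_cast h2Δ
    · rw [h]; exact hp2.symm
  have hnep : ∀ t ∈ T, (t : ℕ) ≠ p := by
    intro t ht h
    obtain ⟨h1, h2⟩ := (hT₁ t).mp (hTT ht)
    rw [h] at h1
    obtain ⟨h3, h4⟩ := hmode h1
    exact h2 ((mem_nminSet hΔ).mpr ⟨by rw [h]; exact h3, Or.inr ⟨h, h4⟩⟩)
  have hunr : ∀ t ∈ T, UnrAt W p t := by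
    intro t ht
    by_contra h
    have h1 := dvd_nmin_of_ram (b := b) hΔ hp.out t.2 (hnep t ht) h
    exact ((hT₁ t).mp (hTT ht)).2 ((mem_nminSet hΔ).mpr ((prime_dvd_nmin hΔ t.2).mp h1))
  have hsplit : ∀ t ∈ T, nmin W p b * Q0 T = (nmin W p b * Q0 (T.erase t)) * (t : ℕ) := by
    intro t ht
    rw [mul_assoc, ← Q0_erase ht]
  have hsqT : Squarefree (nmin W p b * Q0 T) := squarefree_mul_Q0 (hdisj T hTT)
  have hone : ∀ t ∈ T, (t : ℕ) ≡ 1 [MOD p] := by
    intro t ht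
    by_contra h
    refine herase t ht (H.mz t.2 (hne2 t ht) (hnep t ht) (h2n _) ?_ h (hunr t ht) ?_)
    · rw [← hsplit t ht]; exact hsqT
    · rw [← hsplit t ht]; exact hRT
  refine ⟨T, hdisj T hTT, fun t ht => ((hT₁ t).mp (hTT ht)).1, fun t ht =>
    ⟨hnep t ht, hne2 t ht, hone t ht, hunr t ht, ?_⟩, hRT⟩
  intro A hA φ hφ
  obtain ⟨L, hL, g, 𝔪, hLM, hg, h𝔪, hp𝔪, hx, hRL⟩ := H18R.exists_newform_level hΔ hirr
    hsqT.ne_zero hRT
  have htL : (t : ℕ) ∣ L := by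
    by_contra htL
    refine herase t ht (H18R.isResiduallyModular_mono hΔ hirr hRL ?_
      (mul_ne_zero (nmin_pos W p b).ne' (Q0_pos _).ne'))
    rw [hsplit t ht] at hLM
    exact Nat.Coprime.dvd_of_dvd_mul_right
      (((Nat.Prime.coprime_iff_not_dvd t.2).mpr htL).symm) hLM
  have htL2 : ¬ (t : ℕ) ^ 2 ∣ L := by
    intro h
    rw [pow_two] at h
    exact t.2.not_isUnit (hsqT _ (h.trans hLM))
  rw [H.sq hg ⟨𝔪, h𝔪, hp𝔪, hx⟩ t.2 (hnep t ht) htL htL2 hA hφ]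
  have h8 : (((t : ℕ) : ℕ) : ZMod p) = 1 := by
    have := (ZMod.natCast_eq_natCast_iff _ _ _).mpr (hone t ht)
    rwa [Nat.cast_one] at this
  rw [h8]; norm_num

/-- the removal of the primes congruent to one modulo `p` (hypothesis) -/
def LLprop (W : WeierstrassCurve ℤ) (p : ℕ) [Fact p.Prime] (b : Prop) : Prop :=
  ∀ (T : Finset Nat.Primes) (M₀ : ℕ), (p ≠ 3 ∨ 2 ∣ M₀) → Squarefree M₀ →
    Nat.Coprime (Q0 T) M₀ → (p ∣ M₀ ↔ b) →
    (p ∣ M₀ → ¬ W.IsResiduallyModularOfLevel p (Q0 T * (M₀ / p))) →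
    (∀ q : ℕ, q.Prime → q ≠ p → q ∣ M₀ → ¬ UnrAt W p q ∨
      (¬ q ^ 2 ≡ 1 [MOD p] ∧ ¬ W.IsResiduallyModularOfLevel p (Q0 T * (M₀ / q)))) →
    (∀ t ∈ T, (t : ℕ) ≠ p) → (∀ t ∈ T, (t : ℕ) ≡ 1 [MOD p]) → (∀ t ∈ T, UnrAt W p t) →
    (∀ t ∈ T, ∀ A : ValuationSubring Qb, A.LiesOverPrime (t : ℕ) → ∀ φ : GQ,
      A.IsFrobeniusAt φ t →
      (PadicInt.toZMod (LinearMap.trace ℤ_[p] (TT (WQ W) p) (rr (WQ W) p φ))) ^ 2 = 4) →
    W.IsResiduallyModularOfLevel p (Q0 T * M₀) → W.IsResiduallyModularOfLevel p M₀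

/-- the level obtained by the first step -/
structure MinLevel (W : WeierstrassCurve ℤ) (p : ℕ) [Fact p.Prime] (N : ℕ) : Prop where
  sq : Squarefree N
  rm : W.IsResiduallyModularOfLevel p N
  /-- the mode at `p` -/
  mode : p ∣ N ↔ ModeS W p
  dvd_disc : ∀ q : ℕ, q.Prime → q ∣ N → (q : ℤ) ∣ W.Δ
  /-- the primes of the level are ramified, or equal to `2` -/
  ram : ∀ q : ℕ, q.Prime → q ≠ p → q ∣ N → ¬ UnrAt W p q ∨
    (q = 2 ∧ p ≠ 3 ∧ UnrAt W p 2 ∧ ¬ W.IsResiduallyModularOfLevel p (N / 2))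
  /-- the ramified primes divide the level -/
  dvd : ∀ q : ℕ, q.Prime → q ≠ p → ¬ UnrAt W p q → q ∣ N
  two : 2 ∣ N ∨ (p ≠ 3 ∧ UnrAt W p 2)
  /-- `p` cannot be removed -/
  pnew : p ∣ N → ¬ W.IsResiduallyModularOfLevel p (N / p)

theorem two_sq_ne_one (hp3 : p ≠ 3) : ¬ 2 ^ 2 ≡ 1 [MOD p] := by
  intro h
  have h1 := (Nat.modEq_iff_dvd' (by norm_num)).mp h.symm
  have h2 : p ∣ 3 := by simpa using h1
  exact hp3 ((Nat.prime_dvd_prime_iff_eq hp.out Nat.prime_three).mp h2)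

/-- if `p` divides all even levels, then it cannot be removed -/
theorem ModeS.not_rm (hS : ModeS W p) (hΔ : W.Δ ≠ 0) (hirr : W.ModRepIsIrreducible p)
    (hp2 : p ≠ 2) {M : ℕ} (hM : Squarefree M) (hpM : p ∣ M) {K : ℕ} (hK : Squarefree (K * M)) :
    ¬ W.IsResiduallyModularOfLevel p (K * (M / p)) := by
  obtain ⟨c, hc⟩ := hpM
  have hM0 : M ≠ 0 := hM.ne_zero
  have hdiv : M / p = c := by rw [hc]; exact Nat.mul_div_cancel_left c hp.out.pos
  rw [hdiv]
  intro h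
  have hKc : K * M = p * (K * c) := by rw [hc]; ring
  rw [hKc] at hK
  have hcop := (Nat.squarefree_mul_iff.mp hK).1
  have hsqKc := (Nat.squarefree_mul_iff.mp hK).2.2
  have hne : Nat.lcm 2 (K * c) ≠ 0 := Nat.lcm_ne_zero two_ne_zero hsqKc.ne_zero
  have hpl : p ∣ Nat.lcm 2 (K * c) := by
    refine hS _ ?_ (Nat.dvd_lcm_left _ _)
      (H18R.isResiduallyModular_mono hΔ hirr h (Nat.dvd_lcm_right _ _) hne)
    by_cases h2 : 2 ∣ K * c
    · rw [Nat.lcm_eq_right h2]; exact hsqKc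
    · rw [Nat.Coprime.lcm_eq_mul ((Nat.Prime.coprime_iff_not_dvd Nat.prime_two).mpr h2)]
      exact (Nat.squarefree_mul_iff).mpr
        ⟨(Nat.Prime.coprime_iff_not_dvd Nat.prime_two).mpr h2, Nat.prime_two.prime.squarefree,
          hsqKc⟩
  have h3 : Nat.lcm 2 (K * c) ∣ 2 * (K * c) :=
    Nat.lcm_dvd (dvd_mul_right _ _) (dvd_mul_left _ _)
  rcases (Nat.Prime.dvd_mul hp.out).mp (hpl.trans h3) with h4 | h4
  · exact hp2 ((Nat.prime_dvd_prime_iff_eq hp.out Nat.prime_two).mp h4)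
  · have h5 := Nat.eq_one_of_dvd_coprimes hcop dvd_rfl h4
    exact hp.out.one_lt.ne' h5

/-- **LIFT, step one, final form.** -/
theorem Step1In.exists_minLevel (H : Step1In W p) (hΔ : W.Δ ≠ 0)
    (hirr : W.ModRepIsIrreducible p) (hp2 : p ≠ 2) (h2Δ : (2 : ℤ) ∣ W.Δ)
    (h3 : p = 3 → ¬ UnrAt W p 2) (ll : LLprop W p (ModeS W p))
    {M₀ : ℕ} (h2M : 2 ∣ M₀) (hsq : Squarefree M₀) (hpM : p ∣ M₀ → (p : ℤ) ∣ W.Δ)
    (hRM : W.IsResiduallyModularOfLevel p M₀) : ∃ N : ℕ, MinLevel W p N := by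
  classical
  -- the mode at `p`
  obtain ⟨M, -, hM, hmode, hmode', hR⟩ : ∃ M : ℕ, 2 ∣ M ∧ Squarefree M ∧
      (p ∣ M → (p : ℤ) ∣ W.Δ ∧ ModeS W p) ∧ (ModeS W p → (p : ℤ) ∣ W.Δ) ∧
      W.IsResiduallyModularOfLevel p M := by
    by_cases hS : ModeS W p
    · have h1 := hS M₀ hsq h2M hRM
      exact ⟨M₀, h2M, hsq, fun _ => ⟨hpM h1, hS⟩, fun _ => hpM h1, hRM⟩
    · have hS' := hS
      unfold ModeS at hS'
      push Not at hS'
      obtain ⟨M, h1, h2, h3, h4⟩ := hS'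
      exact ⟨M, h2, h1, fun h => absurd h h4, fun h => absurd h hS, h3⟩
  set b := ModeS W p with hb
  obtain ⟨T, hdisj, -, hT, hRT⟩ := H.exists_leftover (b := b) hΔ hirr hp2 h2Δ hM hmode hR
  have hcop : Nat.Coprime (Q0 T) (nmin W p b) := (coprime_Q0 hdisj).symm
  have hsqN := squarefree_nmin W p b
  have hsqNT : Squarefree (Q0 T * nmin W p b) := by
    rw [mul_comm]; exact squarefree_mul_Q0 hdisj
  have hpN : p ∣ nmin W p b ↔ b := by
    rw [p_dvd_nmin hΔ hp.out]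
    exact ⟨fun h => h.2, fun h => ⟨hmode' h, h⟩⟩
  rw [mul_comm] at hRT
  have h2N : 2 ∣ nmin W p b := two_dvd_nmin hΔ hp2 h2Δ
  have hpnew : ∀ K N : ℕ, Squarefree (K * N) → (p ∣ N ↔ b) → p ∣ N →
      ¬ W.IsResiduallyModularOfLevel p (K * (N / p)) := fun K N hKN h1 h2 =>
    ModeS.not_rm (h1.mp h2) hΔ hirr hp2 (hKN.squarefree_of_dvd (dvd_mul_left _ _)) h2 hKN
  by_cases hcase : UnrAt W p 2 ∧ W.IsResiduallyModularOfLevel p (Q0 T * (nmin W p b / 2))
  · -- the odd level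
    obtain ⟨hun, hodd⟩ := hcase
    have hp3 : p ≠ 3 := fun h => h3 h hun
    obtain ⟨c, hc⟩ := id h2N
    have hdiv : nmin W p b / 2 = c := by rw [hc]; exact Nat.mul_div_cancel_left c two_pos
    rw [hdiv] at hodd
    have hcd : c ∣ nmin W p b := ⟨2, by rw [hc, mul_comm]⟩
    have h2c : ¬ 2 ∣ c := fun h => by
      have h5 : 2 * 2 ∣ nmin W p b := by rw [hc]; exact mul_dvd_mul_left 2 h
      exact Nat.prime_two.not_isUnit (hsqN _ h5)
    have hsqc : Squarefree c := hsqN.squarefree_of_dvd hcd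
    have hpc : p ∣ c ↔ b := by
      rw [← hpN, hc]
      refine ⟨fun h => h.trans (dvd_mul_left _ _), fun h => ?_⟩
      exact ((Nat.Prime.dvd_mul hp.out).mp h).resolve_left
        fun h' => hp2 ((Nat.prime_dvd_prime_iff_eq hp.out Nat.prime_two).mp h')
    have hram : ∀ q : ℕ, q.Prime → q ≠ p → q ∣ c → ¬ UnrAt W p q := fun q hq hqp hqc =>
      not_unrAt_of_dvd_nmin hΔ hq (fun h => h2c (h ▸ hqc)) hqp (hqc.trans hcd)
    have hsqTc : Squarefree (Q0 T * c) := hsqNT.squarefree_of_dvd (mul_dvd_mul_left _ hcd)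
    have hrmc : W.IsResiduallyModularOfLevel p c :=
      ll T c (Or.inl hp3) hsqc (hcop.coprime_dvd_right hcd) hpc (hpnew _ _ hsqTc hpc)
        (fun q hq hqp hqc => Or.inl (hram q hq hqp hqc)) (fun t ht => (hT t ht).ne_p)
        (fun t ht => (hT t ht).one) (fun t ht => (hT t ht).unr) (fun t ht => (hT t ht).tr) hodd
    refine ⟨c, hsqc, hrmc, hpc, fun q hq hqc => ((prime_dvd_nmin hΔ hq).mp (hqc.trans hcd)).1,
      fun q hq hqp hqc => Or.inl (hram q hq hqp hqc), fun q hq hqp hun' => ?_,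
      Or.inr ⟨hp3, hun⟩, ?_⟩
    · have h6 := dvd_nmin_of_ram (b := b) hΔ hp.out hq hqp hun'
      rw [hc] at h6
      refine ((Nat.Prime.dvd_mul hq).mp h6).resolve_left fun h' => hun' ?_
      rw [(Nat.prime_dvd_prime_iff_eq hq Nat.prime_two).mp h']
      exact hun
    · intro h
      have h7 := hpnew 1 c (by rw [one_mul]; exact hsqc) hpc h
      rwa [one_mul] at h7
  · -- the even level
    have hstuck : UnrAt W p 2 → p ≠ 3 ∧
        ¬ W.IsResiduallyModularOfLevel p (Q0 T * (nmin W p b / 2)) :=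
      fun hun => ⟨fun h => h3 h hun, fun h => hcase ⟨hun, h⟩⟩
    have hram : ∀ q : ℕ, q.Prime → q ≠ p → q ∣ nmin W p b → ¬ UnrAt W p q ∨
        (q = 2 ∧ p ≠ 3 ∧ UnrAt W p 2 ∧
          ¬ W.IsResiduallyModularOfLevel p (Q0 T * (nmin W p b / 2))) := by
      intro q hq hqp hqN
      by_cases hq2 : q = 2
      · by_cases hun : UnrAt W p 2
        · exact Or.inr ⟨hq2, (hstuck hun).1, hun, (hstuck hun).2⟩
        · left; rw [hq2]; exact hun
      · exact Or.inl (not_unrAt_of_dvd_nmin hΔ hq hq2 hqp hqN)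
    have hrmN : W.IsResiduallyModularOfLevel p (nmin W p b) := by
      refine ll T _ (Or.inr h2N) hsqN hcop hpN (hpnew _ _ hsqNT hpN) (fun q hq hqp hqN => ?_)
        (fun t ht => (hT t ht).ne_p) (fun t ht => (hT t ht).one) (fun t ht => (hT t ht).unr)
        (fun t ht => (hT t ht).tr) hRT
      rcases hram q hq hqp hqN with h6 | ⟨rfl, h6, h7, h8⟩
      · exact Or.inl h6
      · exact Or.inr ⟨two_sq_ne_one h6, h8⟩
    refine ⟨nmin W p b, hsqN, hrmN, hpN, fun q hq hqN => ((prime_dvd_nmin hΔ hq).mp hqN).1,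
      fun q hq hqp hqN => ?_, fun q hq hqp hun => dvd_nmin_of_ram hΔ hp.out hq hqp hun,
      Or.inl h2N, ?_⟩
    · rcases hram q hq hqp hqN with h6 | ⟨rfl, h6, h7, h8⟩
      · exact Or.inl h6
      · refine Or.inr ⟨rfl, h6, h7, fun h9 => h8 (H18R.isResiduallyModular_mono hΔ hirr h9
          (dvd_mul_left _ _) ?_)⟩
        refine mul_ne_zero (Q0_pos T).ne' ?_
        obtain ⟨c, hc⟩ := h2N
        rw [hc, Nat.mul_div_cancel_left c two_pos]
        rintro rfl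
        exact (nmin_pos W p b).ne' (by rw [hc, mul_zero])
    · intro h
      have h7 := hpnew 1 _ (by rw [one_mul]; exact hsqN) hpN h
      rwa [one_mul] at h7

end

end Fermat.Agent.TFin
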