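import Fermat.Agent.LM.Match

/-!
# From a point of the bottom Hecke algebra to modularity of exact conductor level
-/

set_option autoImplicit false
set_option linter.unusedSectionVars false

noncomputable section

namespace Fermat.Agent.TFin

open CongruenceSubgroup WeierstrassCurve
open ModularFormClass (qCoeff)

/-- ring homomorphisms from the algebraic integers to a field of characteristic zero are
injective. -/
theorem injective_of_charZero {K : Type*} [Field K] [CharZero K]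
    (τ : integralClosure ℤ ℂ →+* K) : Function.Injective τ := by
  have h1 : (RingHom.ker τ).comap (algebraMap ℤ (integralClosure ℤ ℂ)) = ⊥ := by
    rw [eq_bot_iff]
    intro n hn
    rw [Ideal.mem_comap, RingHom.mem_ker] at hn
    have h2 : τ (algebraMap ℤ (integralClosure ℤ ℂ) n) = (n : K) := by simp
    rw [h2] at hn
    exact_mod_cast hn
  exact (RingHom.injective_iff_ker_eq_bot τ).mpr (Ideal.eq_bot_of_comap_eq_bot h1)

/-- **(B8)** A newform whose eigenvalues are those of the curve in some field of characteristic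
zero. -/
theorem exactConductor_of_newform {W : WeierstrassCurve ℤ} (hΔ : W.Δ ≠ 0)
    (hss : W.IsSemistableModel) {p : ℕ} [Fact p.Prime] (hp2 : p ≠ 2)
    (hirr : W.ModRepIsIrreducible p) {N : ℕ} (hsq : Squarefree N) {N0 : ℕ} [NeZero N0]
    {g : CuspForm (Gamma0 N0) 2} (hg : g.IsNewform) (hdvd : N0 ∣ N)
    {K : Type*} [Field K] [CharZero K] (τ : integralClosure ℤ ℂ →+* K) {D : ℕ} (hD : D ≠ 0)
    (h : ∀ ℓ : ℕ, ℓ.Prime → ¬ ℓ ∣ D → ∃ z : integralClosure ℤ ℂ, (z : ℂ) = qCoeff g ℓ ∧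
      τ z = ((W.apOfModel ℓ : ℤ) : K)) : Mlc1IsModularModelOfExactConductorLevel W := by
  have hsq0 : Squarefree N0 := hsq.squarefree_of_dvd hdvd
  have hkey : ∀ ℓ : ℕ, ℓ.Prime → ¬ ℓ ∣ N0 → ¬ ℓ ∣ D * W.Δ.natAbs →
      W.IsGoodPrimeFor ℓ ∧ qCoeff g ℓ = (W.apOfModel ℓ : ℂ) := by
    intro ℓ hℓ _ hℓD
    refine ⟨fun hd => hℓD (Dvd.dvd.mul_left (Int.natCast_dvd.mp hd) D), ?_⟩
    obtain ⟨z, hz1, hz2⟩ := h ℓ hℓ (fun hd => hℓD (hd.mul_right _))
    have h3 : z = ((W.apOfModel ℓ : ℤ) : integralClosure ℤ ℂ) := by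
      apply injective_of_charZero τ
      rw [hz2, map_intCast]
    rw [← hz1, h3]
    push_cast
    rfl
  obtain ⟨h1, h2⟩ := LM.level_eq_of_squarefree (M := N0) (g := g) hΔ hss hp2 hirr hg
    (mul_ne_zero hD (Int.natAbs_ne_zero.mpr hΔ)) hkey
    (fun q hq hq2 => Nat.squarefree_iff_prime_squarefree.mp hsq0 q hq
      (by rw [← pow_two]; exact hq2))
  subst h1
  exact ⟨W.conductorLevel, W.conductorLevel_pos, W.squarefree_conductorLevel,
    fun _ hq => W.prime_dvd_conductorLevel_iff hΔ hq, g, hg.1, fun q hq hgood _ => h2 q hq hgood⟩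

end Fermat.Agent.TFin
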