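import Mathlib
import Fermat.Agent.TFin.Step1
import Fermat.Agent.H18R.TopFill

/-!
# Modularity lifting, step one: the minimal level, final form
-/

set_option autoImplicit false
set_option linter.unusedSectionVars false

noncomputable section

namespace Fermat.Agent.TFin

open Fermat.Agent.TW Fermat.Agent.CC Fermat.Agent.Ell Fermat.Agent.H12.LL

variable {W : WeierstrassCurve ℤ} {p : ℕ} [hp : Fact p.Prime]

/-- the inputs of the first step -/
theorem step1In_of_geo (hΔ : W.Δ ≠ 0) (hirr : W.ModRepIsIrreducible p) (hp2 : p ≠ 2)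
    (G : H25.PT.Geo p) : Step1In W p where
  mz := fun hq hq2 hqp h2M hsq hq1 hunr hmod =>
    H18R.mazur hΔ hirr hp2 hq hq2 hqp h2M hsq hq1 hunr hmod
  sq := fun hg hcong _ hq hqp hqL hqq _ hA _ hφ =>
    H18R.sq_of_geo hΔ hirr G hg hcong hq hqp hqL hqq hA hφ

/-- **LIFT, step one.** -/
theorem exists_minLevel (hΔ : W.Δ ≠ 0) (hirr : W.ModRepIsIrreducible p) (hp2 : p ≠ 2)
    (G : H25.PT.Geo p) (h2Δ : (2 : ℤ) ∣ W.Δ) (h3 : p = 3 → ¬ UnrAt W p 2)
    (ll : LLprop W p (ModeS W p)) {M₀ : ℕ} (h2M : 2 ∣ M₀) (hsq : Squarefree M₀)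
    (hpM : p ∣ M₀ → (p : ℤ) ∣ W.Δ) (hRM : W.IsResiduallyModularOfLevel p M₀) :
    ∃ N : ℕ, MinLevel W p N :=
  (step1In_of_geo hΔ hirr hp2 G).exists_minLevel hΔ hirr hp2 h2Δ h3 ll h2M hsq hpM hRM

end Fermat.Agent.TFin
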