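import Mathlib
import Fermat.Agent.TFin.Step1b
import Fermat.Agent.TFin.Final8
import Fermat.Agent.H16.Ram2

/-!
# Modularity lifting: the top of the argument
-/

set_option autoImplicit false
set_option linter.unusedSectionVars false

noncomputable section

namespace Fermat.Agent.TFin

open Fermat.Agent.TW Fermat.Agent.CC Fermat.Agent.Ell Fermat.Agent.H12.LL
open IsLocalRing CongruenceSubgroup WeierstrassCurve
open ModularFormClass (qCoeff)

/-- The output of the towers: a newform of squarefree level with the eigenvalues of the curve. -/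
def FinOut (W : WeierstrassCurve ℤ) : Prop :=
  ∃ (N : ℕ) (_ : Squarefree N) (N0 : ℕ) (_ : NeZero N0) (g : CuspForm (Gamma0 N0) 2)
    (_ : g.IsNewform) (_ : N0 ∣ N) (K : Type) (_ : Field K) (_ : CharZero K)
    (τ : integralClosure ℤ ℂ →+* K) (D : ℕ), D ≠ 0 ∧
    ∀ ℓ : ℕ, ℓ.Prime → ¬ ℓ ∣ D → ∃ z : integralClosure ℤ ℂ, (z : ℂ) = qCoeff g ℓ ∧
      τ z = ((W.apOfModel ℓ : ℤ) : K)

variable {W : WeierstrassCurve ℤ} {p : ℕ} [hp : Fact p.Prime]

theorem FinOut.exactConductor (h : FinOut W) (hΔ : W.Δ ≠ 0) (hss : W.IsSemistableModel)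
    (hp2 : p ≠ 2) (hirr : W.ModRepIsIrreducible p) :
    Mlc1IsModularModelOfExactConductorLevel W := by
  obtain ⟨N, hsq, N0, i0, g, hg, hd, K, i1, i2, τ, D, hD, hx⟩ := h
  exact exactConductor_of_newform hΔ hss hp2 hirr hsq hg hd τ hD hx

/-- **LIFT from the black box and the towers.** -/
theorem lift_core (hΔ : W.Δ ≠ 0) (hss : W.IsSemistableModel) (h2Δ : (2 : ℤ) ∣ W.Δ) (hp2 : p ≠ 2)
    (hirr : W.ModRepIsIrreducible p) (h3 : p = 3 → ¬ 3 ∣ padicValInt 2 W.Δ) (G : H25.PT.Geo p)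
    (ll : LLprop W p (ModeS W p)) (hT : ∀ N : ℕ, MinLevel W p N → FinOut W)
    (hex : ∃ N : ℕ, 0 < N ∧ Squarefree N ∧ 2 ∣ N ∧ (p ∣ N → (p : ℤ) ∣ W.Δ) ∧
      W.IsResiduallyModularOfLevel p N) : Mlc1IsModularModelOfExactConductorLevel W := by
  obtain ⟨M₀, -, hsq, h2M, hpM, hRM⟩ := hex
  have h3' : p = 3 → ¬ UnrAt W p 2 := by
    rintro rfl
    exact H16.Ram.not_unrAt_three hΔ Nat.prime_two (by norm_num) (by exact_mod_cast h2Δ)
      (hss 2 Nat.prime_two (by exact_mod_cast h2Δ)) (h3 rfl)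
  obtain ⟨N, hN⟩ := exists_minLevel hΔ hirr hp2 G h2Δ h3' ll h2M hsq hpM hRM
  exact (hT N hN).exactConductor hΔ hss hp2 hirr

end Fermat.Agent.TFin
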