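import Mathlib
import Fermat.Agent.H26.TowB
import Fermat.Agent.H26.Tower
import Fermat.Agent.H09.MH4
import Fermat.Agent.H22.ModeTp2
import Fermat.Agent.H25.NOrd

/-!
# The output of the towers in the mode `H`
-/

set_option autoImplicit false
set_option linter.unusedSectionVars false
set_option linter.style.haveILetI false

noncomputable section

namespace Fermat.Agent.TFin

open Fermat.Agent.TC Fermat.Agent.TW Fermat.Agent.CC Fermat.Agent.H25.GE Fermat.Agent.H25.TR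
open Fermat.Agent.Ell Fermat.Agent.H25 Fermat.Agent.H25.PR Fermat.Agent.H25.PT
open Fermat.Agent.H22 Fermat.Agent.H12.LL Fermat.Agent.H09.MH Fermat.Agent.H27.MH
open Fermat.Agent.H25.St (UQ StT OrdD)
open IsLocalRing CongruenceSubgroup Matrix

variable {W : WeierstrassCurve ℤ} {p : ℕ} [hp : Fact p.Prime]

theorem mul_aC {O k : Type} [CommRing O] [Field k] {D : RD O k} {B : Type} [CommRing B]
    [Algebra O B] (C : Comp D B) (u : Oˣ) (φ σ₀ : GQ) :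
    algebraMap O B (u : O) * aC C u φ σ₀ =
      algebraMap O B (D.chi σ₀) * C.t φ - C.t (σ₀ * φ) := by
  rw [aC, ← mul_assoc, ← map_mul, Units.mul_inv, map_one, one_mul]
  rfl

/-- the quadratic relation at the points of a level prime to `p` -/
theorem uRel_of {O K : Type} [CommRing O] [IsDomain O] [IsDiscreteValuationRing O]
    [IsAdicComplete (maximalIdeal O) O] [Field K] [Algebra O K] {r : ℕ}
    [Finite (ResidueField O)] [CharZero O] [IsAlgClosed K] [FaithfulSMul O K]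
    {F : TWBase O K p r} (hp2 : p ≠ 2) (X : CmpT F) (hpN : ¬ p ∣ X.N) (hpD : p ∣ F.D₀)
    {A : ValuationSubring Qb} (hA : A.LiesOverPrime p) {psi : GQ → ℤ} (ho : OrdD F.D A psi)
    {φ σ₀ : GQ} (hφ : A.IsFrobeniusAt φ p) (hσ₀ : σ₀ ∈ A.inertiaSubgroupIn ℚ)
    {u : Oˣ} (hu : (u : O) = F.D.chi σ₀ - 1) (n : ℕ) : URel X u φ σ₀ n := by
  intro t z hz
  have hu' : IsUnit (F.D.chi σ₀ - 1) := ⟨u, hu⟩
  have hne : ∃ σ ∈ A.inertiaSubgroupIn ℚ, F.D.res (F.D.chi σ) ≠ 1 := by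
    refine ⟨σ₀, hσ₀, fun h => ?_⟩
    have h1 := hu'.map F.D.res
    rw [map_sub, map_one, h, sub_self] at h1
    exact not_isUnit_zero h1
  refine NO.relation_pt X.B.hpO F.Ge F.hchi F.hc (X.toCmp.hin 1 n) (F.hbar n) hp2 t
    (X.not_dvd_lvl n t hp.out hpN hpD) hA ho hne hφ hσ₀ hu' (α := aX X u φ σ₀ n) ?_ hz
  rw [← hu]
  exact mul_aC ((X.toCmp.cd 1 n).C (F.hbar n)) u φ σ₀

/-- **The output of the towers in the mode `H`.** -/
theorem finOut_H (hΔ : W.Δ ≠ 0) (hss : W.IsSemistableModel) (hp2 : p ≠ 2)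
    (hirr : W.ModRepIsIrreducible p) (hGW : SB.GWad p) (G : Geo p) {N : ℕ} (hN : MinLevel W p N)
    (hpΔ : (p : ℤ) ∣ W.Δ) (hnS : ¬ ModeS W p) (hnew : NewP W p 2) : FinOut W := by
  classical
  have hp0 := hp.out
  obtain ⟨O, i1, i2, i3, i4, i5, i6, i7, i8, K, i9, i10, i11, i12, i13, hpO, I, hIS, hID, hSel⟩ :=
    exists_setup hΔ hss hirr hp2 hGW G
  haveI := charP_res p O
  obtain ⟨Tw⟩ := MinLevel.exists_tow I K hpO hIS hID hN
  have hSg : ∀ q : Nat.Primes, q ∉ I.S → (q : ℕ) ≠ p ∧ W.IsGoodPrimeFor q := by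
    intro q hq
    rw [hIS, mem_bigS hΔ hp.out, not_or] at hq
    exact hq
  have hpN : ¬ p ∣ N := fun h => hnS (hN.mode.mp h)
  have hpX : ∀ j, ¬ p ∣ (Tw.X j).N := fun j h => hpN ((Tw.pN j).mp h)
  have hSD : ∀ q : Nat.Primes, q ∈ bigS W p → (q : ℕ) ∣ I.D₀ := by
    intro q hq
    rw [hID]
    rcases (mem_bigS hΔ hp0).mp hq with h | h
    · rw [h]; exact dvd_mul_right _ _
    · exact (Int.natCast_dvd.mp h).mul_left _
  have hnsq : ∀ {N : ℕ}, Squarefree N → ∀ q : ℕ, q.Prime → ¬ q * q ∣ N :=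
    fun hN q hq h => hq.not_isUnit (hN q h)
  -- the level divisible by `p`
  have hL0 : (Tw.X (Fin.last Tw.m)).N ≠ 0 := (Tw.sq _).ne_zero
  have hLsq : Squarefree ((Tw.X (Fin.last Tw.m)).N * p) := by
    rw [Nat.squarefree_mul_iff]
    exact ⟨((Nat.Prime.coprime_iff_not_dvd hp0).mpr (hpX _)).symm, Tw.sq _, hp0.prime.squarefree⟩
  have hLd : ∀ q : Nat.Primes, (q : ℕ) ∣ (Tw.X (Fin.last Tw.m)).N * p → q ∈ bigS W p := by
    intro q hq
    rw [mem_bigS hΔ hp0]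
    rcases (Nat.Prime.dvd_mul q.2).mp hq with h | h
    · exact Or.inr (Tw.disc _ q q.2 h)
    · exact Or.inl ((Nat.prime_dvd_prime_iff_eq q.2 hp0).mp h)
  obtain ⟨X', hX'⟩ : ∃ X' : CmpT (I.F K), X'.N = (Tw.X (Fin.last Tw.m)).N * p := by
    refine I.exists_cmpT K hpO hLsq.ne_zero ?_ ?_ ?_ ?_
    · rcases hN.two with h | ⟨h, -⟩
      · by_cases hp3 : p = 3
        · exact Fermat.Agent.H24R.ell_of_even ((h.trans (Tw.dvd _)).mul_right _)
        · exact Or.inl hp3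
      · exact Or.inl h
    · exact squarefree_dvd hLsq fun q hq h => hSD ⟨q, hq⟩ (hLd ⟨q, hq⟩ h)
    · exact H18R.isResiduallyModular_mono hΔ hirr (Tw.rm _) (dvd_mul_right _ _) hLsq.ne_zero
    · intro q hq
      rw [hIS]
      rcases (Nat.Prime.dvd_mul q.2).mp hq with h | h
      · exact hLd q h
      · exact hLd q (h.mul_left _)
  have hX'sq : Squarefree X'.N := by rw [hX']; exact hLsq
  have hppe : ((⟨p, hp0⟩ : Nat.Primes) : ℕ) = p := rfl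
  have hstepp : RStep (Tw.X (Fin.last Tw.m)) X' (⟨p, hp0⟩ : Nat.Primes) :=
    I.rstep hX' (hpX _)
  have hA : (plv ((⟨p, hp0⟩ : Nat.Primes) : ℕ) (⟨p, hp0⟩ : Nat.Primes).2).LiesOverPrime p :=
    plv_over p hp0
  -- the data at `p`
  obtain ⟨psi, σ₀, Q, Q', ho, hstW, hB, hσ₀, hu⟩ :=
    exists_pdata (O := O) hΔ hirr hp2 hpΔ (hss p hp0 hpΔ) hppe
  obtain ⟨u, hu'⟩ := hu
  obtain ⟨Φ, hΦ⟩ : ∃ Φ, (plv ((⟨p, hp0⟩ : Nat.Primes) : ℕ)
      (⟨p, hp0⟩ : Nat.Primes).2).IsFrobeniusAt Φ p := ⟨_, frv_spec p hp0⟩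
  obtain ⟨ϖ, hϖ⟩ := (IsPrincipalIdealRing.principal (maximalIdeal O)).principal
  have hϖ' : maximalIdeal O = Ideal.span {ϖ} := hϖ
  have hϖ0 : ϖ ≠ 0 := by
    rintro rfl
    rw [Ideal.span_singleton_eq_bot.mpr rfl] at hϖ'
    exact IsDiscreteValuationRing.not_isField O
      ((IsLocalRing.isField_iff_maximalIdeal_eq).mpr hϖ')
  obtain ⟨hy, tp, e, hTp, hye⟩ := exists_tpH (I.EW K hSg) Tw.X X' hϖ' hϖ0 hppe hstepp ho
    hΦ.mem_decompositionSubgroup hσ₀ hu'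
    (fun n => uRel_of hp2 (Tw.X (Fin.last Tw.m)) (hpX _) I.hpD₀ hA ho hΦ hσ₀ hu' n)
  -- signs
  have hT : FrD (I.F K).D p Tw.tv := RDW_FrD hΔ hirr hp2 Tw.tv (fun t => (Tw.tv_ne t).symm) Tw.tv_unr
  have hε : ∀ t, ∃ ε : O, ε ^ 2 = 1 ∧
      tW W p O (frv (Tw.tv t) (Tw.tv t).2) = ε * (((Tw.tv t : ℕ) : O) + 1) := by
    intro t
    obtain ⟨ε, h1, h2⟩ := tW_frob_mult (O := O) hΔ hirr (Tw.tv t).2 (Tw.tv_ne t) (Tw.tv_dvd t)
      (hss _ (Tw.tv t).2 (Tw.tv_dvd t)) (plv_over _ (Tw.tv t).2) (frv_spec _ (Tw.tv t).2)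
    refine ⟨ε, ?_, h2⟩
    rcases h1 with rfl | rfl
    · ring
    · ring
  choose ε hε1 hε2 using hε
  have htr : ∀ t, ((RDW hΔ hirr hp2 O).rbar (frv (Tw.tv t) (Tw.tv t).2)).trace =
      (RDW hΔ hirr hp2 O).res (ε t * (((Tw.tv t : ℕ) : O) + 1)) := by
    intro t
    rw [RD.trace_rbar, RDW_tbar, ← hε2, RDW_res]
    rfl
  have hD₀ : ∀ t, (Tw.tv t : ℕ) ∣ I.D₀ := fun t => I.hΔD₀ _ (Tw.tv t).2 (Tw.tv_dvd t)
  have hinj : Function.Injective Tw.tv := fun a b h => Tw.e.injective (Subtype.ext h)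
  have htv : ∀ q, q ∈ unrT W p ↔ ∃ t, Tw.tv t = q :=
    fun q => ⟨fun h => ⟨Tw.e.symm ⟨q, h⟩, congrArg Subtype.val (Tw.e.apply_symm_apply ⟨q, h⟩)⟩,
      fun ⟨t, ht⟩ => ht ▸ Tw.tv_mem t⟩
  have hS : ∀ n, (I.F K).S n = bigS W p ∪ Finset.univ.image
      (fun j => (⟨(I.c n).q j, (I.c n).prime j⟩ : Nat.Primes)) := by
    intro n
    rw [← hIS]
    rfl
  obtain ⟨y, hy'⟩ := liftH (I.EW K hSg) Tw.X X' hϖ' hϖ0 hT ε hε1 htr (fun n j => (I.hc n).le j)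
    Tw.j₀ (fun t h => I.rstep (Tw.step t h).1 (Tw.step t h).2) (fun t h => rin _ (Tw.tv_ne t)) hD₀
    (fun t => hnsq (Tw.sq _) _ (Tw.tv t).2)
    (fun ℓ hℓ h => by
      rcases (Nat.Prime.dvd_mul hℓ).mp (Nat.mem_primeFactors.mp h).2.1 with h | h
      · exact h
      · rw [(Nat.prime_dvd_prime_iff_eq hℓ hp.out).mp h]; exact I.hpD₀)
    (fun n t ht x => by
      obtain ⟨h1, h2⟩ := Tw.hst hnew hN.sq t ht
      refine t_frob_of_sq ((Tw.X Tw.j₀).toCmp.cd 1 n) ((I.F K).hbar n) x (Tw.tv t).2 (hε1 t) ?_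
        (htr t) ?_
      · exact hin_sq (Tw.X Tw.j₀).B.hpO I.Ge (RDW_isCyc hΔ hirr hp2) (RDW_hc hΔ hirr hp2)
          ((Tw.X Tw.j₀).toCmp.hin 1 n) x (Tw.tv t).2 (Tw.tv_ne t) (h2 n x)
          ((Tw.X Tw.j₀).not_sq_dvd_lvl n x (Tw.tv t).2 (hnsq (Tw.sq _) _ (Tw.tv t).2) (hD₀ t))
          (plv_over _ (Tw.tv t).2) (frv_spec _ (Tw.tv t).2)
      · intro h0
        apply h1
        rw [← CharP.cast_eq_zero_iff (ResidueField O) p]
        have h3 : (RDW hΔ hirr hp2 O).res (ε t) ^ 2 = 1 := by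
          rw [← map_pow, hε1, map_one]
        have h4 : (RDW hΔ hirr hp2 O).res (2 * (ε t * (((Tw.tv t : ℕ) : O) + 1))) =
            (RDW hΔ hirr hp2 O).res (ε t) * ((2 * ((Tw.tv t : ℕ) + 1) : ℕ) : ResidueField O) := by
          simp only [map_mul, map_add, map_one, map_ofNat, map_natCast, Nat.cast_mul,
            Nat.cast_add, Nat.cast_one, Nat.cast_ofNat]
          ring
        rw [h4] at h0
        rcases mul_eq_zero.mp h0 with h5 | h5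
        · rw [h5] at h3
          norm_num at h3
        · exact h5)
    hppe hstepp tp (yH (I.EW K hSg) Tw.X X' u ((psi Φ : ℤ) : O) Φ σ₀) e hy hTp hye
    (hSelI_of (I.EW K hSg) Tw.X X' hppe I.hpD₀ hS hSel hinj htv hpX
      (fun q hq hqT hqp => ⟨hSD q hq, fun j => hnsq (Tw.sq j) q q.2⟩) hB hΦ hσ₀ ⟨u, hu'⟩
      (u := ((u⁻¹ : Oˣ) : O)) (l := ((psi Φ : ℤ) : O)) (u⁻¹).isUnit _ fun n => rfl)
    () (hSels_of' (I.EW K hSg) Tw.X X' hϖ' hϖ0 hstepp hp2 hppe I.hpD₀ hS hSel hinj htv ho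
      (hnsq hX'sq p hp0) () (fun n x => hstW)
      (fun q hq hqT hqp => ⟨hSD q hq, hnsq hX'sq q q.2⟩)
      (fun n q hq hqT hqp x τ hτ => by
        have h := tW_inertia (O := O) hΔ hirr q.2 (fun h => hqp (Subtype.ext h))
          (hss _ q.2) (plv_over _ q.2) hτ
        exact h))
    (AlgHom.id O O) (tW W p O)
    (fun g => ((I.EW K hSg).H₀ ()).ev_C (I.F K).hbar₀ g ())
    (fun t => tW_inertia hΔ hirr (Tw.tv t).2 (Tw.tv_ne t) (hss _ (Tw.tv t).2)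
      (plv_over _ (Tw.tv t).2) (tmv_spec p _ (Tw.tv t) (Tw.tv t).2).2.1) hε2
  exact finOut_of_point I X' hX'sq y hy'

end Fermat.Agent.TFin
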