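import Mathlib
import Fermat.Agent.TFin.LiftTop
import Fermat.Agent.TFin.LiftSetup
import Fermat.Agent.H26.FinFS
import Fermat.Agent.H26.ModeWF
import Fermat.Agent.H19.LLp
import Fermat.Agent.H13.LL.NewP
import Fermat.Agent.H13.LL.ModeFalse
import Fermat.Agent.H13.LL.ModeTrue
import Fermat.Agent.H13.LL.ModeWT
import Fermat.Agent.H12.LL.NL
import Fermat.Agent.H25.GeoPf
import Fermat.Agent.H25.SelH
import Fermat.Agent.CFT.EC.GW
import Fermat.Agent.Ell.Z8

/-!
# The restricted modularity lifting theorem, from the hard case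
-/

set_option autoImplicit false
set_option linter.unusedSectionVars false

noncomputable section

namespace Fermat.Agent.TFin

open Fermat.Agent.TW Fermat.Agent.CC Fermat.Agent.Ell Fermat.Agent.H12.LL
open Fermat.Agent.H25 Fermat.Agent.H25.PT Fermat.Agent.H25.SB
open IsLocalRing CongruenceSubgroup WeierstrassCurve

/-- The data of LIFT. -/
structure LiftHyp (W : WeierstrassCurve ℤ) (p : ℕ) : Prop where
  p35 : p = 3 ∨ p = 5
  hΔ : W.Δ ≠ 0
  hss : W.IsSemistableModel
  h2Δ : (2 : ℤ) ∣ W.Δ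
  hirr : W.ModRepIsIrreducible p

section

variable {W : WeierstrassCurve ℤ} {p : ℕ}

theorem LiftHyp.ne_two (h : LiftHyp W p) : p ≠ 2 := by
  rcases h.p35 with h | h <;> omega

theorem LiftHyp.prime (h : LiftHyp W p) : p.Prime := by
  rcases h.p35 with h | h <;> rw [h] <;> norm_num

variable [hp : Fact p.Prime]

theorem LiftHyp.geo (_ : LiftHyp W p) : Geo p := geo_all hp.out

theorem LiftHyp.gw (h : LiftHyp W p) : GWad p := gwad h.ne_two (CFT.EC.gw h.ne_two)

theorem MinLevel.p_not_dvd {N : ℕ} (hN : MinLevel W p N) (h : ¬ (p : ℤ) ∣ W.Δ) : ¬ p ∣ N :=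
  fun h' => h (hN.dvd_disc p hp.out h')

/-- the three modes -/
theorem finOut_of_modes (H : LiftHyp W p)
    (hH : ∀ N : ℕ, MinLevel W p N → (p : ℤ) ∣ W.Δ → ¬ ModeS W p → FinOut W) :
    ∀ N : ℕ, MinLevel W p N → FinOut W := by
  intro N hN
  by_cases hpΔ : (p : ℤ) ∣ W.Δ
  · by_cases hM : ModeS W p
    · exact finOut_FS H.hΔ H.hss H.ne_two H.hirr H.geo hN
        (iff_of_true (hN.mode.mpr hM) trivial) (fun q hq => newP W p hq)
        (modeW_true H.gw hpΔ (H.hss p hp.out hpΔ))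
    · exact hH N hN hpΔ hM
  · exact finOut_FS H.hΔ H.hss H.ne_two H.hirr H.geo hN
      (iff_of_false (hN.p_not_dvd hpΔ) not_false) (fun q hq => newP W p hq)
      (modeW_false H.gw hpΔ)

/-- the level lowering input -/
theorem llprop_of_modes (H : LiftHyp W p) (hS : ModeS W p → (p : ℤ) ∣ W.Δ) :
    LLprop W p (ModeS W p) := by
  refine H19.LLp.llprop_of H.hΔ H.hirr H.ne_two H.geo (kill_of_Geo H.hΔ H.hirr H.geo)
    (nLIn_of_semistable H.hss) (fun q hq => newP W p hq) fun St => ?_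
  by_cases hM : ModeS W p
  · rw [eq_true hM]
    exact modeIn_true H.gw (hS hM) (H.hss p hp.out (hS hM)) St
  · rw [eq_false hM]
    exact modeIn_false H.gw W St

end

/-- **LIFT from the hard case.** -/
theorem lift_of_modeH
    (hH : ∀ (p : ℕ) [Fact p.Prime] (W : WeierstrassCurve ℤ), LiftHyp W p →
      ∀ N : ℕ, MinLevel W p N → (p : ℤ) ∣ W.Δ → ¬ ModeS W p → FinOut W) : LIFT := by
  intro p hp W hΔ hss h2 hirr h3 hex
  have H : LiftHyp W p := ⟨hp, hΔ, hss, h2, hirr⟩
  haveI : Fact p.Prime := ⟨H.prime⟩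
  refine lift_core hΔ hss h2 H.ne_two hirr h3 (geo_all H.prime) (llprop_of_modes H ?_)
    (finOut_of_modes H (hH p W H)) hex
  intro hS
  obtain ⟨M₀, -, hsq, h2M, hpM, hRM⟩ := hex
  exact hpM (hS M₀ hsq h2M hRM)

end Fermat.Agent.TFin
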