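import Mathlib
import Fermat.Agent.TFin.LiftAsm
import Fermat.Agent.TFin.HMode

/-!
# The restricted modularity lifting theorem
-/

set_option autoImplicit false

namespace Fermat.Agent.TFin

open Fermat.Agent.Ell Fermat.Agent.H12.LL

/-- **THE RESTRICTED MODULARITY LIFTING THEOREM.** -/
theorem lift : LIFT :=
  lift_of_modeH fun p _ W H _ hN hpΔ hnS =>
    finOut_H H.hΔ H.hss H.ne_two H.hirr H.gw H.geo hN hpΔ hnS (newP W p Nat.prime_two)

end Fermat.Agent.TFin
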