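import Fermat.Agent.TFin.Final8
import Fermat.Agent.TFin.WComp

/-!
# The point of the bottom level attached to the curve
-/

set_option autoImplicit false
set_option linter.unusedSectionVars false
set_option linter.style.haveILetI false

noncomputable section

namespace Fermat.Agent.TFin

open Fermat.Agent.H25 Fermat.Agent.H25.PR Fermat.Agent.H25.TR Fermat.Agent.TW Fermat.Agent.CC Matrix
open Fermat.Agent.H25.TWM Fermat.Agent.H25.GE Fermat.Agent.H12.LL Fermat.Agent.H05
open IsLocalRing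
open WeierstrassCurve CongruenceSubgroup
open Fermat.Agent.H08 Fermat.Agent.Ell
open ModularFormClass (qCoeff)

section Pt

variable {O k : Type} [CommRing O] [IsLocalRing O] [IsNoetherianRing O]
    [IsAdicComplete (maximalIdeal O) O] [Field k] {D : RD O k}
    {S : Finset Nat.Primes} {bad : Finset ℕ} {κ : Type} [Finite κ] [Nonempty κ]
    (H : κ → CData D S bad) (hbar : HBar D S)

/-- a point of the trace ring which factors through a component is a point of the component. -/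
theorem exists_point {i : κ} {P' : Type*} [CommRing P'] [IsDomain P'] [Algebra O P']
    [FaithfulSMul O P'] (x : AR H hbar →ₐ[O] P')
    (h : ∀ a, pr H hbar i a = 0 → x a = 0) :
    ∃ y : (H i).X, ∀ a, pt H hbar i y a = 0 ↔ x a = 0 := by
  classical
  haveI := Fintype.ofFinite (H i).X
  haveI hP : (RingHom.ker x).IsPrime := RingHom.ker_isPrime _
  have h1 : ∏ y : (H i).X, RingHom.ker (pt H hbar i y) ≤ RingHom.ker x := by
    intro a ha
    rw [RingHom.mem_ker]
    apply h
    refine (H i).ext_ev fun y => ?_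
    rw [map_zero]
    have h2 := Ideal.prod_le_inf ha
    rw [Submodule.mem_finsetInf] at h2
    exact h2 y (Finset.mem_univ y)
  obtain ⟨y, -, hy⟩ := (Ideal.IsPrime.prod_le hP).1 h1
  have h0 : (RingHom.ker x).comap (algebraMap O (AR H hbar)) = ⊥ := by
    rw [eq_bot_iff]
    intro a ha
    rw [Ideal.mem_comap, RingHom.mem_ker, AlgHom.commutes] at ha
    exact (FaithfulSMul.algebraMap_injective O P') (by rw [ha, map_zero])
  have heq : RingHom.ker (pt H hbar i y) = RingHom.ker x := by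
    by_contra hne
    have hlt : RingHom.ker (pt H hbar i y) < RingHom.ker x := lt_of_le_of_ne hy hne
    haveI : (RingHom.ker (pt H hbar i y)).IsPrime := RingHom.ker_isPrime _
    haveI : Algebra.IsIntegral O (AR H hbar) := inferInstance
    have h3 := Ideal.IsIntegral.comap_lt_comap (R := O) hlt
    rw [h0] at h3
    exact not_lt_bot h3
  refine ⟨y, fun a => ?_⟩
  rw [← RingHom.mem_ker, heq, RingHom.mem_ker]

/-- comparison of traces -/
theorem exists_point_trace {i : κ} (x : AR H hbar →ₐ[O] O) {tO : GQ → O}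
    (hx : ∀ g, x ((CA H hbar).t g) = tO g) [IsDomain O]
    (h : ∀ a, pr H hbar i a = 0 → x a = 0) :
    ∃ y : (H i).X, ∀ g, (H i).t y g = algebraMap O ((H i).P y) (tO g) := by
  obtain ⟨y, hy⟩ := exists_point H hbar x h
  refine ⟨y, fun g => ?_⟩
  have h1 := (hy ((CA H hbar).t g - algebraMap O _ (tO g))).mpr (by
    rw [map_sub, hx, AlgHom.commutes]
    exact sub_self _)
  rw [map_sub, pt_t, AlgHom.commutes, sub_eq_zero] at h1
  exact h1

end Pt

section Fin

variable {W : WeierstrassCurve ℤ} {p : ℕ} [hp : Fact p.Prime]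
  (hΔ : W.Δ ≠ 0) (hirr : W.ModRepIsIrreducible p) (hp2 : p ≠ 2)
  {O : Type} [CommRing O] [IsLocalRing O] [Algebra ℤ_[p] O]
  [IsLocalHom (algebraMap ℤ_[p] O)] {k : Type} [Field k] {D : RD O k}
  {S : Finset Nat.Primes} {bad : Finset ℕ}

include hΔ hirr hp2 in
/-- **(B8)**, from a point of a component with the traces of the curve. -/
theorem exactConductor_of_point (hss : W.IsSemistableModel) (H : CData D S bad) (y : H.X)
    (hy : ∀ g, H.t y g = algebraMap O (H.P y) (tW W p O g)) {N : ℕ} (hsq : Squarefree N)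
    {N0 : ℕ} [NeZero N0] {g : CuspForm (Gamma0 N0) 2} (hg : g.IsNewform) (hdvd : N0 ∣ N)
    {K : Type*} [Field K] [CharZero K] (τ : integralClosure ℤ ℂ →+* K) (ι : H.P y →+* K)
    (bad' : Finset ℕ)
    (hpt : ∀ ℓ : ℕ, ℓ.Prime → ℓ ∉ bad' → ∃ z : integralClosure ℤ ℂ, (z : ℂ) = qCoeff g ℓ ∧
      τ z = ι (H.f (H.T ℓ) y)) : Mlc1IsModularModelOfExactConductorLevel W := by
  classical
  let Dd : ℕ := (p * W.Δ.natAbs) * ∏ ℓ ∈ (bad ∪ bad').filter (fun ℓ => ℓ ≠ 0), ℓ
  have hD0 : Dd ≠ 0 := by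
    refine mul_ne_zero (mul_ne_zero hp.out.ne_zero (Int.natAbs_ne_zero.mpr hΔ)) ?_
    rw [Finset.prod_ne_zero_iff]
    intro ℓ hℓ
    exact (Finset.mem_filter.mp hℓ).2
  refine exactConductor_of_newform hΔ hss hp2 hirr hsq hg hdvd τ hD0 fun ℓ hℓ hℓD => ?_
  have hℓp : ℓ ≠ p := fun h => hℓD (h ▸ ((dvd_mul_right _ _).mul_right _))
  have hgood : W.IsGoodPrimeFor ℓ := fun h => hℓD
    (((Int.natCast_dvd.mp h).mul_left _).mul_right _)
  have hb : ℓ ∉ bad ∪ bad' := fun h => hℓD
    ((Finset.dvd_prod_of_mem _ (Finset.mem_filter.mpr ⟨h, hℓ.ne_zero⟩)).mul_left _)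
  rw [Finset.notMem_union] at hb
  obtain ⟨z, hz1, hz2⟩ := hpt ℓ hℓ hb.2
  refine ⟨z, hz1, ?_⟩
  haveI := H51.isGalois_Qbar
  obtain ⟨A, hA⟩ := exists_liesOverPrime (AlgebraicClosure ℚ) hℓ
  obtain ⟨φ, hφ⟩ := exists_isFrobeniusAt (L := AlgebraicClosure ℚ) hℓ hA
  have h1 := H.frob ℓ hℓ hb.1 A hA φ hφ y
  have h2 : tW W p O φ = ((W.apOfModel ℓ : ℤ) : O) := by
    have h := zRep_trace_frob hΔ hirr hℓ hgood hℓp hA hφ
    have h3 : LinearMap.trace ℤ_[p] (TT (WQ W) p) (rr (WQ W) p φ) = (W.apOfModel ℓ : ℤ_[p]) := h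
    rw [tW, h3, map_intCast]
  rw [hz2, ← h1, hy, h2, map_intCast, map_intCast]

end Fin

end Fermat.Agent.TFin
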